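import Fermat.Agent.S59.Arch.SpecRT

/-!
# Row S59 — arithmetic of Wiles's level `N_Σ` (helper239)
-/

set_option autoImplicit false

namespace Fermat.Agent.S59.Arch

open Finset

section

variable {p : ℕ} (hp : p.Prime) {t : PType} {Smin Sig : Finset ℕ}
  (hSmin : ∀ q ∈ Smin, q.Prime) (hSig : ∀ q ∈ Sig, q.Prime)

/-- the factor at `p` -/
def pFactor (p : ℕ) (t : PType) : ℕ :=
  match t with
  | .flat => 1
  | .sord => p
  | .ord => p

theorem wilesLevel_eq (p : ℕ) (t : PType) (Smin Sig : Finset ℕ) :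
    wilesLevel p t Smin Sig =
      (∏ q ∈ Smin.erase p, q) * (∏ q ∈ Sig \ Smin, q ^ 2) * pFactor p t := by
  cases t <;> rfl

include hp in
theorem pFactor_ne_zero (t : PType) : pFactor p t ≠ 0 := by
  cases t
  · exact one_ne_zero
  · exact hp.ne_zero
  · exact hp.ne_zero

include hSmin in
theorem prodA_ne_zero : (∏ q ∈ Smin.erase p, q) ≠ 0 :=
  Finset.prod_ne_zero_iff.mpr fun q hq => (hSmin q (Finset.mem_of_mem_erase hq)).ne_zero

include hSig in
theorem prodB_ne_zero : (∏ q ∈ Sig \ Smin, q ^ 2) ≠ 0 :=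
  Finset.prod_ne_zero_iff.mpr fun q hq =>
    pow_ne_zero 2 (hSig q (Finset.mem_sdiff.mp hq).1).ne_zero

include hp hSmin hSig in
theorem wilesLevel_ne_zero : wilesLevel p t Smin Sig ≠ 0 := by
  rw [wilesLevel_eq]
  exact mul_ne_zero (mul_ne_zero (prodA_ne_zero hSmin) (prodB_ne_zero hSig))
    (pFactor_ne_zero hp t)

include hSmin in
theorem factorization_prodA (r : ℕ) :
    (∏ q ∈ Smin.erase p, q).factorization r = if r ∈ Smin.erase p then 1 else 0 := by
  classical
  rw [Nat.factorization_prod (fun q hq => (hSmin q (Finset.mem_of_mem_erase hq)).ne_zero),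
    Finsupp.finsetSum_apply]
  have : ∀ q ∈ Smin.erase p, (q.factorization r) = if q = r then 1 else 0 := by
    intro q hq
    rw [(hSmin q (Finset.mem_of_mem_erase hq)).factorization, Finsupp.single_apply]
  rw [Finset.sum_congr rfl this, Finset.sum_ite_eq']

include hSig in
theorem factorization_prodB (r : ℕ) :
    (∏ q ∈ Sig \ Smin, q ^ 2).factorization r = if r ∈ Sig \ Smin then 2 else 0 := by
  classical
  rw [Nat.factorization_prod (fun q hq =>
      pow_ne_zero 2 (hSig q (Finset.mem_sdiff.mp hq).1).ne_zero),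
    Finsupp.finsetSum_apply]
  have : ∀ q ∈ Sig \ Smin, ((q ^ 2).factorization r) = if q = r then 2 else 0 := by
    intro q hq
    rw [Nat.factorization_pow, (hSig q (Finset.mem_sdiff.mp hq).1).factorization,
      Finsupp.smul_apply, Finsupp.single_apply]
    split_ifs <;> simp
  rw [Finset.sum_congr rfl this, Finset.sum_ite_eq']

include hp in
theorem factorization_pFactor (t : PType) (r : ℕ) :
    (pFactor p t).factorization r = if t ≠ .flat ∧ r = p then 1 else 0 := by
  cases t
  · simp [pFactor]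
  · simp only [pFactor, hp.factorization, Finsupp.single_apply, ne_eq, reduceCtorEq,
      not_false_eq_true, true_and]
    split_ifs with h1 h2 h2
    · rfl
    · exact absurd h1.symm h2
    · exact absurd h2.symm h1
    · rfl
  · simp only [pFactor, hp.factorization, Finsupp.single_apply, ne_eq, reduceCtorEq,
      not_false_eq_true, true_and]
    split_ifs with h1 h2 h2
    · rfl
    · exact absurd h1.symm h2
    · exact absurd h2.symm h1
    · rfl

include hp hSmin hSig in
theorem factorization_wilesLevel (r : ℕ) :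
    (wilesLevel p t Smin Sig).factorization r =
      (if r ∈ Smin.erase p then 1 else 0) + (if r ∈ Sig \ Smin then 2 else 0) +
        (if t ≠ .flat ∧ r = p then 1 else 0) := by
  rw [wilesLevel_eq, Nat.factorization_mul
      (mul_ne_zero (prodA_ne_zero hSmin) (prodB_ne_zero hSig)) (pFactor_ne_zero hp t),
    Nat.factorization_mul (prodA_ne_zero hSmin) (prodB_ne_zero hSig)]
  simp only [Finsupp.add_apply]
  rw [factorization_prodA hSmin, factorization_prodB hSig, factorization_pFactor hp]

include hp hSmin hSig in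
/-- `p² ∤ N_Σ`. -/
theorem not_sq_dvd_wilesLevel (hpS : p ∈ Smin) : ¬ p ^ 2 ∣ wilesLevel p t Smin Sig := by
  intro h
  have h2 := (hp.pow_dvd_iff_le_factorization (wilesLevel_ne_zero hp hSmin hSig)).mp h
  rw [factorization_wilesLevel hp hSmin hSig] at h2
  have h1 : p ∉ Smin.erase p := Finset.notMem_erase p Smin
  have h3 : p ∉ Sig \ Smin := fun hh => (Finset.mem_sdiff.mp hh).2 hpS
  rw [if_neg h1, if_neg h3] at h2
  split_ifs at h2 <;> omega

include hp hSmin hSig in
/-- `N_Σ` is cube-free. -/
theorem not_cube_dvd_wilesLevel (hpS : p ∈ Smin) (q : ℕ) (hq : q.Prime) :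
    ¬ q ^ 3 ∣ wilesLevel p t Smin Sig := by
  intro h
  have h2 := (hq.pow_dvd_iff_le_factorization (wilesLevel_ne_zero hp hSmin hSig)).mp h
  rw [factorization_wilesLevel hp hSmin hSig] at h2
  by_cases h1 : q ∈ Smin.erase p
  · have h3 : q ∉ Sig \ Smin := fun hh =>
      (Finset.mem_sdiff.mp hh).2 (Finset.mem_of_mem_erase h1)
    have h4 : ¬ (t ≠ .flat ∧ q = p) := fun hh => (Finset.ne_of_mem_erase h1) hh.2
    rw [if_pos h1, if_neg h3, if_neg h4] at h2
    omega
  · rw [if_neg h1] at h2
    by_cases h3 : q ∈ Sig \ Smin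
    · have h4 : ¬ (t ≠ .flat ∧ q = p) := by
        rintro ⟨-, rfl⟩
        exact (Finset.mem_sdiff.mp h3).2 hpS
      rw [if_pos h3, if_neg h4] at h2
      omega
    · rw [if_neg h3] at h2
      split_ifs at h2 <;> omega

include hp hSmin hSig in
/-- the primes dividing `N_Σ` lie in `Σ` -/
theorem mem_of_prime_dvd_wilesLevel (hpS : p ∈ Smin) (hsub : Smin ⊆ Sig) (q : ℕ) (hq : q.Prime)
    (h : q ∣ wilesLevel p t Smin Sig) : q ∈ Sig := by
  have h2 : 1 ≤ (wilesLevel p t Smin Sig).factorization q := by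
    have := (hq.pow_dvd_iff_le_factorization (wilesLevel_ne_zero hp hSmin hSig) (k := 1)).mp
      (by simpa using h)
    exact this
  rw [factorization_wilesLevel hp hSmin hSig] at h2
  by_cases h1 : q ∈ Smin.erase p
  · exact hsub (Finset.mem_of_mem_erase h1)
  · rw [if_neg h1] at h2
    by_cases h3 : q ∈ Sig \ Smin
    · exact (Finset.mem_sdiff.mp h3).1
    · rw [if_neg h3] at h2
      by_cases h4 : t ≠ .flat ∧ q = p
      · rw [h4.2]
        exact hsub hpS
      · rw [if_neg h4] at h2
        omega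

include hp hSmin hSig in
/-- the primes of `Σ` different from `p` divide `N_Σ` -/
theorem dvd_wilesLevel_of_mem (q : ℕ) (hqS : q ∈ Sig) (hqp : q ≠ p) :
    q ∣ wilesLevel p t Smin Sig := by
  have hq : q.Prime := hSig q hqS
  have h2 : 1 ≤ (wilesLevel p t Smin Sig).factorization q := by
    rw [factorization_wilesLevel hp hSmin hSig]
    by_cases h1 : q ∈ Smin
    · rw [if_pos (Finset.mem_erase.mpr ⟨hqp, h1⟩)]
      omega
    · rw [if_pos (Finset.mem_sdiff.mpr ⟨hqS, h1⟩)]
      omega
  have := (hq.pow_dvd_iff_le_factorization (wilesLevel_ne_zero hp hSmin hSig) (k := 1)).mpr h2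
  simpa using this

include hp in
/-- `p ∣ N_Σ` if the type is not flat -/
theorem dvd_wilesLevel_of_ne_flat (ht : t ≠ .flat) : p ∣ wilesLevel p t Smin Sig := by
  rw [wilesLevel_eq]
  refine Dvd.dvd.mul_left ?_ _
  cases t
  · exact absurd rfl ht
  · exact dvd_rfl
  · exact dvd_rfl

end

end Fermat.Agent.S59.Arch
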