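import Fermat.Agent.S59.Arch.Spec
import Fermat.Agent.S59.G4.Spec
import Fermat.Agent.S59.NC.Defs

/-!
# Row S59 — the `R = T` layer: frozen interfaces (architect helper239, v2, 21:00Z)

Board: `coord/S59.md`.  Only sorry-free definitions here.  Every `...Statement : Prop` is a
deliverable (`theorem foo : ...Statement`), owned by a CELL (sub-architect) of the board.

Route = Wiles 1995 + Taylor–Wiles (Diamond's module version of the patching):

* `sigmaCond 𝒪 p t Smin Σ` : deformations of type `Σ`: determinant cyclotomic, unramified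
  outside `Σ`, unipotent inertia at the primes of `Smin = {p} ∪ Ram(ρ̄)` different from `p`,
  NO condition at the primes of `Σ ∖ Smin`, and at `p`: flat / strictly ordinary / ordinary.
  For `Σ = Smin ∪ Q` these are LITERALLY the conditions of the frozen S56.
* `wilesLevel p t Smin Σ`   : `N_Σ = ∏_{q ∈ Smin, q ≠ p} q · ∏_{q ∈ Σ ∖ Smin} q² · (1 or p)`.
* `RTIso p 𝒪 ρ̄ t Smin Σ`    : `R_Σ ≅ T_Σ` (`T_Σ` = the Prelude ring `heckeLocal N_Σ Σ 𝒪 θ`), together
  with the numerical equality `#Φ_R = #(𝒪/η_T)` at one `𝒪`-point (the induction invariant of the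
  numerical criterion `Fermat.Agent.S59.H427.numerical_criterion_full`).
* `MinRTStatement`          (cell TW)  `R_min ≅ T_min`   (S53, S54, S56, S57 + Taylor–Wiles modules).
* `NonMinStepStatement`     (cell NM)  `Σ → Σ ∪ {q}`     (numerical criterion + Selmer + Ihara).
* `NonMinPStatement`        (cell NMP) flat `→` ordinary at `p` (only needed when `W` is
                                       multiplicative at `p` and `E[p]` is flat at `p`).
* `LevelOptStatement`       (cell LO)  `E[p]` is modular of the minimal level (S38, S39/S40 +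
                                       removal of squares).
-/

set_option autoImplicit false

open Polynomial IsLocalRing
open scoped WeierstrassCurve.Affine

namespace Fermat.Agent.S59.Arch

/-- The three local conditions at `p`. -/
inductive PType : Type
  | flat
  | sord
  | ord
  deriving DecidableEq

/-- The condition at `p` (with determinant and ramification set). -/
def pCond (𝒪 : Type) [CommRing 𝒪] (p : ℕ) (t : PType) (Sig : Finset ℕ) :
    ∀ ⦃A : Type⦄ [CommRing A] [IsLocalRing A] [Algebra 𝒪 A], GaloisRepAdic A → Prop :=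
  fun _A _ _ _ ρ =>
    match t with
    | .flat => GaloisRep.flatCondition 𝒪 p Sig ρ
    | .sord => GaloisRep.strictOrdinaryCondition 𝒪 p Sig ρ
    | .ord => GaloisRep.ordinaryCondition 𝒪 p Sig ρ

/-- **Deformations of type `Σ`.**  For `t = .sord` / `.flat` and `Sig = Smin ∪ Q` this unfolds to
the two conditions of the frozen statement S56. -/
def sigmaCond (𝒪 : Type) [CommRing 𝒪] (p : ℕ) (t : PType) (Smin Sig : Finset ℕ) :
    ∀ ⦃A : Type⦄ [CommRing A] [IsLocalRing A] [Algebra 𝒪 A], GaloisRepAdic A → Prop :=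
  fun _A _ _ _ ρ =>
    pCond 𝒪 p t Sig ρ ∧ ∀ q ∈ Smin, q.Prime → q ≠ p → ρ.IsUnipotentOnInertiaAt q

/-- **Wiles's level `N_Σ`.** -/
noncomputable def wilesLevel (p : ℕ) (t : PType) (Smin Sig : Finset ℕ) : ℕ :=
  (∏ q ∈ Smin.erase p, q) * (∏ q ∈ Sig \ Smin, q ^ 2) *
    (match t with
      | .flat => 1
      | .sord => p
      | .ord => p)

section RT

variable (p : ℕ) [Fact p.Prime]
  (𝒪 : Type) [CommRing 𝒪] [IsDomain 𝒪] [IsDiscreteValuationRing 𝒪]
  [IsAdicComplete (maximalIdeal 𝒪) 𝒪]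
  (ρbar : ResidualGaloisRep (ResidueField 𝒪))

/-- **Modularity of `ρ̄` at level `N` away from `S`**: a character `θ` of the anemic Hecke algebra
with values in the residue field whose values at the `T_ℓ` are the traces of Frobenius. -/
def ResModular (N : ℕ) (S : Finset ℕ) : Prop :=
  ∃ (_ : NeZero N) (θ : CuspForm.heckeAlgebra N 2 (↑S : Set ℕ) →+* ResidueField 𝒪),
    G4.ResFrobCond ρbar θ

/-- **`R_Σ ≅ T_Σ`** with the numerical invariant.  `T_Σ` is the Prelude ring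
`CuspForm.heckeLocal N_Σ Σ 𝒪 θ`; `H` is a Hecke–Galois datum on it (layer G4) of type `Σ`;
EVERY compatible map `φ : R_Σ → T_Σ` from a universal deformation ring of type `Σ` (one exists
by S53 + S54) is bijective, and `#Φ_R = #(𝒪/η_T) < ∞` at some `𝒪`-point `π` of `T_Σ`. -/
def RTIso (t : PType) (Smin Sig : Finset ℕ) : Prop :=
  ∃ (_ : NeZero (wilesLevel p t Smin Sig))
    (_ : Fact (CuspForm.HasIntegralStructure (wilesLevel p t Smin Sig) 2))
    (θ : CuspForm.heckeAlgebra (wilesLevel p t Smin Sig) 2 (↑Sig : Set ℕ) →+* ResidueField 𝒪)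
    (_ : IsLocalRing (CuspForm.heckeLocal (wilesLevel p t Smin Sig) (↑Sig : Set ℕ) 𝒪 θ))
    (_ : IsNoetherianRing (CuspForm.heckeLocal (wilesLevel p t Smin Sig) (↑Sig : Set ℕ) 𝒪 θ))
    (_ : IsAdicComplete
      (maximalIdeal (CuspForm.heckeLocal (wilesLevel p t Smin Sig) (↑Sig : Set ℕ) 𝒪 θ))
      (CuspForm.heckeLocal (wilesLevel p t Smin Sig) (↑Sig : Set ℕ) 𝒪 θ))
    (_ : IsLocalHom
      (algebraMap 𝒪 (CuspForm.heckeLocal (wilesLevel p t Smin Sig) (↑Sig : Set ℕ) 𝒪 θ)))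
    (_ : Module.Finite 𝒪 (CuspForm.heckeLocal (wilesLevel p t Smin Sig) (↑Sig : Set ℕ) 𝒪 θ))
    (_ : Module.Free 𝒪 (CuspForm.heckeLocal (wilesLevel p t Smin Sig) (↑Sig : Set ℕ) 𝒪 θ))
    (H : CuspForm.HeckeGaloisRepDatum (wilesLevel p t Smin Sig) (↑Sig : Set ℕ) 𝒪 θ
      (CuspForm.heckeLocal (wilesLevel p t Smin Sig) (↑Sig : Set ℕ) 𝒪 θ)),
    H.π = CuspForm.heckeLocal.π (wilesLevel p t Smin Sig) (↑Sig : Set ℕ) 𝒪 θ ∧
    H.ρ.residual.IsEquiv (ρbar.baseChangeAlong (ResidueField.map (algebraMap 𝒪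
      (CuspForm.heckeLocal (wilesLevel p t Smin Sig) (↑Sig : Set ℕ) 𝒪 θ)))) ∧
    sigmaCond 𝒪 p t Smin Sig H.ρ ∧
    ∀ (D : GaloisRep.DeformationRingData 𝒪 ρbar (sigmaCond 𝒪 p t Smin Sig))
      (φ : D.R →ₐ[𝒪] CuspForm.heckeLocal (wilesLevel p t Smin Sig) (↑Sig : Set ℕ) 𝒪 θ),
      (∃ hφ : IsLocalHom
          (φ : D.R →+* CuspForm.heckeLocal (wilesLevel p t Smin Sig) (↑Sig : Set ℕ) 𝒪 θ),
        (D.ρ.baseChangeAlong
          (φ : D.R →+* CuspForm.heckeLocal (wilesLevel p t Smin Sig) (↑Sig : Set ℕ) 𝒪 θ)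
          hφ).IsEquiv H.ρ) →
      Function.Bijective φ ∧
        ∃ π : CuspForm.heckeLocal (wilesLevel p t Smin Sig) (↑Sig : Set ℕ) 𝒪 θ →ₐ[𝒪] 𝒪,
          Finite (NC.Cot (π.comp φ)) ∧
          Nat.card (NC.Cot (π.comp φ)) = Nat.card (𝒪 ⧸ NC.congIdeal π)

/-- The standing hypotheses on `ρ̄` (those of the frozen S56) and on the minimal set `Smin`. -/
structure ResidualHyp (Smin : Finset ℕ) : Prop where
  hp2 : p ≠ 2
  hp𝒪 : (p : 𝒪) ∈ maximalIdeal 𝒪
  habs : ρbar.IsAbsolutelyIrreducible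
  hdet : (GaloisRepAdic.ofResidualGaloisRep ρbar).DetIsCyclotomic p
  hsplit : ∀ σ : AlgebraicClosure ℚ ≃ₐ[ℚ] AlgebraicClosure ℚ,
    ∃ α β : ResidueField 𝒪, LinearMap.charpoly (ρbar.ρ σ) = (X - C α) * (X - C β)
  hTW : ∀ (K : Type) [Field K] [Algebra (ResidueField 𝒪) K]
    (G : Subgroup (AlgebraicClosure ℚ ≃ₐ[ℚ] AlgebraicClosure ℚ)), G.index = 2 →
    ∀ V : Submodule K (ρbar.baseChange K).V,
      (∀ σ ∈ G, ∀ x ∈ V, (ρbar.baseChange K).ρ σ x ∈ V) → V = ⊥ ∨ V = ⊤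
  hpSmin : p ∈ Smin
  hSmin : ∀ q ∈ Smin, q.Prime
  hmin : ∀ q : ℕ, q.Prime → q ≠ p → (q ∈ Smin ↔ ¬ ρbar.IsUnramifiedAt q)
  hunip : ∀ q ∈ Smin, q.Prime → q ≠ p →
    (GaloisRepAdic.ofResidualGaloisRep ρbar).IsUnipotentOnInertiaAt q

end RT

/-- **Cell TW: the minimal case** `R_min ≅ T_min` (Taylor–Wiles).
`t = .flat`: `ρ̄` flat at `p`, level prime to `p`.  `t = .sord`: `ρ̄` strictly ordinary and NOT flat
at `p` (très ramifié), level exactly divisible by `p`.  `𝒪` is large: `T_min` has an `𝒪`-point. -/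
def MinRTStatement : Prop :=
  ∀ (p : ℕ) [Fact p.Prime]
    (𝒪 : Type) [CommRing 𝒪] [IsDomain 𝒪] [IsDiscreteValuationRing 𝒪]
    [IsAdicComplete (maximalIdeal 𝒪) 𝒪] [Finite (ResidueField 𝒪)] [CharZero 𝒪]
    (ρbar : ResidualGaloisRep (ResidueField 𝒪)) (Smin : Finset ℕ)
    (_h : ResidualHyp p 𝒪 ρbar Smin) (t : PType)
    (_ht : (t = .flat ∧ (GaloisRepAdic.ofResidualGaloisRep ρbar).IsFlatAt p) ∨
      (t = .sord ∧ (GaloisRepAdic.ofResidualGaloisRep ρbar).IsStrictOrdinaryAt p ∧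
        ¬ (GaloisRepAdic.ofResidualGaloisRep ρbar).IsFlatAt p))
    (_hN : NeZero (wilesLevel p t Smin Smin))
    (χ : CuspForm.heckeAlgebra (wilesLevel p t Smin Smin) 2 (↑Smin : Set ℕ) →+* 𝒪)
    (_hχ : G4.ResFrobCond ρbar ((residue 𝒪).comp χ)),
    RTIso p 𝒪 ρbar t Smin Smin

/-- **Cell NM: the induction step** `Σ → Σ ∪ {q}` (`q ∉ Σ`, so `q ≠ p` and `ρ̄` is unramified
at `q`): Wiles's numerical criterion. -/
def NonMinStepStatement : Prop :=
  ∀ (p : ℕ) [Fact p.Prime]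
    (𝒪 : Type) [CommRing 𝒪] [IsDomain 𝒪] [IsDiscreteValuationRing 𝒪]
    [IsAdicComplete (maximalIdeal 𝒪) 𝒪] [Finite (ResidueField 𝒪)] [CharZero 𝒪]
    (ρbar : ResidualGaloisRep (ResidueField 𝒪)) (Smin : Finset ℕ)
    (_h : ResidualHyp p 𝒪 ρbar Smin) (t : PType) (Sig : Finset ℕ)
    (_hSig : Smin ⊆ Sig) (_hSigP : ∀ q ∈ Sig, q.Prime)
    (q : ℕ) (_hq : q.Prime) (_hqS : q ∉ Sig),
    RTIso p 𝒪 ρbar t Smin Sig → RTIso p 𝒪 ρbar t Smin (insert q Sig)

/-- **Cell NMP: the step at `p`**, from flat (level prime to `p`) to ordinary (level `N_Σ p`),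
for `ρ̄` flat AND ordinary at `p`. -/
def NonMinPStatement : Prop :=
  ∀ (p : ℕ) [Fact p.Prime]
    (𝒪 : Type) [CommRing 𝒪] [IsDomain 𝒪] [IsDiscreteValuationRing 𝒪]
    [IsAdicComplete (maximalIdeal 𝒪) 𝒪] [Finite (ResidueField 𝒪)] [CharZero 𝒪]
    (ρbar : ResidualGaloisRep (ResidueField 𝒪)) (Smin : Finset ℕ)
    (_h : ResidualHyp p 𝒪 ρbar Smin) (Sig : Finset ℕ)
    (_hSig : Smin ⊆ Sig) (_hSigP : ∀ q ∈ Sig, q.Prime)
    (_hord : (GaloisRepAdic.ofResidualGaloisRep ρbar).IsOrdinaryAt p),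
    RTIso p 𝒪 ρbar .flat Smin Sig → RTIso p 𝒪 ρbar .ord Smin Sig

/-- **The residual representation of `W` over `k ⊇ 𝔽_p`.** -/
noncomputable def curveResidual (p : ℕ) [Fact p.Prime] (W : WeierstrassCurve ℤ)
    (hcard : Nat.card (Submodule.torsionBy ℤ
      ((W.map (Int.castRingHom ℚ))⁄(AlgebraicClosure ℚ)).Point p) = p ^ 2)
    (hker : GaloisFactorsThroughFiniteLevel
      (WeierstrassCurve.Affine.Point.galoisRepModuleEnd (K := AlgebraicClosure ℚ) ℚ
        (W.map (Int.castRingHom ℚ)) p))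
    {k : Type} [Field k] (ι : ZMod p →+* k) : ResidualGaloisRep k :=
  ((W.map (Int.castRingHom ℚ)).residualGaloisRepOf p hcard hker).baseChangeAlong ι

/-- `Smin = {p} ∪ Ram(ρ̄)`. -/
def IsMinSet {k : Type} [Field k] (p : ℕ) (ρbar : ResidualGaloisRep k) (Smin : Finset ℕ) : Prop :=
  p ∈ Smin ∧ (∀ q ∈ Smin, q.Prime) ∧
    ∀ q : ℕ, q.Prime → q ≠ p → (q ∈ Smin ↔ ¬ ρbar.IsUnramifiedAt q)

/-- **Cell LO: level optimisation** (Prelude language; no coefficient ring).  Under the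
hypotheses of S59, `W` is residually modular of the minimal level
`N_min = ∏_{q ∈ Ram(E[p]), q ≠ p} q · (p if E[p] is not flat at p)`.
Inputs: frozen S38 (`q ∥ M`, `E[p]` unramified at `q`), S39/S40 (at `p`), and the removal of
squares `q² ∥ M₀` (cell LO, leaf SQ). -/
def LevelOptStatement : Prop :=
  ∀ (p : ℕ) [Fact p.Prime] (_hp : p = 3 ∨ p = 5)
    (W : WeierstrassCurve ℤ) (_hΔ : W.Δ ≠ 0) (_hW : W.IsSemistableModel)
    (_hirr : W.ModRepIsIrreducible p)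
    (M₀ : ℕ) [NeZero M₀] (_hres₀ : W.IsResiduallyModularOfLevel p M₀)
    (_hM₀ : ¬ p ^ 2 ∣ M₀)
    (_hM₀3 : ∀ q : ℕ, q.Prime → q ≠ p → ¬ q ^ 3 ∣ M₀)
    (hcard : Nat.card (Submodule.torsionBy ℤ
      ((W.map (Int.castRingHom ℚ))⁄(AlgebraicClosure ℚ)).Point p) = p ^ 2)
    (hker : GaloisFactorsThroughFiniteLevel
      (WeierstrassCurve.Affine.Point.galoisRepModuleEnd (K := AlgebraicClosure ℚ) ℚ
        (W.map (Int.castRingHom ℚ)) p))
    (Smin : Finset ℕ)
    (_hSmin : IsMinSet p ((W.map (Int.castRingHom ℚ)).residualGaloisRepOf p hcard hker) Smin)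
    (t : PType)
    (_ht : (t = .flat ∧ (GaloisRepAdic.ofResidualGaloisRep
          ((W.map (Int.castRingHom ℚ)).residualGaloisRepOf p hcard hker)).IsFlatAt p) ∨
      (t = .sord ∧ ¬ (GaloisRepAdic.ofResidualGaloisRep
          ((W.map (Int.castRingHom ℚ)).residualGaloisRepOf p hcard hker)).IsFlatAt p)),
    W.IsResiduallyModularOfLevel p (wilesLevel p t Smin Smin)

/-- **Cell DICT: coefficients.**  If `W` is residually modular of level `N` (Prelude language: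
an eigenform and a maximal ideal of `ℤ̄`), then over a suitable coefficient ring `𝒪` (complete DVR,
characteristic `0`, finite residue field `k` in which every monic quadratic polynomial over `𝔽_p`
splits) there is an `𝒪`-valued character `χ` of the anemic Hecke algebra of level `N` away from
any finite `S ⊇ {p} ∪ primes(N)` whose reduction is the Frobenius character of `E[p] ⊗ k`.
(Completion of `ℤ[a_n(f)]` at `𝔪`, unramified quadratic extension; S42 + Chebotarev +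
Brauer–Nesbitt for the primes `ℓ ∉ S` which are bad for `W`.) -/
def DictStatement : Prop :=
  ∀ (p : ℕ) [Fact p.Prime] (_hp2 : p ≠ 2)
    (W : WeierstrassCurve ℤ) (_hΔ : W.Δ ≠ 0) (_hW : W.IsSemistableModel)
    (_hirr : W.ModRepIsIrreducible p)
    (hcard : Nat.card (Submodule.torsionBy ℤ
      ((W.map (Int.castRingHom ℚ))⁄(AlgebraicClosure ℚ)).Point p) = p ^ 2)
    (hker : GaloisFactorsThroughFiniteLevel
      (WeierstrassCurve.Affine.Point.galoisRepModuleEnd (K := AlgebraicClosure ℚ) ℚ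
        (W.map (Int.castRingHom ℚ)) p))
    (N : ℕ) [NeZero N] (S : Finset ℕ) (_hpS : p ∈ S) (_hS : ∀ q ∈ S, q.Prime)
    (_hNS : ∀ q : ℕ, q.Prime → q ∣ N → q ∈ S)
    (_hmod : W.IsResiduallyModularOfLevel p N),
    ∃ (𝒪 : Type) (_ : CommRing 𝒪) (_ : IsDomain 𝒪) (_ : IsDiscreteValuationRing 𝒪)
      (_ : IsAdicComplete (maximalIdeal 𝒪) 𝒪) (_ : Finite (ResidueField 𝒪))
      (_ : CharZero 𝒪) (ι : ZMod p →+* ResidueField 𝒪)
      (χ : CuspForm.heckeAlgebra N 2 (↑S : Set ℕ) →+* 𝒪),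
      (p : 𝒪) ∈ maximalIdeal 𝒪 ∧
      (∀ f : (ZMod p)[X], f.Monic → f.natDegree = 2 →
        ∃ α β : ResidueField 𝒪, f.map ι = (X - C α) * (X - C β)) ∧
      G4.ResFrobCond (curveResidual p W hcard hker ι) ((residue 𝒪).comp χ)

/-- **Cell GTW: the standing hypotheses hold for `E[p]`** (`W` semistable, `E[p]` irreducible,
`p ∈ {3, 5}`): absolute irreducibility, cyclotomic determinant (Weil pairing), splitting of the
characteristic polynomials, irreducibility on every subgroup of index `2` (Serre: the image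
contains `SL₂(𝔽_p)`), unipotent inertia at the ramified primes `q ≠ p`. -/
def CurveResidualHypStatement : Prop :=
  ∀ (p : ℕ) [Fact p.Prime] (_hp : p = 3 ∨ p = 5)
    (W : WeierstrassCurve ℤ) (_hΔ : W.Δ ≠ 0) (_hW : W.IsSemistableModel)
    (_hirr : W.ModRepIsIrreducible p)
    (hcard : Nat.card (Submodule.torsionBy ℤ
      ((W.map (Int.castRingHom ℚ))⁄(AlgebraicClosure ℚ)).Point p) = p ^ 2)
    (hker : GaloisFactorsThroughFiniteLevel
      (WeierstrassCurve.Affine.Point.galoisRepModuleEnd (K := AlgebraicClosure ℚ) ℚ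
        (W.map (Int.castRingHom ℚ)) p))
    (𝒪 : Type) [CommRing 𝒪] [IsDomain 𝒪] [IsDiscreteValuationRing 𝒪]
    [IsAdicComplete (maximalIdeal 𝒪) 𝒪] [Finite (ResidueField 𝒪)] [CharZero 𝒪]
    (_hp𝒪 : (p : 𝒪) ∈ maximalIdeal 𝒪)
    (ι : ZMod p →+* ResidueField 𝒪)
    (_hι : ∀ f : (ZMod p)[X], f.Monic → f.natDegree = 2 →
      ∃ α β : ResidueField 𝒪, f.map ι = (X - C α) * (X - C β))
    (Smin : Finset ℕ) (_hSmin : IsMinSet p (curveResidual p W hcard hker ι) Smin),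
    ResidualHyp p 𝒪 (curveResidual p W hcard hker ι) Smin

/-- **Cell COND: the conditions of type `Σ` are deformation conditions with finite tangent
space** (inputs of S53).  On main for `.flat` (modulo Raynaud closure of Hopf models, row A3) and
`.sord` (`Fermat.Agent.S59.H659`, `H779`, `H247`); `.ord` is a small leaf. -/
def SigmaCondStatement : Prop :=
  ∀ (p : ℕ) [Fact p.Prime] (_hp2 : p ≠ 2)
    (𝒪 : Type) [CommRing 𝒪] [IsDomain 𝒪] [IsDiscreteValuationRing 𝒪]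
    [IsAdicComplete (maximalIdeal 𝒪) 𝒪] [Finite (ResidueField 𝒪)]
    (_hp𝒪 : (p : 𝒪) ∈ maximalIdeal 𝒪)
    (t : PType) (Smin Sig : Finset ℕ),
    GaloisRep.IsDeformationCondition 𝒪 (sigmaCond 𝒪 p t Smin Sig) ∧
      ∀ ρbar : ResidualGaloisRep (ResidueField 𝒪),
        GaloisRep.TangentFinite 𝒪 ρbar (sigmaCond 𝒪 p t Smin Sig)

/-- **Cell BC: base change of the residual data** `𝔽_p → k`: ramification and flatness of
`E[p] ⊗ k` are those of `E[p]`. -/
def ResidualBCStatement : Prop :=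
  ∀ (p : ℕ) [Fact p.Prime] (ρbar : ResidualGaloisRep (ZMod p))
    (k : Type) [Field k] [Finite k] (ι : ZMod p →+* k),
    (∀ q : ℕ, q.Prime → ((ρbar.baseChangeAlong ι).IsUnramifiedAt q ↔ ρbar.IsUnramifiedAt q)) ∧
    ((GaloisRepAdic.ofResidualGaloisRep (ρbar.baseChangeAlong ι)).IsFlatAt p ↔
      (GaloisRepAdic.ofResidualGaloisRep ρbar).IsFlatAt p)

/-- **The modularity lifting theorem in point form, v2** (`𝒪` is chosen by the proof).
Same conclusion as `SemistableMLTStatement`, for SOME coefficient ring and SOME `CurveRep`. -/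
def SemistableMLT2Statement : Prop :=
  ∀ (p : ℕ) [Fact p.Prime] (_hp : p = 3 ∨ p = 5)
    (W : WeierstrassCurve ℤ) (_hΔ : W.Δ ≠ 0) (_hW : W.IsSemistableModel)
    (_hirr : W.ModRepIsIrreducible p)
    (M₀ : ℕ) [NeZero M₀] (_hres₀ : W.IsResiduallyModularOfLevel p M₀)
    (_hM₀ : ¬ p ^ 2 ∣ M₀)
    (_hM₀3 : ∀ q : ℕ, q.Prime → q ≠ p → ¬ q ^ 3 ∣ M₀),
    ∃ (𝒪 : Type) (_ : CommRing 𝒪) (_ : IsDomain 𝒪) (_ : IsDiscreteValuationRing 𝒪)
      (_ : IsAdicComplete (maximalIdeal 𝒪) 𝒪) (_ : Finite (ResidueField 𝒪))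
      (_ : CharZero 𝒪) (ρW : CurveRep p W 𝒪)
      (N : ℕ) (_ : NeZero N) (S : Finset ℕ),
      ¬ p ^ 2 ∣ N ∧ (∀ q : ℕ, q.Prime → ¬ q ^ 3 ∣ N) ∧
      (∀ ℓ : ℕ, ℓ.Prime → (ℓ : ℤ) ∣ W.Δ → ℓ ∣ N) ∧
      (∀ ℓ ∈ S, ℓ.Prime) ∧ (∀ ℓ ∈ S, ℓ = p ∨ ℓ ∣ N) ∧ p ∈ S ∧
      (∀ q : ℕ, q.Prime → q ∣ N → q ∈ S) ∧
      ∃ (θ : CuspForm.heckeAlgebra N 2 (↑S : Set ℕ) →+* ResidueField 𝒪)
        (T : Type) (_ : CommRing T) (_ : IsLocalRing T) (_ : IsNoetherianRing T)
        (_ : IsAdicComplete (maximalIdeal T) T) (_ : Algebra 𝒪 T)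
        (_ : IsLocalHom (algebraMap 𝒪 T)) (_ : Module.Finite 𝒪 T) (_ : Module.Free 𝒪 T)
        (H : CuspForm.HeckeGaloisRepDatum N (↑S : Set ℕ) 𝒪 θ T),
        PointOfDatum H ρW.ρ

end Fermat.Agent.S59.Arch
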