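import Fermat.Agent.S59.Arch.SpecRT2
import Fermat.Agent.S59.H765.NMResWiles

/-!
# Row S59, cell NM (and the module part of cells TW, NMP): frozen leaves (architect helper239)

Target of the cell: `Arch.NonMinStepMStatement` (`SpecRT2.lean`).  Board: `coord/S59.md` (v4, §NM).
Math: helper341's memo `coord/S59-NM-helper341.md`, helper427's `coord/S59-NM-invariant-helper427.md`.

## The step `Σ → Σ' = Σ ∪ {q}`,  `N' = N q²`,  `c_q = (q - 1)(a_q² - (q + 1)²)`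

Given `RTIsoM Σ` (datum `H` on `T = heckeLocal N Σ`, `R_Σ ≅ T`, point `π`, `#Φ_R = #(𝒪/η)`,
`PairInv … η²`):

1. `θ' = θ ∘ oldRestrict`, `res : T' → T` (`H765.resLocal`, ON MAIN), `H'` on `T'` of type `Σ'`
   (leaf `DatumStatement`), `res_* ρ_{T'} ≅ ρ_T` (leaf `LevelRigidStatement`), `π' = π ∘ res`.
2. every compatible `φ' : R' → T'` is onto (S54 + uniqueness in the universal property).
3. `ψ : R' ↠ R` (`TW.H959.DefRingResStatement`), `π' φ' = π φ ψ` (uniqueness), and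
   `#Φ_{R'}(π'φ') ≤ #Φ_R(πφ) · #(𝒪/c_q)` (leaf NM-SEL, `H126.NMSelStatement`).
4. `PairInv N' Σ' … (c_q² η²)` (leaf `IharaStepStatement`) and `η'² ⊆ (Gram det) ⊆ c_q² η²`
   (leaf `OmegaBoundStatement` at `Σ'`), so `η' ⊆ c_q η`; `η' ≠ 0` (`T'` reduced,
   `G4.H547.red` + `H427.congIdeal_ne_bot_of_isReduced`), so `c_q ≠ 0`.
5. `#Φ_{R'} ≤ #Φ_R #(𝒪/c_q) = #(𝒪/c_q η) ≤ #(𝒪/η')`: numerical criterion
   (`H427.numerical_criterion_full_NC`) gives `R' ≅ T'`, `#Φ_{R'} = #(𝒪/η')`; hence `η' = c_q η`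
   and `PairInv N' Σ' … η'²`.
-/

set_option autoImplicit false

open Polynomial IsLocalRing CongruenceSubgroup
open scoped WeierstrassCurve.Affine MatrixGroups

namespace Fermat.Agent.S59.Arch

open Fermat.Agent.S41.Spec Fermat.Agent.S29.H642

section Congr

variable {N : ℕ} {Sig Smin : Finset ℕ} {𝒪 : Type} [CommRing 𝒪]

/-- `IsEigenclass` only depends on the eigenvalues at the primes `l ∉ Σ`, `l ∤ N`. -/
theorem IsEigenclass.congr {a a' : ℕ → 𝒪}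
    (h : ∀ l : ℕ, l.Prime → ¬ l ∣ N → l ∉ Sig → a l = a' l) {dual : Bool}
    {x : Additive (Gamma0 N) →+ 𝒪} (hx : IsEigenclass N Sig Smin a dual x) :
    IsEigenclass N Sig Smin a' dual x := by
  refine ⟨hx.1, ?_, hx.2.2⟩
  intro l hl hlN hlS
  rw [← h l hl.out hlN hlS]
  exact hx.2.1 l hlN hlS

/-- `PairInv` only depends on the eigenvalues at the primes `l ∉ Σ`, `l ∤ N`. -/
theorem PairInv.congr {a a' : ℕ → 𝒪}
    (h : ∀ l : ℕ, l.Prime → ¬ l ∣ N → l ∉ Sig → a l = a' l) {𝔡 : Ideal 𝒪}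
    (hP : PairInv N Sig Smin a 𝔡) : PairInv N Sig Smin a' 𝔡 := by
  have h' : ∀ l : ℕ, l.Prime → ¬ l ∣ N → l ∉ Sig → a' l = a l := fun l h1 h2 h3 =>
    (h l h1 h2 h3).symm
  intro x₁ x₂ y₁ y₂ h1 h2 h3 h4
  exact hP x₁ x₂ y₁ y₂ (h1.congr h') (h2.congr h') (h3.congr h') (h4.congr h')

end Congr

/-- The eigenvalues `a` reduce to the Frobenius traces of `ρ̄` (`a` is non-Eisenstein). -/
def EigResFrob {k : Type} [Field k] (ρbar : ResidualGaloisRep k) (N : ℕ) (Sig : Finset ℕ)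
    {𝒪 : Type} [CommRing 𝒪] (red : 𝒪 →+* k) (a : ℕ → 𝒪) : Prop :=
  ∀ l : ℕ, l.Prime → ¬ l ∣ N → l ∉ Sig →
    ∀ B : ValuationSubring (AlgebraicClosure ℚ), B.LiesOverPrime l →
      ∀ σ : AlgebraicClosure ℚ ≃ₐ[ℚ] AlgebraicClosure ℚ, B.IsFrobeniusAt σ l →
        LinearMap.charpoly (ρbar.ρ σ) = X ^ 2 - C (red (a l)) * X + C ((l : k))

/-- The three types at `p` and the corresponding hypothesis on `ρ̄`. -/
def TypeHyp (p : ℕ) {k : Type} [Field k] (ρbar : ResidualGaloisRep k) (t : PType) : Prop :=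
  (t = .flat ∧ (GaloisRepAdic.ofResidualGaloisRep ρbar).IsFlatAt p) ∨
  (t = .sord ∧ (GaloisRepAdic.ofResidualGaloisRep ρbar).IsStrictOrdinaryAt p ∧
    ¬ (GaloisRepAdic.ofResidualGaloisRep ρbar).IsFlatAt p) ∨
  (t = .ord ∧ (GaloisRepAdic.ofResidualGaloisRep ρbar).IsFlatAt p ∧
    (GaloisRepAdic.ofResidualGaloisRep ρbar).IsOrdinaryAt p)

/-- **LEAF DATUM** (shared by TW, NM, NMP) `= G4 + RESEQ + H-COND`.
The Prelude ring `T_Σ = heckeLocal N_Σ Σ 𝒪 θ` carries a Hecke–Galois datum with the canonical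
Hecke structure (`G4.g4_of`, on main modulo S30), whose residual representation is `ρ̄`
(Chebotarev + Brauer–Nesbitt) and which is of type `Σ`:
determinant cyclotomic (`H540.detIsCyclotomic_of_charpoly_frob`), unramified outside `Σ` (S31),
flat at `p ∤ N` (S32), ordinary at `p ∥ N` (S33), strictly ordinary if moreover `ρ̄` is not flat
(`H649.twStrict_of_leaves`), unipotent inertia at the `q ∥ N`, `q ≠ p` (S34). -/
def DatumStatement : Prop :=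
  ∀ (p : ℕ) [Fact p.Prime]
    (𝒪 : Type) [CommRing 𝒪] [IsDomain 𝒪] [IsDiscreteValuationRing 𝒪]
    [IsAdicComplete (maximalIdeal 𝒪) 𝒪] [Finite (ResidueField 𝒪)] [CharZero 𝒪]
    (ρbar : ResidualGaloisRep (ResidueField 𝒪)) (Smin : Finset ℕ)
    (_h : ResidualHyp p 𝒪 ρbar Smin) (_hc : CurveCase p ρbar)
    (t : PType) (_ht : TypeHyp p ρbar t)
    (Sig : Finset ℕ) (_hSig : Smin ⊆ Sig) (_hSigP : ∀ q ∈ Sig, q.Prime)
    [NeZero (wilesLevel p t Smin Sig)]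
    [Fact (CuspForm.HasIntegralStructure (wilesLevel p t Smin Sig) 2)]
    (θ : CuspForm.heckeAlgebra (wilesLevel p t Smin Sig) 2 (↑Sig : Set ℕ) →+* ResidueField 𝒪)
    (_hθ : G4.ResFrobCond ρbar θ),
    ∃ H : CuspForm.HeckeGaloisRepDatum (wilesLevel p t Smin Sig) (↑Sig : Set ℕ) 𝒪 θ
        (CuspForm.heckeLocal (wilesLevel p t Smin Sig) (↑Sig : Set ℕ) 𝒪 θ),
      H.π = CuspForm.heckeLocal.π (wilesLevel p t Smin Sig) (↑Sig : Set ℕ) 𝒪 θ ∧
      H.ρ.residual.IsEquiv (ρbar.baseChangeAlong (ResidueField.map (algebraMap 𝒪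
        (CuspForm.heckeLocal (wilesLevel p t Smin Sig) (↑Sig : Set ℕ) 𝒪 θ)))) ∧
      sigmaCond 𝒪 p t Smin Sig H.ρ

/-- **LEAF RFD** (small).  The residual Hecke character of a datum with residual representation
`ρ̄` is the Frobenius character of `ρ̄`. -/
def ResFrobOfDatumStatement : Prop :=
  ∀ (N : ℕ) [NeZero N] (S : Set ℕ)
    (𝒪 : Type) [CommRing 𝒪] [IsDomain 𝒪] [IsDiscreteValuationRing 𝒪]
    [IsAdicComplete (maximalIdeal 𝒪) 𝒪]
    (ρbar : ResidualGaloisRep (ResidueField 𝒪))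
    (θ : CuspForm.heckeAlgebra N 2 S →+* ResidueField 𝒪)
    (T : Type) [CommRing T] [IsLocalRing T] [IsNoetherianRing T]
    [IsAdicComplete (maximalIdeal T) T] [Algebra 𝒪 T] [IsLocalHom (algebraMap 𝒪 T)]
    [Module.Finite 𝒪 T] [Module.Free 𝒪 T]
    (H : CuspForm.HeckeGaloisRepDatum N S 𝒪 θ T),
    H.ρ.residual.IsEquiv (ρbar.baseChangeAlong (ResidueField.map (algebraMap 𝒪 T))) →
    G4.ResFrobCond ρbar θ

/-- **LEAF RIG** (trace rigidity between two levels).  Two data `H` (level `N`, away from `S`) and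
`H'` (level `N'`, away from `S'`) with the canonical Hecke structures, related by
`res = H765.resLocal`: the push-forward of `ρ_{T'}` along `res` is `ρ_T`.
(Equal Frobenius characteristic polynomials at the primes `ℓ ∉ S'`, `ℓ ∤ N'`; Chebotarev
`Lib.Cheb.chebotarev`; `S59.H307.isEquiv_of_trace_eq`.) -/
def LevelRigidStatement : Prop :=
  ∀ (N N' : ℕ) [NeZero N] [NeZero N'] (S S' : Finset ℕ)
    (hp : H765.LevelPair N N' (↑S : Set ℕ) (↑S' : Set ℕ))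
    (_hNS : ∀ q : ℕ, q.Prime → q ∣ N → q ∈ S) (_hNS' : ∀ q : ℕ, q.Prime → q ∣ N' → q ∈ S')
    [Fact (CuspForm.HasIntegralStructure N 2)] [Fact (CuspForm.HasIntegralStructure N' 2)]
    (𝒪 : Type) [CommRing 𝒪] [IsDomain 𝒪] [IsDiscreteValuationRing 𝒪]
    [IsAdicComplete (maximalIdeal 𝒪) 𝒪] [Finite (ResidueField 𝒪)] [CharZero 𝒪]
    (θ : CuspForm.heckeAlgebra N 2 (↑S : Set ℕ) →+* ResidueField 𝒪)
    (H : CuspForm.HeckeGaloisRepDatum N (↑S : Set ℕ) 𝒪 θ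
      (CuspForm.heckeLocal N (↑S : Set ℕ) 𝒪 θ))
    (_hH : H.π = CuspForm.heckeLocal.π N (↑S : Set ℕ) 𝒪 θ)
    (H' : CuspForm.HeckeGaloisRepDatum N' (↑S' : Set ℕ) 𝒪 (θ.comp (H765.oldRestrict hp))
      (CuspForm.heckeLocal N' (↑S' : Set ℕ) 𝒪 (θ.comp (H765.oldRestrict hp))))
    (_hH' : H'.π = CuspForm.heckeLocal.π N' (↑S' : Set ℕ) 𝒪 (θ.comp (H765.oldRestrict hp)))
    (hres : IsLocalHom ((H765.resLocal hp 𝒪 θ :
      CuspForm.heckeLocal N' (↑S' : Set ℕ) 𝒪 (θ.comp (H765.oldRestrict hp)) →ₐ[𝒪]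
        CuspForm.heckeLocal N (↑S : Set ℕ) 𝒪 θ) :
      CuspForm.heckeLocal N' (↑S' : Set ℕ) 𝒪 (θ.comp (H765.oldRestrict hp)) →+*
        CuspForm.heckeLocal N (↑S : Set ℕ) 𝒪 θ)),
    (H'.ρ.baseChangeAlong _ hres).IsEquiv H.ρ

/-- **LEAF NM-IH (Ihara step; pure Betti, no Galois representation in the conclusion).**
Level `N = N_Σ`, `N' = N_{Σ ∪ q} = N q²`.  If the system `a` occurs at level `N` (`hL`) and is
non-Eisenstein (`ha`), then the Gram determinants of the eigenlattices at level `N'` are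
`c_q²` times Gram determinants at level `N`:  `PairInv N Σ 𝔡 → PairInv N' Σ' (c_q² 𝔡)`.

Proof (Wiles §2.2, helper341's memo §3): `j = i₀ - i₁ T_q + q i₂`, `j^* = q i₀ - i₁ T_q + i₂`
(`i₀ = r₁'r₁`, `i₁ = r₁'r₂`, `i₂ = r₂'r₂`) land in `ker U_q`, `ker U_q^†`;
`(j^*)^† j = -q (q - 1)(T_q² - (q + 1)²)` (coset relations HK-3/4 at `N → Nq → Nq²`); saturation
`L' = j L`, `L'^† = j^* L^†` by Ihara's lemma `N → Nq` (`Fermat.Agent.S41.iharaEigen_main`,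
`S59.H341.IharaAny`) and exactness `Nq → Nq²` (helper341), plus strong multiplicity one for the
rank. -/
def IharaStepStatement : Prop :=
  ∀ (p : ℕ) [Fact p.Prime]
    (𝒪 : Type) [CommRing 𝒪] [IsDomain 𝒪] [IsDiscreteValuationRing 𝒪]
    [IsAdicComplete (maximalIdeal 𝒪) 𝒪] [Finite (ResidueField 𝒪)] [CharZero 𝒪]
    (ρbar : ResidualGaloisRep (ResidueField 𝒪)) (Smin : Finset ℕ)
    (_h : ResidualHyp p 𝒪 ρbar Smin) (_hc : CurveCase p ρbar)
    (t : PType) (_ht : TypeHyp p ρbar t) (_ht' : t ≠ .ord)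
    (Sig : Finset ℕ) (_hSig : Smin ⊆ Sig) (_hSigP : ∀ q ∈ Sig, q.Prime)
    (q : ℕ) (_hq : q.Prime) (_hqS : q ∉ Sig)
    (a : ℕ → 𝒪) (_ha : EigResFrob ρbar (wilesLevel p t Smin Sig) Sig (residue 𝒪) a)
    (_hL : ∃ x : Additive (Gamma0 (wilesLevel p t Smin Sig)) →+ 𝒪,
      IsEigenclass (wilesLevel p t Smin Sig) Sig Smin a false x ∧ x ≠ 0)
    (𝔡 : Ideal 𝒪),
    PairInv (wilesLevel p t Smin Sig) Sig Smin a 𝔡 →
      PairInv (wilesLevel p t Smin (insert q Sig)) (insert q Sig) Smin a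
        (Ideal.span {((q : 𝒪) - 1) * (a q ^ 2 - ((q : 𝒪) + 1) ^ 2)} ^ 2 * 𝔡)

/-- **LEAF NM-OMEGA (`η_T ⊆ η_M`).**  At every level `N_Σ` and every `𝒪`-point `π` of `T_Σ` there
are eigenclasses `x₁, x₂ ∈ L`, `y₁, y₂ ∈ L^†` whose Gram determinant generates an ideal
containing `η_T(π)²`.
(`M_Σ = ⋂ ker U_q ⊂ C_N(𝒪)_θ` is a `T_Σ`-module — Eichler–Shimura, S21 — in perfect duality with
`M_Σ^† = ⋂ ker U_q^†` — `S59.H585.gamma0Pairing_bijective`; `L = M_Σ[𝔭]`, `L^† = M_Σ^†[𝔭]` have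
rank `2`; `Ω = M/(M[𝔭] ⊕ M[I]) ≅ (L^†)^∨ / L` and `#Ω ≤ #(𝒪/η)²`: `H427.card_omegaMod_le`.) -/
def OmegaBoundStatement : Prop :=
  ∀ (p : ℕ) [Fact p.Prime]
    (𝒪 : Type) [CommRing 𝒪] [IsDomain 𝒪] [IsDiscreteValuationRing 𝒪]
    [IsAdicComplete (maximalIdeal 𝒪) 𝒪] [Finite (ResidueField 𝒪)] [CharZero 𝒪]
    (ρbar : ResidualGaloisRep (ResidueField 𝒪)) (Smin : Finset ℕ)
    (_h : ResidualHyp p 𝒪 ρbar Smin) (_hc : CurveCase p ρbar)
    (t : PType) (_ht : TypeHyp p ρbar t) (_ht' : t ≠ .ord)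
    (Sig : Finset ℕ) (_hSig : Smin ⊆ Sig) (_hSigP : ∀ q ∈ Sig, q.Prime)
    [NeZero (wilesLevel p t Smin Sig)]
    [Fact (CuspForm.HasIntegralStructure (wilesLevel p t Smin Sig) 2)]
    (θ : CuspForm.heckeAlgebra (wilesLevel p t Smin Sig) 2 (↑Sig : Set ℕ) →+* ResidueField 𝒪)
    (_hθ : G4.ResFrobCond ρbar θ)
    (π : CuspForm.heckeLocal (wilesLevel p t Smin Sig) (↑Sig : Set ℕ) 𝒪 θ →ₐ[𝒪] 𝒪),
    ∃ x₁ x₂ y₁ y₂ : Additive (Gamma0 (wilesLevel p t Smin Sig)) →+ 𝒪,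
      IsEigenclass (wilesLevel p t Smin Sig) Sig Smin
        (eigOf (wilesLevel p t Smin Sig) (↑Sig : Set ℕ) 𝒪 θ π) false x₁ ∧
      IsEigenclass (wilesLevel p t Smin Sig) Sig Smin
        (eigOf (wilesLevel p t Smin Sig) (↑Sig : Set ℕ) 𝒪 θ π) false x₂ ∧
      IsEigenclass (wilesLevel p t Smin Sig) Sig Smin
        (eigOf (wilesLevel p t Smin Sig) (↑Sig : Set ℕ) 𝒪 θ π) true y₁ ∧
      IsEigenclass (wilesLevel p t Smin Sig) Sig Smin
        (eigOf (wilesLevel p t Smin Sig) (↑Sig : Set ℕ) 𝒪 θ π) true y₂ ∧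
      NC.congIdeal π ^ 2 ≤ Ideal.span
        {maninPairing (Gamma0 (wilesLevel p t Smin Sig)) x₁ y₁ *
            maninPairing (Gamma0 (wilesLevel p t Smin Sig)) x₂ y₂ -
          maninPairing (Gamma0 (wilesLevel p t Smin Sig)) x₁ y₂ *
            maninPairing (Gamma0 (wilesLevel p t Smin Sig)) x₂ y₁}

end Fermat.Agent.S59.Arch
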