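import Fermat.Agent.S59.Arch.Spec

/-!
# Row S59 — glue G2: from the modularity lifting theorem in point form to (RT)

`rt_of_mlt : CoeffStatement → FrobExistsStatement → CurveRepStatement → SemistableMLTStatement
  → RTStatement`.
-/

set_option autoImplicit false

namespace Fermat.Agent.S59.Arch

open Polynomial WeierstrassCurve Fermat.Agent.S59.H239

/-- A coefficient ring exists for every prime `p` (e.g. `ℤ_[p]`). -/
def CoeffStatement : Prop :=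
  ∀ p : ℕ, p.Prime → ∃ (𝒪 : Type) (_ : CommRing 𝒪) (_ : IsDomain 𝒪)
    (_ : IsDiscreteValuationRing 𝒪) (_ : IsAdicComplete (IsLocalRing.maximalIdeal 𝒪) 𝒪)
    (_ : Finite (IsLocalRing.ResidueField 𝒪)) (_ : CharZero 𝒪),
    (p : 𝒪) ∈ IsLocalRing.maximalIdeal 𝒪

section CharpolyLemmas

variable {A : Type} [CommRing A] [IsLocalRing A]

/-- Equivalent representations have the same characteristic polynomials. -/
theorem charpoly_eq_of_isEquiv {ρ₁ ρ₂ : GaloisRepAdic A} (h : ρ₁.IsEquiv ρ₂) (σ : GQ) :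
    LinearMap.charpoly (ρ₁.ρ σ) = LinearMap.charpoly (ρ₂.ρ σ) := by
  obtain ⟨e⟩ := h
  have hconj : ρ₂.ρ σ = e.toLinearEquiv.conj (ρ₁.ρ σ) := by
    apply LinearMap.ext
    intro y
    rw [LinearEquiv.conj_apply_apply]
    rw [e.map_apply, LinearEquiv.apply_symm_apply]
  rw [hconj, LinearEquiv.charpoly_conj]

/-- Characteristic polynomials commute with base change. -/
theorem charpoly_baseChangeAlong {B : Type} [CommRing B] [IsLocalRing B] (φ : A →+* B)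
    (hφ : IsLocalHom φ) (ρ : GaloisRepAdic A) (σ : GQ) :
    LinearMap.charpoly ((ρ.baseChangeAlong φ hφ).ρ σ) = (LinearMap.charpoly (ρ.ρ σ)).map φ := by
  letI : Algebra A B := φ.toAlgebra
  exact LinearMap.charpoly_baseChange (ρ.ρ σ) B

end CharpolyLemmas

/-- Comparing the coefficient of `X` in two monic quadratics. -/
theorem coeff_one_of_quadratic_eq {R : Type} [CommRing R] [Nontrivial R] {a b c d : R}
    (h : (X ^ 2 - C a * X + C c : R[X]) = X ^ 2 - C b * X + C d) : a = b := by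
  have := congrArg (fun f : R[X] => f.coeff 1) h
  simpa [coeff_X_pow, coeff_X, coeff_C] using this

section Main

variable {N : ℕ} [NeZero N] {S : Finset ℕ}
  {𝒪 : Type} [CommRing 𝒪] [IsDomain 𝒪] [IsDiscreteValuationRing 𝒪]
  [IsAdicComplete (IsLocalRing.maximalIdeal 𝒪) 𝒪] [CharZero 𝒪]
  {θ : CuspForm.heckeAlgebra N 2 (↑S : Set ℕ) →+* IsLocalRing.ResidueField 𝒪}
  {T : Type} [CommRing T] [IsLocalRing T] [IsNoetherianRing T]
  [IsAdicComplete (IsLocalRing.maximalIdeal T) T] [Algebra 𝒪 T] [IsLocalHom (algebraMap 𝒪 T)]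
  [Module.Finite 𝒪 T] [Module.Free 𝒪 T]

/-- **G2 (core).**  If a representation `ρ` over `𝒪` whose Frobenius traces at the primes
`ℓ ∉ S` are the integers `a ℓ` is a point of a Hecke–Galois datum of level `N` away from
`S ⊇ primes(N)`, then the anemic Hecke algebra has a `ℤ`-valued character with `T_ℓ ↦ a ℓ`. -/
theorem exists_int_char_of_point (hFrob : FrobExistsStatement)
    (hNS : ∀ q : ℕ, q.Prime → q ∣ N → q ∈ S)
    (H : CuspForm.HeckeGaloisRepDatum N (↑S : Set ℕ) 𝒪 θ T) (ρ : GaloisRepAdic 𝒪)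
    (a : ℕ → ℤ)
    (hρ : ∀ ℓ : ℕ, ℓ.Prime → ℓ ∉ S →
      ∀ A : ValuationSubring Qb, A.LiesOverPrime ℓ → ∀ σ : GQ, A.IsFrobeniusAt σ ℓ →
        LinearMap.charpoly (ρ.ρ σ) = X ^ 2 - C ((a ℓ : ℤ) : 𝒪) * X + C ((ℓ : 𝒪)))
    (hpt : PointOfDatum H ρ) :
    ∃ χ : CuspForm.heckeAlgebra N 2 (↑S : Set ℕ) →+* ℤ,
      ∀ (ℓ : ℕ) (hℓ : ℓ.Prime) (hℓN : ¬ ℓ ∣ N) (hℓS : ℓ ∉ (↑S : Set ℕ)),
        χ (CuspForm.heckeAlgebra.T hℓ hℓN hℓS) = a ℓ := by
  obtain ⟨ψ, hψ, he⟩ := hpt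
  set χ₀ : CuspForm.heckeAlgebra N 2 (↑S : Set ℕ) →+* 𝒪 := (ψ : T →+* 𝒪).comp H.π with hχ₀
  -- values on the generators
  have hgen : ∀ (ℓ : ℕ) (hℓ : ℓ.Prime) (hℓN : ¬ ℓ ∣ N) (hℓS : ℓ ∉ (↑S : Set ℕ)),
      χ₀ (CuspForm.heckeAlgebra.T hℓ hℓN hℓS) = ((a ℓ : ℤ) : 𝒪) := by
    intro ℓ hℓ hℓN hℓS
    obtain ⟨A, σ, hA, hσ⟩ := hFrob ℓ hℓ
    have h1 := H.charpoly_frob ℓ hℓ hℓN hℓS A hA σ hσ
    have h2 := charpoly_baseChangeAlong (ψ : T →+* 𝒪) hψ H.ρ σ
    have h3 := charpoly_eq_of_isEquiv he σ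
    have h4 := hρ ℓ hℓ (by simpa using hℓS) A hA σ hσ
    rw [h1] at h2
    rw [h2] at h3
    rw [h4] at h3
    simp only [Polynomial.map_add, Polynomial.map_sub, Polynomial.map_mul, Polynomial.map_pow,
      Polynomial.map_X, Polynomial.map_C, map_natCast, Polynomial.map_natCast] at h3
    have h5 := congrArg (fun f : 𝒪[X] => f.coeff 1) h3
    simp only [coeff_add, coeff_sub, coeff_X_pow, coeff_C_mul, coeff_X_one, mul_one] at h5
    have hc : ∀ n : ℕ, ((n : 𝒪[X])).coeff 1 = 0 := fun n => by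
      rw [← C_eq_natCast, coeff_C]; simp
    have hc' : (C ((ℓ : 𝒪)) : 𝒪[X]).coeff 1 = 0 := by rw [coeff_C]; simp
    simp only [hc, hc', OfNat.one_ne_ofNat, if_false, zero_sub, add_zero, neg_inj] at h5
    exact h5
  -- the image of `χ₀` lies in `ℤ`
  have hrange : ∀ t : CuspForm.heckeAlgebra N 2 (↑S : Set ℕ),
      χ₀ t ∈ (Int.castRingHom 𝒪).range := by
    rintro ⟨t, ht⟩
    induction ht using Algebra.adjoin_induction with
    | mem x hx =>
      rcases hx with ⟨ℓ, hℓ, hℓN, hℓS, rfl⟩ | ⟨q, hqN, hq, hqS, rfl⟩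
      · exact ⟨a ℓ, (hgen ℓ hℓ hℓN hℓS).symm⟩
      · exact absurd (hNS q hq hqN) (by simpa using hqS)
    | algebraMap r =>
      refine ⟨r, ?_⟩
      have : (⟨algebraMap ℤ _ r, Subalgebra.algebraMap_mem _ r⟩ :
          CuspForm.heckeAlgebra N 2 (↑S : Set ℕ)) = algebraMap ℤ _ r := rfl
      rw [this]
      exact (map_intCast (χ₀.comp (algebraMap ℤ _)) r).symm ▸ (by simp)
    | add x y hx hy ihx ihy =>
      have : (⟨x + y, Subalgebra.add_mem _ hx hy⟩ : CuspForm.heckeAlgebra N 2 (↑S : Set ℕ)) =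
          ⟨x, hx⟩ + ⟨y, hy⟩ := rfl
      rw [this, map_add]
      exact Subring.add_mem _ ihx ihy
    | mul x y hx hy ihx ihy =>
      have : (⟨x * y, Subalgebra.mul_mem _ hx hy⟩ : CuspForm.heckeAlgebra N 2 (↑S : Set ℕ)) =
          ⟨x, hx⟩ * ⟨y, hy⟩ := rfl
      rw [this, map_mul]
      exact Subring.mul_mem _ ihx ihy
  have hinj : Function.Injective (Int.castRingHom 𝒪) := Int.cast_injective
  let e : ℤ ≃+* (Int.castRingHom 𝒪).range := RingEquiv.ofBijective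
    (Int.castRingHom 𝒪).rangeRestrict
    ⟨fun x y h => hinj (congrArg Subtype.val h), (Int.castRingHom 𝒪).rangeRestrict_surjective⟩
  refine ⟨(e.symm : (Int.castRingHom 𝒪).range →+* ℤ).comp
    (χ₀.codRestrict (Int.castRingHom 𝒪).range hrange), ?_⟩
  intro ℓ hℓ hℓN hℓS
  rw [RingHom.comp_apply]
  apply e.injective
  rw [RingEquiv.coe_toRingHom, RingEquiv.apply_symm_apply]
  apply Subtype.ext
  rw [RingHom.codRestrict_apply, hgen ℓ hℓ hℓN hℓS]
  rfl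

end Main

/-- **G2.**  (RT) from the modularity lifting theorem in point form. -/
theorem rt_of_mlt (hC : CoeffStatement) (hFrob : FrobExistsStatement)
    (hE : CurveRepStatement) (hMLT : SemistableMLTStatement) : RTStatement := by
  intro p hp W hΔ hW hirr M₀ _ hres hM₀ hM₀3
  have hpp : p.Prime := by
    rcases hp with rfl | rfl
    · exact Nat.prime_three
    · exact Nat.prime_five
  haveI : Fact p.Prime := ⟨hpp⟩
  have hp2 : p ≠ 2 := by
    rcases hp with rfl | rfl <;> decide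
  obtain ⟨𝒪, _, _, _, _, _, _, hp𝒪⟩ := hC p hpp
  obtain ⟨ρW⟩ := hE p hp2 W hΔ hW hirr 𝒪 hp𝒪
  obtain ⟨N, hNZ, S, hpN, hN3, hbad, hSprime, hSN, hpS, hNS, θ, T, _, _, _, _, _, _, _, _, H, hpt⟩ :=
    hMLT p hp W hΔ hW hirr M₀ hres hM₀ hM₀3 𝒪 hp𝒪 ρW
  refine ⟨N, hNZ, S, hpN, hN3, hbad, hSprime, hSN, ?_⟩
  refine exists_int_char_of_point hFrob hNS H ρW.ρ (fun ℓ => W.apOfModel ℓ) ?_ hpt
  intro ℓ hℓ hℓS A hA σ hσ
  refine ρW.charpoly_frob ℓ hℓ ?_ ?_ A hA σ hσ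
  · -- `ℓ` is good: bad primes divide `N`, hence lie in `S`
    intro hbadℓ
    exact hℓS (hNS ℓ hℓ (hbad ℓ hℓ hbadℓ))
  · rintro rfl
    exact hℓS hpS

end Fermat.Agent.S59.Arch
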