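import Fermat.Agent.S59.Arch.AsmNMLemmas
import Fermat.Agent.S59.Arch.SpecNM
import Fermat.Agent.S59.Arch.Glue
import Fermat.Agent.S59.Arch.WilesLevel
import Fermat.Agent.S59.NMP.Square
import Fermat.Agent.S59.NMP.Spec
import Fermat.Agent.S59.H427.ReducedCot
import Fermat.Agent.S59.G4.Spec

/-!
# Row S59, cell NM — THE ASSEMBLY of the step `Σ → Σ ∪ {q}` in `Plus` form (architect helper239)

    nonMinStepPlusH_of_leaves :
      S53 → S54 → COND → RED-T → RED → RFD → PKG → RESG → SEL → ETA → Arch.NonMinStepPlusHStatement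

Leaves (Props on main): `Arch.S53Statement`, `Arch.S54Statement` (frozen S53, S54),
`Arch.SigmaCondStatement` (CLOSED `H659.sigmaCondStatement`), `NMP.RedTStatement` (CLOSED
`NMP.H437.redT`), `G4.RedStatement` (CLOSED `G4.H547.red`), `Arch.ResFrobOfDatumStatement` (RFD),
`TW.PkgStatement` (PKG), `TW.ResGalStatement` (CLOSED `TW.H788.resGal`), `NM.SelStatement` (SEL),
`NM.EtaAbsStatement` (ETA).

Proof (board `coord/S59.md` v5 §2): package `P'` of type `Σ' = Σ ∪ {q}` over `θ' = θ ∘ oldRestrict`,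
restriction `res : T' ↠ T`, `π' = π ∘ res`; Galois square `res ∘ φ' = φ ∘ β`; SEL bounds `#Φ_{R'}`
by `#Φ_R · #(𝒪/c_q)`; ETA gives `η' ⊆ (c_q) · η`; `T'` reduced gives `η' ≠ 0`, so `c_q ≠ 0`;
numerical criterion; equality of the cardinalities gives `η' = (c_q) · η`.
-/

set_option autoImplicit false

open Polynomial IsLocalRing

namespace Fermat.Agent.S59.Arch

open Fermat.Agent.S59.NM Fermat.Agent.S59.TW Fermat.Agent.S59.TW.H959 Fermat.Agent.S59.H765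
open CuspForm Fermat.Agent.S53.H113

/-- `sigmaCond` is monotone in `Σ`. -/
theorem sigmaCond_mono239 {𝒪 : Type} [CommRing 𝒪] {p : ℕ} {t : PType}
    {Smin Sig Sig' : Finset ℕ} (hSig : Sig ⊆ Sig') {A : Type} [CommRing A] [IsLocalRing A]
    [Algebra 𝒪 A] {ρ : GaloisRepAdic A} (hρ : sigmaCond 𝒪 p t Smin Sig ρ) :
    sigmaCond 𝒪 p t Smin Sig' ρ := by
  refine ⟨?_, hρ.2⟩
  have h1 := hρ.1
  cases t with
  | flat => exact ⟨h1.1, h1.2.1, fun q hq hqS => h1.2.2 q hq (fun h => hqS (hSig h))⟩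
  | sord => exact ⟨h1.1, h1.2.1, fun q hq hqS => h1.2.2 q hq (fun h => hqS (hSig h))⟩
  | ord => exact ⟨h1.1, h1.2.1, fun q hq hqS => h1.2.2 q hq (fun h => hqS (hSig h))⟩

/-- **ASSEMBLY of cell NM** (`Plus` form). -/
theorem nonMinStepPlusH_of_leaves (h53 : S53Statement) (h54 : S54Statement)
    (hCOND : SigmaCondStatement) (hREDT : Fermat.Agent.S59.NMP.RedTStatement)
    (hRED : G4.RedStatement) (hRFD : ResFrobOfDatumStatement) (hPKG : PkgStatement)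
    (hRESG : ResGalStatement) (hSEL : SelStatement) (hETA : EtaAbsStatement) :
    NonMinStepPlusHStatement := by
  intro p _ 𝒪 _ _ _ _ _ _ ρbar Smin hRH _ t ht hNmin χ hχ Sig hSig hSigP q hq hqS hplus
  classical
  have hpp : p.Prime := Fact.out
  have hpSig : p ∈ Sig := hSig hRH.hpSmin
  have htord : t ≠ .ord := by
    rcases ht with ⟨rfl, -⟩ | ⟨rfl, -⟩ <;> simp
  have hSig' : Smin ⊆ insert q Sig := hSig.trans (Finset.subset_insert q Sig)
  have hSigP' : ∀ r ∈ insert q Sig, r.Prime := by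
    intro r hr
    rcases Finset.mem_insert.mp hr with rfl | h
    · exact hq
    · exact hSigP r h
  obtain ⟨hN, P, π, hπ, hη, hcl⟩ := exists_pkg_of_rtIsoPlus hplus
  haveI hN' : NeZero (wilesLevel p t Smin (insert q Sig)) :=
    ⟨wilesLevel_ne_zero hpp hRH.hSmin hSigP'⟩
  have hNS : ∀ r : ℕ, r.Prime → r ∣ wilesLevel p t Smin Sig → r ∈ Sig :=
    fun r hr hd => prime_dvd_wilesLevel p t hSig hSigP hpSig hr hd
  have hNS' : ∀ r : ℕ, r.Prime → r ∣ wilesLevel p t Smin (insert q Sig) → r ∈ insert q Sig :=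
    fun r hr hd => prime_dvd_wilesLevel p t hSig' hSigP' (Finset.mem_insert_of_mem hpSig) hr hd
  have hNSc : ∀ r : ℕ, r.Prime → r ∣ wilesLevel p t Smin Sig → r ∈ (↑Sig : Set ℕ) :=
    fun r hr hd => Finset.mem_coe.mpr (hNS r hr hd)
  have hNSc' : ∀ r : ℕ, r.Prime → r ∣ wilesLevel p t Smin (insert q Sig) →
      r ∈ (↑(insert q Sig) : Set ℕ) :=
    fun r hr hd => Finset.mem_coe.mpr (hNS' r hr hd)
  -- the package of type `Σ'`
  have hθ : G4.ResFrobCond ρbar P.θ :=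
    hRFD (wilesLevel p t Smin Sig) (↑Sig : Set ℕ) 𝒪 ρbar P.θ P.T P.H P.hres
  have hLP := levelPair_insert p t hSig hSigP hpSig hq hqS
  have hθ' : G4.ResFrobCond ρbar (P.θ.comp (oldRestrict hLP)) := resFrobCond_comp hLP hθ
  obtain ⟨P', hP'θ⟩ := hPKG p 𝒪 ρbar Smin hRH t ht (insert q Sig) hSig' hSigP'
    (P.θ.comp (oldRestrict hLP)) hθ'
  obtain ⟨res, hres, -⟩ := exists_restriction239 hLP hNS P P' hP'θ
  obtain ⟨hresloc, hcompat⟩ := hRESG p hRH.hp2 𝒪 hRH.hp𝒪 ρbar hRH.habs t Smin Sig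
    (insert q Sig) (Finset.subset_insert q Sig) P P' res hres
  -- the point
  have hπ' : ∀ (l : ℕ) (hl : l.Prime) (hlN : ¬ l ∣ wilesLevel p t Smin (insert q Sig))
      (hlS : l ∉ (↑(insert q Sig) : Set ℕ)),
      (π.comp res) (CuspForm.heckeLocal.π (wilesLevel p t Smin (insert q Sig))
        (↑(insert q Sig) : Set ℕ) 𝒪 P'.θ (CuspForm.heckeAlgebra.T hl hlN hlS)) = eig χ l := by
    intro l hl hlN' hlS'
    have hlN : ¬ l ∣ wilesLevel p t Smin Sig := fun hd => hlN' (hd.trans hLP.dvd)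
    have hlS : l ∉ (↑Sig : Set ℕ) := fun hs => hlS' (hLP.sub hs)
    have h1 := hres l hl hlN' hlS' hlN hlS
    rw [P'.hπ, P.hπ] at h1
    rw [AlgHom.comp_apply, h1]
    exact hπ l hl hlN hlS
  -- reducedness, congruence ideals
  haveI : IsReduced P.T := hRED _ _ hNSc 𝒪 P.θ
  haveI : IsReduced P'.T := hRED _ _ hNSc' 𝒪 P'.θ
  have hηne : NC.congIdeal π ≠ ⊥ := Fermat.Agent.S59.H427.congIdeal_ne_bot_of_isReduced π
  have hη'ne : NC.congIdeal (π.comp res) ≠ ⊥ :=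
    Fermat.Agent.S59.H427.congIdeal_ne_bot_of_isReduced (π.comp res)
  have hδ : cohCong (wilesLevel p t Smin Smin) Smin (eig χ) ≠ ⊥ := by
    intro h0
    apply hηne
    rw [hη]
    unfold targetIdeal
    rw [h0, Ideal.bot_mul]
  have hle' : NC.congIdeal (π.comp res) ≤
      Ideal.span {cq (eig χ) q} * targetIdeal p 𝒪 t Smin Sig (eig χ) := by
    rw [← targetIdeal_insert p 𝒪 t hSig hqS]
    exact hETA p 𝒪 ρbar Smin hRH t htord hNmin χ hχ hδ (insert q Sig) hSig' hSigP' hN'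
      P'.integral P'.θ (π.comp res) hπ'
  have hcq : cq (eig χ) q ≠ 0 := by
    intro h0
    apply hη'ne
    rw [h0, Ideal.span_singleton_zero, Ideal.bot_mul] at hle'
    exact le_bot_iff.mp hle'
  haveI : Finite (𝒪 ⧸ NC.congIdeal (π.comp res)) := finite_quot_of_ne_bot239 hη'ne
  -- the step for one compatible `φ'`
  have step : ∀ (D' : GaloisRep.DeformationRingData 𝒪 ρbar
      (sigmaCond 𝒪 p t Smin (insert q Sig))) (φ' : D'.R →ₐ[𝒪] P'.T),
      (∃ hφ : IsLocalHom (φ' : D'.R →+* P'.T),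
        (D'.ρ.baseChangeAlong (φ' : D'.R →+* P'.T) hφ).IsEquiv P'.H.ρ) →
      Function.Bijective φ' ∧ Finite (NC.Cot ((π.comp res).comp φ')) ∧
        Nat.card (NC.Cot ((π.comp res).comp φ')) =
          Nat.card (𝒪 ⧸ NC.congIdeal (π.comp res)) ∧
        NC.congIdeal (π.comp res) = targetIdeal p 𝒪 t Smin (insert q Sig) (eig χ) := by
    rintro D' φ' ⟨hφ'loc, hφ'e⟩
    -- the ring of type `Σ` and `φ : R ≅ T`
    have hcS1 := hCOND p hRH.hp2 𝒪 hRH.hp𝒪 t Smin Sig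
    have hbar : sigmaCond 𝒪 p t Smin Sig (GaloisRepAdic.ofResidualGaloisRep ρbar) :=
      hREDT 𝒪 _ hcS1.1 _ P.H.residue_surjective P.H.ρ ρbar P.hres P.hcond
    obtain ⟨D⟩ := h53 𝒪 ρbar _ hRH.habs hcS1.1 hbar (hcS1.2 ρbar)
    obtain ⟨φ, -, hφ, hφe⟩ := h54 D P.H hNSc P.hcond P.hres
    obtain ⟨-, hfin, hnum⟩ := hcl D φ ⟨hφ, hφe⟩
    -- the square
    obtain ⟨β, hβ, hβe, hsq⟩ := Fermat.Agent.S59.NMP.exists_square D D'
      (sigmaCond_mono239 (Finset.subset_insert q Sig) D.isOfType) P.H.residue_surjective P.H.ρ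
      P'.H.ρ (sigmaCond_mono239 (Finset.subset_insert q Sig) P.hcond) P.hres res hresloc
      hcompat φ hφ hφe φ' hφ'loc hφ'e
    have hφ's : Function.Surjective φ' :=
      Fermat.Agent.S59.NMP.surjective_of_compatible h54 D' P'.H hNSc' P'.hcond P'.hres φ'
        ⟨hφ'loc, hφ'e⟩
    -- the points
    have hOloc : IsLocalHom (algebraMap 𝒪 𝒪) := ⟨fun _ ha => ha⟩
    have hOsurj : Function.Surjective (residue 𝒪 ∘ algebraMap 𝒪 𝒪) := fun x => by
      obtain ⟨y, rfl⟩ := IsLocalRing.residue_surjective x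
      exact ⟨y, rfl⟩
    have hπloc : IsLocalHom (π : P.T →+* 𝒪) := isLocalHom_algHom (𝒪 := 𝒪) hOloc hOsurj π
    have hxloc : IsLocalHom ((π.comp φ : D.R →ₐ[𝒪] 𝒪) : D.R →+* 𝒪) :=
      isLocalHom_algHom (𝒪 := 𝒪) hOloc hOsurj _
    have hx'loc : IsLocalHom (((π.comp res).comp φ' : D'.R →ₐ[𝒪] 𝒪) : D'.R →+* 𝒪) :=
      isLocalHom_algHom (𝒪 := 𝒪) hOloc hOsurj _
    have hcomp : (π.comp res).comp φ' = (π.comp φ).comp β := by
      rw [AlgHom.comp_assoc, hsq, AlgHom.comp_assoc]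
    have hxe : (D.ρ.baseChangeAlong ((π.comp φ : D.R →ₐ[𝒪] 𝒪) : D.R →+* 𝒪) hxloc).IsEquiv
        (P.H.ρ.baseChangeAlong (π : P.T →+* 𝒪) hπloc) := by
      have h1 := baseChangeAlong_comp_isEquiv' (φ : D.R →+* P.T) hφ (π : P.T →+* 𝒪) hπloc
        ((π.comp φ : D.R →ₐ[𝒪] 𝒪) : D.R →+* 𝒪) hxloc rfl D.ρ
      exact isEquiv_trans (isEquiv_symm h1) (isEquiv_baseChangeAlong _ hπloc hφe)
    have hxx' : (D'.ρ.baseChangeAlong
        (((π.comp res).comp φ' : D'.R →ₐ[𝒪] 𝒪) : D'.R →+* 𝒪) hx'loc).IsEquiv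
        (D.ρ.baseChangeAlong ((π.comp φ : D.R →ₐ[𝒪] 𝒪) : D.R →+* 𝒪) hxloc) := by
      have h0 : ((π.comp φ : D.R →ₐ[𝒪] 𝒪) : D.R →+* 𝒪).comp (β : D'.R →+* D.R) =
          (((π.comp res).comp φ' : D'.R →ₐ[𝒪] 𝒪) : D'.R →+* 𝒪) := by
        rw [hcomp]
        rfl
      have h1 := baseChangeAlong_comp_isEquiv' (β : D'.R →+* D.R) hβ
        ((π.comp φ : D.R →ₐ[𝒪] 𝒪) : D.R →+* 𝒪) hxloc
        (((π.comp res).comp φ' : D'.R →ₐ[𝒪] 𝒪) : D'.R →+* 𝒪) hx'loc h0 D'.ρ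
      exact isEquiv_trans (isEquiv_symm h1) (isEquiv_baseChangeAlong _ hxloc hβe)
    -- Frobenius at `q`
    have hqN : ¬ q ∣ wilesLevel p t Smin Sig := fun hd => hqS (hNS q hq hd)
    have hqSc : q ∉ (↑Sig : Set ℕ) := fun h => hqS (Finset.mem_coe.mp h)
    have haq : ∀ B : ValuationSubring Fermat.Agent.S31.Qb, B.LiesOverPrime q →
        ∀ σ : Fermat.Agent.S31.GQ, B.IsFrobeniusAt σ q →
          LinearMap.charpoly ((D.ρ.baseChangeAlong
            ((π.comp φ : D.R →ₐ[𝒪] 𝒪) : D.R →+* 𝒪) hxloc).ρ σ) =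
            X ^ 2 - C (eig χ q) * X + C ((q : 𝒪)) := by
      intro B hB σ hσ
      have hT := hπ q hq hqN hqSc
      rw [charpoly_eq_of_isEquiv hxe σ, charpoly_baseChangeAlong,
        P.H.charpoly_frob q hq hqN hqSc B hB σ hσ, P.hπ, Polynomial.map_add,
        Polynomial.map_sub, Polynomial.map_mul, Polynomial.map_pow, Polynomial.map_X,
        Polynomial.map_C, Polynomial.map_C, RingHom.coe_coe, hT, map_natCast]
    -- SEL
    obtain ⟨hfin', hsel⟩ := hSEL p 𝒪 ρbar Smin hRH t htord Sig hSig hSigP q hq hqS D D'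
      (π.comp φ) ((π.comp res).comp φ') hxloc hx'loc hxx' (eig χ q) haq hcq hfin
    -- the numerical criterion
    have hcalc : Nat.card (NC.Cot ((π.comp res).comp φ')) ≤
        Nat.card (𝒪 ⧸ (Ideal.span {cq (eig χ) q} * targetIdeal p 𝒪 t Smin Sig (eig χ))) :=
      calc Nat.card (NC.Cot ((π.comp res).comp φ'))
          ≤ Nat.card (NC.Cot (π.comp φ)) * Nat.card (𝒪 ⧸ Ideal.span {cq (eig χ) q}) := hsel
        _ = Nat.card (𝒪 ⧸ Ideal.span {cq (eig χ) q}) *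
              Nat.card (𝒪 ⧸ targetIdeal p 𝒪 t Smin Sig (eig χ)) := by
            rw [hnum, hη, mul_comm]
        _ = Nat.card (𝒪 ⧸ (Ideal.span {cq (eig χ) q} *
              targetIdeal p 𝒪 t Smin Sig (eig χ))) :=
            (card_quot_span_mul_ideal239 hcq _).symm
    have hle : Nat.card (NC.Cot ((π.comp res).comp φ')) ≤
        Nat.card (𝒪 ⧸ NC.congIdeal (π.comp res)) :=
      hcalc.trans (card_quot_le_of_le239 hle')
    haveI := hfin'
    obtain ⟨h1, h2⟩ :=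
      Fermat.Agent.S59.H427.numerical_criterion_full_NC φ' hφ's (π.comp res) hle
    refine ⟨h1, hfin', h2, ?_⟩
    rw [targetIdeal_insert p 𝒪 t hSig hqS]
    refine ideal_eq_of_le_of_card_le239 hle' ?_
    rw [← h2]
    exact hcalc
  -- a compatible `φ'` exists
  have hcS2 := hCOND p hRH.hp2 𝒪 hRH.hp𝒪 t Smin (insert q Sig)
  have hbar' : sigmaCond 𝒪 p t Smin (insert q Sig) (GaloisRepAdic.ofResidualGaloisRep ρbar) :=
    hREDT 𝒪 _ hcS2.1 _ P'.H.residue_surjective P'.H.ρ ρbar P'.hres P'.hcond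
  obtain ⟨D'₀⟩ := h53 𝒪 ρbar _ hRH.habs hcS2.1 hbar' (hcS2.2 ρbar)
  obtain ⟨φ'₀, -, hφ'₀⟩ := h54 D'₀ P'.H hNSc' P'.hcond P'.hres
  have hη' := (step D'₀ φ'₀ hφ'₀).2.2.2
  exact rtIsoPlus_of_pkg P' (eig χ) (π.comp res) hπ' hη'
    (fun D' φ' h => ⟨(step D' φ' h).1, (step D' φ' h).2.1, (step D' φ' h).2.2.1⟩)

end Fermat.Agent.S59.Arch
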