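import Fermat.Agent.S59.Arch.PlusPkg
import Fermat.Agent.S59.TW.Spec
import Fermat.Agent.S59.H765.NMResWiles
import Fermat.Agent.S59.H360.NCFlat
import Fermat.Agent.S59.H427.TateFormula

/-!
# Row S59, cell NM — lemmas for the assembly `Arch.nonMinStepPlusH_of_leaves` (helper239)

* `card_quot_le_of_le239`, `ideal_eq_of_le_of_card_le239`, `finite_quot_of_ne_bot239`,
  `card_quot_span_mul_ideal239` : cardinalities of quotients of a DVR with finite residue field;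
* `exists_restriction239` : the restriction map `T_{Σ'} → T_Σ` between two Hecke packages whose
  residual characters are related by `H765.oldRestrict` (general `Σ ⊆ Σ'`).
-/

set_option autoImplicit false

open Polynomial IsLocalRing

namespace Fermat.Agent.S59.Arch

open Fermat.Agent.S59.TW Fermat.Agent.S59.TW.H959 Fermat.Agent.S59.H765 CuspForm

section Card

variable {𝒪 : Type} [CommRing 𝒪]

/-- `#(𝒪/J) ≤ #(𝒪/I)` for `I ≤ J`, `𝒪/I` finite. -/
theorem card_quot_le_of_le239 {I J : Ideal 𝒪} (hIJ : I ≤ J) [Finite (𝒪 ⧸ I)] :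
    Nat.card (𝒪 ⧸ J) ≤ Nat.card (𝒪 ⧸ I) :=
  Nat.card_le_card_of_surjective _ (Ideal.Quotient.factor_surjective hIJ)

/-- `I ≤ J`, `𝒪/I` finite and `#(𝒪/I) ≤ #(𝒪/J)` imply `I = J`. -/
theorem ideal_eq_of_le_of_card_le239 {I J : Ideal 𝒪} (hIJ : I ≤ J) [Finite (𝒪 ⧸ I)]
    (hcard : Nat.card (𝒪 ⧸ I) ≤ Nat.card (𝒪 ⧸ J)) : I = J := by
  refine le_antisymm hIJ ?_
  haveI : Finite (𝒪 ⧸ J) := Finite.of_surjective _ (Ideal.Quotient.factor_surjective hIJ)
  have hbij : Function.Bijective (Ideal.Quotient.factor hIJ) := by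
    rw [Nat.bijective_iff_surjective_and_card]
    exact ⟨Ideal.Quotient.factor_surjective hIJ,
      le_antisymm hcard (card_quot_le_of_le239 hIJ)⟩
  intro x hx
  have h1 : Ideal.Quotient.factor hIJ (Ideal.Quotient.mk I x) = 0 := by
    rw [Ideal.Quotient.factor_mk]
    exact Ideal.Quotient.eq_zero_iff_mem.mpr hx
  have h2 : Ideal.Quotient.mk I x = 0 := hbij.1 (by rw [h1, map_zero])
  exact Ideal.Quotient.eq_zero_iff_mem.mp h2

variable [IsDomain 𝒪] [IsDiscreteValuationRing 𝒪]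

/-- In a DVR with finite residue field, `𝒪/I` is finite for `I ≠ ⊥`. -/
theorem finite_quot_of_ne_bot239 [Finite (ResidueField 𝒪)] {I : Ideal 𝒪} (hI : I ≠ ⊥) :
    Finite (𝒪 ⧸ I) := by
  obtain ⟨d, rfl⟩ := (IsPrincipalIdealRing.principal I).principal
  have hd : d ≠ 0 := by
    rintro rfl
    apply hI
    simp
  exact Fermat.Agent.S59.H427.finite_quotient_span_singleton_of_ne_zero hd

/-- `#(𝒪/(c)·J) = #(𝒪/(c)) · #(𝒪/J)` for `c ≠ 0`. -/
theorem card_quot_span_mul_ideal239 {c : 𝒪} (hc : c ≠ 0) (J : Ideal 𝒪) :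
    Nat.card (𝒪 ⧸ (Ideal.span {c} * J)) =
      Nat.card (𝒪 ⧸ Ideal.span {c}) * Nat.card (𝒪 ⧸ J) := by
  obtain ⟨d, rfl⟩ := (IsPrincipalIdealRing.principal J).principal
  have h := Fermat.Agent.S59.H360.card_quot_span_mul c d hc
  rw [show Ideal.span {c} * Submodule.span 𝒪 {d} = Ideal.span {c * d} from
    Ideal.span_singleton_mul_span_singleton c d]
  exact h

end Card

section Res

variable {p : ℕ}
  {𝒪 : Type} [CommRing 𝒪] [IsDomain 𝒪] [IsDiscreteValuationRing 𝒪]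
  [IsAdicComplete (maximalIdeal 𝒪) 𝒪]
  {ρbar : ResidualGaloisRep (ResidueField 𝒪)} {t : PType} {Smin Sig Sig' : Finset ℕ}

/-- The restriction map `T_{Σ'} → T_Σ` of a package whose residual character is
`θ ∘ oldRestrict`: it is `H765.resLocal`, hence onto. -/
theorem exists_restriction239
    [NeZero (wilesLevel p t Smin Sig)] [NeZero (wilesLevel p t Smin Sig')]
    (hp : LevelPair (wilesLevel p t Smin Sig) (wilesLevel p t Smin Sig')
      (↑Sig : Set ℕ) (↑Sig' : Set ℕ))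
    (hNS : ∀ q : ℕ, q.Prime → q ∣ wilesLevel p t Smin Sig → q ∈ Sig)
    (P : HeckePkg p 𝒪 ρbar t Smin Sig) (P' : HeckePkg p 𝒪 ρbar t Smin Sig')
    (hθ : P'.θ = P.θ.comp (oldRestrict hp)) :
    ∃ res : P'.T →ₐ[𝒪] P.T, IsRestriction P P' res ∧ Function.Surjective res := by
  haveI := P.integral
  obtain ⟨int, θ, i1, i2, i3, i4, i5, i6, H, hπ, hres, hcond⟩ := P'
  dsimp only at hθ
  subst hθ
  haveI := int
  refine ⟨resLocal hp 𝒪 P.θ, ?_, resLocal_surjective_of_datum hp 𝒪 P.θ hNS P.H P.hπ⟩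
  intro ℓ hℓ hℓN' hℓS' hℓN hℓS
  show resLocal hp 𝒪 P.θ (H.π _) = P.H.π _
  rw [hπ, P.hπ]
  exact resLocal_T hp 𝒪 P.θ hℓ hℓN' hℓS' hℓN hℓS

end Res

end Fermat.Agent.S59.Arch
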