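import Fermat.Agent.S59.Arch.SpecPlus
import Fermat.Agent.S59.TW.H959.Iface

/-!
# Row S59 — tools for the `Plus` invariant (architect helper239, board v5)

* `targetIdeal_min`, `targetIdeal_insert` : the target ideal at `Σ = Smin` and at `Σ ∪ {q}`;
* `rtIsoPlus_of_pkg` : `NM.RTIsoPlus` from a Hecke package `P` (`TW.H959.HeckePkg`), ONE point
  `π` of eigenvalues `a`, the equality `η(π) = targetIdeal`, and the clause `∀ D φ`;
* `exists_pkg_of_rtIsoPlus` : the converse (destructuring);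
* `HeckeSidePlusStatement` : the Hecke side of cell TW with the BRIDGE clause of the `Plus`
  invariant (replaces `HeckeSideMStatement` of board v4):

      pt has the eigenvalues of χ,   and   M₀ free over T₀  ⇒  η_{T₀}(pt) = δ₀(χ).

  (For `M₀ = e · H¹_par(Γ₀(N_min), 𝒪)`: `NM.BaseStatement` + the Eichler–Shimura bridge.)
-/

set_option autoImplicit false

open Polynomial IsLocalRing

namespace Fermat.Agent.S59.Arch

open Fermat.Agent.S59.NM Fermat.Agent.S59.TW.H959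

section

variable (p : ℕ)
  (𝒪 : Type) [CommRing 𝒪] [IsDomain 𝒪] [IsDiscreteValuationRing 𝒪]
  [IsAdicComplete (maximalIdeal 𝒪) 𝒪]

/-- At `Σ = Smin` the target ideal is `δ₀`. -/
theorem targetIdeal_min (t : PType) (Smin : Finset ℕ) (a : ℕ → 𝒪) :
    targetIdeal p 𝒪 t Smin Smin a = cohCong (wilesLevel p t Smin Smin) Smin a := by
  unfold targetIdeal
  rw [Finset.sdiff_self, Finset.prod_empty, Ideal.one_eq_top, Ideal.mul_top]

/-- The target ideal at `Σ ∪ {q}`, `q ∉ Σ ⊇ Smin`. -/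
theorem targetIdeal_insert (t : PType) {Smin Sig : Finset ℕ} (hSig : Smin ⊆ Sig) {q : ℕ}
    (hq : q ∉ Sig) (a : ℕ → 𝒪) :
    targetIdeal p 𝒪 t Smin (insert q Sig) a =
      Ideal.span {cq a q} * targetIdeal p 𝒪 t Smin Sig a := by
  classical
  unfold targetIdeal
  have hqm : q ∉ Smin := fun h => hq (hSig h)
  rw [Finset.insert_sdiff_of_notMem _ hqm,
    Finset.prod_insert (fun h => hq (Finset.mem_sdiff.mp h).1)]
  ring

variable {p 𝒪}
variable {ρbar : ResidualGaloisRep (ResidueField 𝒪)} {t : PType} {Smin : Finset ℕ}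

/-- **`RTIsoPlus` from a package.** -/
theorem rtIsoPlus_of_pkg {Sig : Finset ℕ} [hN : NeZero (wilesLevel p t Smin Sig)]
    (P : HeckePkg p 𝒪 ρbar t Smin Sig) (a : ℕ → 𝒪) (π : P.T →ₐ[𝒪] 𝒪)
    (hπ : ∀ (l : ℕ) (hl : l.Prime) (hlN : ¬ l ∣ wilesLevel p t Smin Sig)
      (hlS : l ∉ (↑Sig : Set ℕ)),
      π (CuspForm.heckeLocal.π (wilesLevel p t Smin Sig) (↑Sig : Set ℕ) 𝒪 P.θ
        (CuspForm.heckeAlgebra.T hl hlN hlS)) = a l)
    (hη : NC.congIdeal π = targetIdeal p 𝒪 t Smin Sig a)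
    (h : ∀ (D : GaloisRep.DeformationRingData 𝒪 ρbar (sigmaCond 𝒪 p t Smin Sig))
      (φ : D.R →ₐ[𝒪] P.T),
      (∃ hφ : IsLocalHom (φ : D.R →+* P.T),
        (D.ρ.baseChangeAlong (φ : D.R →+* P.T) hφ).IsEquiv P.H.ρ) →
      Function.Bijective φ ∧ Finite (NC.Cot (π.comp φ)) ∧
        Nat.card (NC.Cot (π.comp φ)) = Nat.card (𝒪 ⧸ NC.congIdeal π)) :
    RTIsoPlus p 𝒪 ρbar t Smin Sig a :=
  ⟨hN, P.integral, P.θ, P.isLocalRing, P.isNoetherianRing, P.isAdicComplete,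
    P.isLocalHom, P.finite, P.free, P.H, P.hπ, P.hres, P.hcond, π, hπ, hη, h⟩

/-- **Destructuring `RTIsoPlus`**: a package, the point, the invariant and the clause. -/
theorem exists_pkg_of_rtIsoPlus {Sig : Finset ℕ} {a : ℕ → 𝒪}
    (h : RTIsoPlus p 𝒪 ρbar t Smin Sig a) :
    ∃ (_ : NeZero (wilesLevel p t Smin Sig)) (P : HeckePkg p 𝒪 ρbar t Smin Sig)
      (π : P.T →ₐ[𝒪] 𝒪),
      (∀ (l : ℕ) (hl : l.Prime) (hlN : ¬ l ∣ wilesLevel p t Smin Sig)
        (hlS : l ∉ (↑Sig : Set ℕ)),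
        π (CuspForm.heckeLocal.π (wilesLevel p t Smin Sig) (↑Sig : Set ℕ) 𝒪 P.θ
          (CuspForm.heckeAlgebra.T hl hlN hlS)) = a l) ∧
      NC.congIdeal π = targetIdeal p 𝒪 t Smin Sig a ∧
      ∀ (D : GaloisRep.DeformationRingData 𝒪 ρbar (sigmaCond 𝒪 p t Smin Sig))
        (φ : D.R →ₐ[𝒪] P.T),
        (∃ hφ : IsLocalHom (φ : D.R →+* P.T),
          (D.ρ.baseChangeAlong (φ : D.R →+* P.T) hφ).IsEquiv P.H.ρ) →
        Function.Bijective φ ∧ Finite (NC.Cot (π.comp φ)) ∧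
          Nat.card (NC.Cot (π.comp φ)) = Nat.card (𝒪 ⧸ NC.congIdeal π) := by
  obtain ⟨hN, i2, θ, i3, i4, i5, i6, i7, i8, H, h1, h2, h3, π, hπ, hη, h4⟩ := h
  exact ⟨hN, ⟨i2, θ, i3, i4, i5, i6, i7, i8, H, h1, h2, h3⟩, π, hπ, hη, h4⟩

end

/-- **LEAF HECKE of cell TW, `Plus` form** (board v5 §1).  As `TW.H959.HeckeSideStatement`, under
the extra hypothesis `CurveCase`, with the two bridge clauses: the point `pt` has the eigenvalues
of `χ`, and if `M₀` has a finite basis over `T₀` then `η_{T₀}(pt) = δ₀(χ)`, the ideal of the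
values of the Manin pairing on the `χ`-eigenclasses of level `N_min`. -/
def HeckeSidePlusStatement : Prop :=
  ∀ (p : ℕ) [Fact p.Prime]
    (𝒪 : Type) [CommRing 𝒪] [IsDomain 𝒪] [IsDiscreteValuationRing 𝒪]
    [IsAdicComplete (maximalIdeal 𝒪) 𝒪] [Finite (ResidueField 𝒪)] [CharZero 𝒪]
    (ρbar : ResidualGaloisRep (ResidueField 𝒪)) (Smin : Finset ℕ)
    (_h : ResidualHyp p 𝒪 ρbar Smin)
    (_hc : CurveCase p ρbar) (t : PType)
    (_ht : (t = .flat ∧ (GaloisRepAdic.ofResidualGaloisRep ρbar).IsFlatAt p) ∨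
      (t = .sord ∧ (GaloisRepAdic.ofResidualGaloisRep ρbar).IsStrictOrdinaryAt p ∧
        ¬ (GaloisRepAdic.ofResidualGaloisRep ρbar).IsFlatAt p))
    (_hN : NeZero (wilesLevel p t Smin Smin))
    (χ : CuspForm.heckeAlgebra (wilesLevel p t Smin Smin) 2 (↑Smin : Set ℕ) →+* 𝒪)
    (_hχ : G4.ResFrobCond ρbar ((residue 𝒪).comp χ)),
    ∃ (P₀ : HeckePkg p 𝒪 ρbar t Smin Smin) (pt : P₀.T →ₐ[𝒪] 𝒪)
      (M₀ : Type) (_ : AddCommGroup M₀) (_ : Module P₀.T M₀) (_ : Nontrivial M₀),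
      (∀ (l : ℕ) (hl : l.Prime) (hlN : ¬ l ∣ wilesLevel p t Smin Smin)
        (hlS : l ∉ (↑Smin : Set ℕ)),
        pt (CuspForm.heckeLocal.π (wilesLevel p t Smin Smin) (↑Smin : Set ℕ) 𝒪 P₀.θ
          (CuspForm.heckeAlgebra.T hl hlN hlS)) = eig χ l) ∧
      ((∃ (d : ℕ) (b : Fin d → M₀), Function.Bijective (Fintype.linearCombination P₀.T b)) →
        NC.congIdeal pt = cohCong (wilesLevel p t Smin Smin) Smin (eig χ)) ∧
      ∀ (n r : ℕ) (qv : Fin r → ℕ), IsTWSet p ρbar Smin n qv → HasTWModule P₀ M₀ n qv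

end Fermat.Agent.S59.Arch
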