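import Fermat.Agent.S59.NMP.GlueM
import Fermat.Agent.S59.Arch.PlusPkg

/-!
# Row S59, cell NMP — THE ASSEMBLY of the step at `p` in `Plus` form (architect helper239)

Target (board v5): `Arch.NonMinPPlusHStatement` (`RTIsoPlus .flat Σ → RTIso .ord Σ`).
The Galois half is helper583's `NMP.step_core` (unchanged).  The Hecke-side leaf is

* `EtaPPlusStatement` (ETA-P) = `NMP.EtaStatement` with the `Plus` invariant of the level `N_Σ`
  as additional hypotheses: the point `π` has the eigenvalues of `χ` and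
  `η_T(π) = targetIdeal = δ₀ ∏ c_q` (so `η_T(π)` has its cohomological meaning: by the Betti
  induction of cell NM there is a primitive eigenclass `x` of level `N_Σ` with
  `⟨x, y⟩ ∈ η_T(π)` for all eigenclasses `y`, `NM.BettiBound`); plus `CurveCase`, `ρ̄` flat.

    nonMinPPlusH_of_leaves : S53 → S54 → COND → DATUM → SEL → ETA-P → Arch.NonMinPPlusHStatement
-/

set_option autoImplicit false

open Polynomial IsLocalRing

namespace Fermat.Agent.S59.Arch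

open CuspForm Fermat.Agent.S59.NM Fermat.Agent.S59.NMP Fermat.Agent.S59.H765
open Fermat.Agent.S59.TW.H959

/-- **ETA-P** (the Hecke step at `p`, `Plus` form).  In the situation of `NMP.OrdDatumStatement`,
let `π` be the `𝒪`-point of `T = T_Σ^{flat}` with the eigenvalues of `χ`, at which
`#Φ_T = #(𝒪/η_T)` and `η_T(π) = δ₀(χ) ∏_{q ∈ Σ ∖ Smin} (c_q)`, and `α` the unramified Frobenius
eigenvalue of `ρ_π` at `p`.  Then `α² ≠ 1` and
`#(𝒪/η_T(π)) · #(𝒪/(α² − 1)) ≤ #(𝒪/η_{T'}(π ∘ res))`. -/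
def EtaPPlusStatement : Prop :=
  ∀ (p : ℕ) [Fact p.Prime]
    (𝒪 : Type) [CommRing 𝒪] [IsDomain 𝒪] [IsDiscreteValuationRing 𝒪]
    [IsAdicComplete (maximalIdeal 𝒪) 𝒪] [Finite (ResidueField 𝒪)] [CharZero 𝒪]
    (ρbar : ResidualGaloisRep (ResidueField 𝒪)) (Smin : Finset ℕ)
    (_h : ResidualHyp p 𝒪 ρbar Smin) (_hc : CurveCase p ρbar)
    (_hNmin : NeZero (wilesLevel p .flat Smin Smin))
    (χ : CuspForm.heckeAlgebra (wilesLevel p .flat Smin Smin) 2 (↑Smin : Set ℕ) →+* 𝒪)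
    (_hχ : G4.ResFrobCond ρbar ((residue 𝒪).comp χ))
    (Sig : Finset ℕ)
    (hSig : Smin ⊆ Sig) (hSigP : ∀ q ∈ Sig, q.Prime) (hpSig : p ∈ Sig)
    (_hflat : (GaloisRepAdic.ofResidualGaloisRep ρbar).IsFlatAt p)
    (_hord : (GaloisRepAdic.ofResidualGaloisRep ρbar).IsOrdinaryAt p)
    [NeZero (wilesLevel p .flat Smin Sig)]
    [Fact (HasIntegralStructure (wilesLevel p .flat Smin Sig) 2)]
    [NeZero (wilesLevel p .ord Smin Sig)]
    [Fact (HasIntegralStructure (wilesLevel p .ord Smin Sig) 2)]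
    (θ : heckeAlgebra (wilesLevel p .flat Smin Sig) 2 (↑Sig : Set ℕ) →+* ResidueField 𝒪)
    [IsLocalRing (heckeLocal (wilesLevel p .flat Smin Sig) (↑Sig : Set ℕ) 𝒪 θ)]
    [IsNoetherianRing (heckeLocal (wilesLevel p .flat Smin Sig) (↑Sig : Set ℕ) 𝒪 θ)]
    [IsAdicComplete (maximalIdeal (heckeLocal (wilesLevel p .flat Smin Sig) (↑Sig : Set ℕ) 𝒪 θ))
      (heckeLocal (wilesLevel p .flat Smin Sig) (↑Sig : Set ℕ) 𝒪 θ)]
    [IsLocalHom (algebraMap 𝒪 (heckeLocal (wilesLevel p .flat Smin Sig) (↑Sig : Set ℕ) 𝒪 θ))]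
    [Module.Finite 𝒪 (heckeLocal (wilesLevel p .flat Smin Sig) (↑Sig : Set ℕ) 𝒪 θ)]
    [Module.Free 𝒪 (heckeLocal (wilesLevel p .flat Smin Sig) (↑Sig : Set ℕ) 𝒪 θ)]
    (H : HeckeGaloisRepDatum (wilesLevel p .flat Smin Sig) (↑Sig : Set ℕ) 𝒪 θ
      (heckeLocal (wilesLevel p .flat Smin Sig) (↑Sig : Set ℕ) 𝒪 θ))
    (_hπ : H.π = heckeLocal.π (wilesLevel p .flat Smin Sig) (↑Sig : Set ℕ) 𝒪 θ)
    (_hres : H.ρ.residual.IsEquiv (ρbar.baseChangeAlong (ResidueField.map (algebraMap 𝒪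
      (heckeLocal (wilesLevel p .flat Smin Sig) (↑Sig : Set ℕ) 𝒪 θ)))))
    (_hcond : sigmaCond 𝒪 p .flat Smin Sig H.ρ)
    (π : heckeLocal (wilesLevel p .flat Smin Sig) (↑Sig : Set ℕ) 𝒪 θ →ₐ[𝒪] 𝒪)
    (hπloc : IsLocalHom
      (π : heckeLocal (wilesLevel p .flat Smin Sig) (↑Sig : Set ℕ) 𝒪 θ →+* 𝒪))
    (_hfin : Finite (NC.Cot π))
    (_hnum : Nat.card (NC.Cot π) = Nat.card (𝒪 ⧸ NC.congIdeal π))
    (_heig : ∀ (l : ℕ) (hl : l.Prime) (hlN : ¬ l ∣ wilesLevel p .flat Smin Sig)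
      (hlS : l ∉ (↑Sig : Set ℕ)),
      π (heckeLocal.π (wilesLevel p .flat Smin Sig) (↑Sig : Set ℕ) 𝒪 θ
        (heckeAlgebra.T hl hlN hlS)) = eig χ l)
    (_hη : NC.congIdeal π = targetIdeal p 𝒪 .flat Smin Sig (eig χ))
    (α : 𝒪)
    (_hα : UnrFrobAt (H.ρ.baseChangeAlong
      (π : heckeLocal (wilesLevel p .flat Smin Sig) (↑Sig : Set ℕ) 𝒪 θ →+* 𝒪) hπloc) p α),
    α ^ 2 ≠ 1 ∧
      Nat.card (𝒪 ⧸ NC.congIdeal π) * Nat.card (𝒪 ⧸ Ideal.span {α ^ 2 - 1}) ≤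
        Nat.card (𝒪 ⧸ NC.congIdeal
          (π.comp (resLocal (levelPair_flat_ord p hSig hSigP hpSig) 𝒪 θ)))

/-- The ring form of ETA implies the `Plus` form. -/
theorem etaPPlus_of (h : EtaStatement) : EtaPPlusStatement :=
  fun p _ 𝒪 _ _ _ _ _ _ ρbar Smin hRH _ _ _ _ Sig hSig hSigP hpSig _ hord _ _ _ _ θ _ _ _ _ _ _
      H hHπ hHres hHcond π hπloc hfin hnum _ _ α hα =>
    h p 𝒪 ρbar Smin hRH Sig hSig hSigP hpSig hord θ H hHπ hHres hHcond π hπloc hfin hnum α hα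

/-- **ASSEMBLY of the cell NMP** (`Plus` form). -/
theorem nonMinPPlusH_of_leaves (h53 : S53Statement) (h54 : S54Statement)
    (hCOND : SigmaCondStatement) (hDAT : OrdDatumStatement) (hSEL : NMP.SelStatement)
    (hETA : EtaPPlusStatement) : NonMinPPlusHStatement := by
  intro p _ 𝒪 _ _ _ _ _ _ ρbar Smin hRH hc hNmin χ hχ Sig hSig hSigP hflat hord hRT
  classical
  have hpSig : p ∈ Sig := hSig hRH.hpSmin
  obtain ⟨hN, hint, θ, i1, i2, i3, i4, i5, i6, H, hHπ, hHres, hHcond, π, heig, hη, hiso⟩ := hRT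
  obtain ⟨hN', hint', j1, j2, j3, j4, j5, j6, H', hH'π, hH'res, hH'cond, hresloc, hcompat⟩ :=
    hDAT p 𝒪 ρbar Smin hRH Sig hSig hSigP hpSig hord θ H hHπ hHres hHcond
  refine ⟨hN', hint', θ.comp (oldRestrict (levelPair_flat_ord p hSig hSigP hpSig)),
    j1, j2, j3, j4, j5, j6, H', hH'π, hH'res, hH'cond, ?_⟩
  intro D' φ' hφ'
  -- the flat deformation ring and `φ : R ≃ T`
  have hcfl := hCOND p hRH.hp2 𝒪 hRH.hp𝒪 .flat Smin Sig
  obtain ⟨D⟩ := h53 𝒪 ρbar _ hRH.habs hcfl.1 (sigmaCond_flat_residual hRH hSig hflat)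
    (hcfl.2 ρbar)
  have hNS : ∀ q : ℕ, q.Prime → q ∣ wilesLevel p .flat Smin Sig → q ∈ (↑Sig : Set ℕ) :=
    fun q hq hd => Finset.mem_coe.mpr (prime_dvd_wilesLevel p .flat hSig hSigP hpSig hq hd)
  obtain ⟨φ, -, hφ, hφe⟩ := h54 D H hNS hHcond hHres
  obtain ⟨hbij, hfin, hnum⟩ := hiso D φ ⟨hφ, hφe⟩
  have hfinT : Finite (NC.Cot π) := Fermat.Agent.S59.H427.finite_cot_of_bijective φ hbij π
  have hnumT : Nat.card (NC.Cot π) = Nat.card (𝒪 ⧸ NC.congIdeal π) := by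
    rw [← Fermat.Agent.S59.H427.card_cot_comp_eq_of_bijective φ hbij π]
    exact hnum
  obtain ⟨h1, h2, h3⟩ := step_core p 𝒪 ρbar Smin hRH Sig hSig hSigP hpSig hord θ H hHres hHcond
    H' hH'res hH'cond hresloc hcompat h54 hSEL D φ hφ hφe hbij π hfin
    (fun hπloc α hα => by
      obtain ⟨hα1, hle⟩ := hETA p 𝒪 ρbar Smin hRH hc hNmin χ hχ Sig hSig hSigP hpSig hflat hord
        θ H hHπ hHres hHcond π hπloc hfinT hnumT heig hη α hα
      refine ⟨hα1, ?_⟩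
      rw [hnum]
      exact hle)
    D' φ' hφ'
  exact ⟨h1, _, h2, h3⟩

end Fermat.Agent.S59.Arch
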