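import Fermat.Agent.S59.Arch.PlusPkg
import Fermat.Agent.S59.G4.Spec
import Fermat.Agent.S59.H765.NMResWiles

/-!
# Row S59, cell TW — the BASE-BRIDGE (architect helper239, board v5 §1)

The bridge clause (b) of `Arch.HeckeSidePlusStatement`,

    M₀ free over T₀  ⇒  η_{T₀}(pt) = δ₀(χ) = NM.cohCong N_min Smin (eig χ),

is reduced here to helper585's abstract `NM.BaseStatement` (on main: `H585.base`), the reducedness
of `T₀` (`G4.RedStatement`, on main: `G4.H547.red`) and ONE property of the module `M₀` of the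
automorphic side:

* `IsBettiRealised P₀ pt M₀ a` : `M₀` carries an `𝒪`-bilinear form `B` (`𝒪` acting through `T₀`),
  perfect, for which `T₀` is self-adjoint, whose values on `M₀[ker pt]` are exactly the values of
  the Manin pairing on the `a`-eigenclasses of level `N_min`.
  (For `M₀ = e · C_{N_min}(𝒪)`, `e` the idempotent of `θ`: `B` = the Manin pairing, perfect by
  `H585.exists_pairing_eq_one`, self-adjoint by `H585.adj2`; an `a`-eigenclass lies in `e · C`.)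

* `congIdeal_eq_cohCong_of_bettiRealised` : BASE + RED + `IsBettiRealised` ⇒ clause (b).
* `HeckeSideBettiStatement`, `heckeSidePlus_of_betti` : the Hecke side of cell TW with
  `IsBettiRealised` in place of clause (b) implies `HeckeSidePlusStatement`.
-/

set_option autoImplicit false

open Polynomial IsLocalRing CongruenceSubgroup
open scoped MatrixGroups

namespace Fermat.Agent.S59.Arch

open Fermat.Agent.S59.NM Fermat.Agent.S59.TW.H959 Fermat.Agent.S41.Spec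

section

variable {p : ℕ}
  {𝒪 : Type} [CommRing 𝒪] [IsDomain 𝒪] [IsDiscreteValuationRing 𝒪]
  [IsAdicComplete (maximalIdeal 𝒪) 𝒪]
  {ρbar : ResidualGaloisRep (ResidueField 𝒪)} {t : PType} {Smin : Finset ℕ}

/-- **The Betti realisation of the minimal module** (see the header).  The `𝒪`-module structure
of `M₀` is the one induced by `𝒪 → T₀`. -/
def IsBettiRealised [NeZero (wilesLevel p t Smin Smin)] (P₀ : HeckePkg p 𝒪 ρbar t Smin Smin)
    (pt : P₀.T →ₐ[𝒪] 𝒪) (M₀ : Type) [AddCommGroup M₀] [Module P₀.T M₀] (a : ℕ → 𝒪) : Prop :=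
  letI : Module 𝒪 M₀ := Module.compHom M₀ (algebraMap 𝒪 P₀.T)
  ∃ B : M₀ →ₗ[𝒪] M₀ →ₗ[𝒪] 𝒪,
    (∀ f : M₀ →ₗ[𝒪] 𝒪, ∃ m : M₀, ∀ m' : M₀, B m' m = f m') ∧
    (∀ (s : P₀.T) (m m' : M₀), B (s • m) m' = B m (s • m')) ∧
    {c : 𝒪 | ∃ m m' : M₀, (∀ s : P₀.T, pt s = 0 → s • m = 0) ∧
      (∀ s : P₀.T, pt s = 0 → s • m' = 0) ∧ B m m' = c} =
    {c : 𝒪 | ∃ x y : Additive (Gamma0 (wilesLevel p t Smin Smin)) →+ 𝒪,
      NM.IsEigenclass (wilesLevel p t Smin Smin) Smin a x ∧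
      NM.IsEigenclass (wilesLevel p t Smin Smin) Smin a y ∧
      maninPairing (Gamma0 (wilesLevel p t Smin Smin)) x y = c}

/-- **BASE-BRIDGE.**  If `M₀` is Betti-realised and has a finite basis over `T₀`, then
`η_{T₀}(pt) = δ₀(a)`. -/
theorem congIdeal_eq_cohCong_of_bettiRealised [CharZero 𝒪] (hBASE : BaseStatement)
    (hRED : G4.RedStatement) [NeZero (wilesLevel p t Smin Smin)]
    (hNS : ∀ q : ℕ, q.Prime → q ∣ wilesLevel p t Smin Smin → q ∈ (↑Smin : Set ℕ))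
    (P₀ : HeckePkg p 𝒪 ρbar t Smin Smin) (pt : P₀.T →ₐ[𝒪] 𝒪)
    (M₀ : Type) [AddCommGroup M₀] [Module P₀.T M₀] [Nontrivial M₀] (a : ℕ → 𝒪)
    (hreal : IsBettiRealised P₀ pt M₀ a)
    (hfree : ∃ (d : ℕ) (b : Fin d → M₀), Function.Bijective (Fintype.linearCombination P₀.T b)) :
    NC.congIdeal pt = cohCong (wilesLevel p t Smin Smin) Smin a := by
  letI : Module 𝒪 M₀ := Module.compHom M₀ (algebraMap 𝒪 P₀.T)
  haveI : IsScalarTower 𝒪 P₀.T M₀ := by
    refine ⟨fun c s m => ?_⟩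
    show (c • s) • m = algebraMap 𝒪 P₀.T c • (s • m)
    rw [Algebra.smul_def, mul_smul]
  haveI : IsReduced P₀.T := hRED _ _ hNS 𝒪 P₀.θ
  obtain ⟨B, hperf, hadj, hset⟩ := hreal
  obtain ⟨d, b, hb⟩ := hfree
  -- the basis
  let e : (Fin d → P₀.T) ≃ₗ[P₀.T] M₀ := LinearEquiv.ofBijective (Fintype.linearCombination P₀.T b) hb
  let bas : Module.Basis (Fin d) P₀.T M₀ := Module.Basis.ofEquivFun e.symm
  haveI : Nonempty (Fin d) := by
    by_contra hne
    rw [not_nonempty_iff] at hne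
    obtain ⟨x, y, hxy⟩ := exists_pair_ne M₀
    apply hxy
    have hsub : Subsingleton (Fin d → P₀.T) := inferInstance
    exact e.symm.injective (Subsingleton.elim _ _)
  have h := hBASE 𝒪 P₀.T pt M₀ (Fin d) bas B hperf hadj
  rw [← h]
  unfold cohCong
  rw [hset]

end

/-- **LEAF HECKE of cell TW, Betti form**: as `HeckeSidePlusStatement`, with the bridge clause
(b) replaced by `IsBettiRealised P₀ pt M₀ (eig χ)` (no freeness hypothesis: a property of the
automorphic module alone). -/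
def HeckeSideBettiStatement : Prop :=
  ∀ (p : ℕ) [Fact p.Prime]
    (𝒪 : Type) [CommRing 𝒪] [IsDomain 𝒪] [IsDiscreteValuationRing 𝒪]
    [IsAdicComplete (maximalIdeal 𝒪) 𝒪] [Finite (ResidueField 𝒪)] [CharZero 𝒪]
    (ρbar : ResidualGaloisRep (ResidueField 𝒪)) (Smin : Finset ℕ)
    (_h : ResidualHyp p 𝒪 ρbar Smin)
    (_hc : CurveCase p ρbar) (t : PType)
    (_ht : (t = .flat ∧ (GaloisRepAdic.ofResidualGaloisRep ρbar).IsFlatAt p) ∨
      (t = .sord ∧ (GaloisRepAdic.ofResidualGaloisRep ρbar).IsStrictOrdinaryAt p ∧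
        ¬ (GaloisRepAdic.ofResidualGaloisRep ρbar).IsFlatAt p))
    (_hN : NeZero (wilesLevel p t Smin Smin))
    (χ : CuspForm.heckeAlgebra (wilesLevel p t Smin Smin) 2 (↑Smin : Set ℕ) →+* 𝒪)
    (_hχ : G4.ResFrobCond ρbar ((residue 𝒪).comp χ)),
    ∃ (P₀ : HeckePkg p 𝒪 ρbar t Smin Smin) (pt : P₀.T →ₐ[𝒪] 𝒪)
      (M₀ : Type) (_ : AddCommGroup M₀) (_ : Module P₀.T M₀) (_ : Nontrivial M₀),
      (∀ (l : ℕ) (hl : l.Prime) (hlN : ¬ l ∣ wilesLevel p t Smin Smin)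
        (hlS : l ∉ (↑Smin : Set ℕ)),
        pt (CuspForm.heckeLocal.π (wilesLevel p t Smin Smin) (↑Smin : Set ℕ) 𝒪 P₀.θ
          (CuspForm.heckeAlgebra.T hl hlN hlS)) = eig χ l) ∧
      IsBettiRealised P₀ pt M₀ (eig χ) ∧
      ∀ (n r : ℕ) (qv : Fin r → ℕ), IsTWSet p ρbar Smin n qv → HasTWModule P₀ M₀ n qv

/-- The Betti form of the Hecke side implies the `Plus` form. -/
theorem heckeSidePlus_of_betti (hBASE : BaseStatement) (hRED : G4.RedStatement)
    (h : HeckeSideBettiStatement) : HeckeSidePlusStatement := by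
  intro p _ 𝒪 _ _ _ _ _ _ ρbar Smin hRH hc t ht hN χ hχ
  obtain ⟨P₀, pt, M₀, i1, i2, i3, hpt, hreal, hTW⟩ := h p 𝒪 ρbar Smin hRH hc t ht hN χ hχ
  refine ⟨P₀, pt, M₀, i1, i2, i3, hpt, fun hfree => ?_, hTW⟩
  have hNS : ∀ q : ℕ, q.Prime → q ∣ wilesLevel p t Smin Smin → q ∈ (↑Smin : Set ℕ) :=
    fun q hq hd => Finset.mem_coe.mpr
      (Fermat.Agent.S59.H765.prime_dvd_wilesLevel p t (Finset.Subset.refl Smin) hRH.hSmin
        hRH.hpSmin hq hd)
  exact congIdeal_eq_cohCong_of_bettiRealised hBASE hRED hNS P₀ pt M₀ (eig χ) hreal hfree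

end Fermat.Agent.S59.Arch
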