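import Fermat.Agent.S59.Arch.Glue
import Fermat.Agent.S59.Arch.SpecRT

/-!
# Row S59 — top glue, v2 (helper239)

`rt_of_mlt2 : FrobExistsStatement → SemistableMLT2Statement → RTStatement`
(the coefficient ring and the `CurveRep` are chosen by the proof of `SemistableMLT2Statement`).
-/

set_option autoImplicit false

open Polynomial IsLocalRing

namespace Fermat.Agent.S59.Arch

open Fermat.Agent.S59.H239

/-- **(RT) from the modularity lifting theorem in point form, v2.** -/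
theorem rt_of_mlt2 (hFrob : FrobExistsStatement) (hMLT : SemistableMLT2Statement) :
    RTStatement := by
  intro p hp W hΔ hW hirr M₀ _ hres hM₀ hM₀3
  have hpp : p.Prime := by
    rcases hp with rfl | rfl
    · exact Nat.prime_three
    · exact Nat.prime_five
  haveI : Fact p.Prime := ⟨hpp⟩
  obtain ⟨𝒪, _, _, _, _, _, _, ρW, N, hNZ, S, hpN, hN3, hbad, hSprime, hSN, hpS, hNS, θ, T,
    _, _, _, _, _, _, _, _, H, hpt⟩ := hMLT p hp W hΔ hW hirr M₀ hres hM₀ hM₀3
  refine ⟨N, hNZ, S, hpN, hN3, hbad, hSprime, hSN, ?_⟩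
  refine exists_int_char_of_point hFrob hNS H ρW.ρ (fun ℓ => W.apOfModel ℓ) ?_ hpt
  intro ℓ hℓ hℓS A hA σ hσ
  refine ρW.charpoly_frob ℓ hℓ ?_ ?_ A hA σ hσ
  · intro hbadℓ
    exact hℓS (hNS ℓ hℓ (hbad ℓ hℓ hbadℓ))
  · rintro rfl
    exact hℓS hpS

end Fermat.Agent.S59.Arch
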