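import Fermat.Agent.S59.Arch.SpecRT2
import Fermat.Agent.S59.NM.Spec

/-!
# Row S59 — the `R = T` layer, FINAL targets of the cells TW, NM, NMP (architect helper239, v5)

RULING (board `coord/S59.md` v5): the induction invariant of the `R = T` layer is helper585's
`NM.RTIsoPlus` (`Fermat/Agent/S59/NM/Spec.lean`): `RTIso Σ` with ONE point `π` of `T_Σ` of
eigenvalues `a = eig χ` (`χ` the given eigensystem of the minimal level), such that

    η_{T_Σ}(π) = δ₀(a) · ∏_{q ∈ Σ ∖ Smin} (c_q(a)),      c_q = (q - 1)(a_q² - (q + 1)²),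

`δ₀(a) = NM.cohCong N_min Smin a` the ideal of the values of the Manin pairing on the
`a`-eigenclasses of the minimal level.  (The family `RTIsoM`/`PairInv` of `SpecRT2.lean` is
RETIRED as a target: it stays true and its glue `Glue4.mlt2_of_M` stays valid.)

The targets are the `Plus` statements of `NM/Spec.lean` with the hypotheses which the glue has
for free ADDED (so they are WEAKER than the frozen ones of `NM/Spec.lean`, which imply them:
`minRTPlusH_of`, `nonMinStepPlusH_of`, `nonMinPPlusH_of`):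

* `MinRTPlusHStatement`      (cell TW)  = `NM.MinRTPlusStatement` + `CurveCase`;
* `NonMinStepPlusHStatement` (cell NM)  = `NM.NonMinStepPlusStatement` + `CurveCase` + the type
  hypothesis `_ht` (`.flat` and `ρ̄` flat, or `.sord` and `ρ̄` strictly ordinary and NOT flat:
  then every form of level `N_Σ` giving `ρ̄` is `p`-new and the datum is strictly ordinary);
* `NonMinPPlusHStatement`    (cell NMP) = `NM.NonMinPPlusStatement` + `CurveCase` + `ρ̄` flat.

Glue: `Arch/Glue5.lean` (`rtAll_of_plus`, `mlt2_of_plus`, PROVED).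
-/

set_option autoImplicit false

open Polynomial IsLocalRing

namespace Fermat.Agent.S59.Arch

open Fermat.Agent.S59.NM

/-- **Cell TW, target.**  `NM.MinRTPlusStatement` under the extra hypothesis `CurveCase`. -/
def MinRTPlusHStatement : Prop :=
  ∀ (p : ℕ) [Fact p.Prime]
    (𝒪 : Type) [CommRing 𝒪] [IsDomain 𝒪] [IsDiscreteValuationRing 𝒪]
    [IsAdicComplete (maximalIdeal 𝒪) 𝒪] [Finite (ResidueField 𝒪)] [CharZero 𝒪]
    (ρbar : ResidualGaloisRep (ResidueField 𝒪)) (Smin : Finset ℕ)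
    (_h : ResidualHyp p 𝒪 ρbar Smin)
    (_hc : CurveCase p ρbar) (t : PType)
    (_ht : (t = .flat ∧ (GaloisRepAdic.ofResidualGaloisRep ρbar).IsFlatAt p) ∨
      (t = .sord ∧ (GaloisRepAdic.ofResidualGaloisRep ρbar).IsStrictOrdinaryAt p ∧
        ¬ (GaloisRepAdic.ofResidualGaloisRep ρbar).IsFlatAt p))
    (_hN : NeZero (wilesLevel p t Smin Smin))
    (χ : CuspForm.heckeAlgebra (wilesLevel p t Smin Smin) 2 (↑Smin : Set ℕ) →+* 𝒪)
    (_hχ : G4.ResFrobCond ρbar ((residue 𝒪).comp χ)),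
    RTIsoPlus p 𝒪 ρbar t Smin Smin (eig χ)

/-- **Cell NM, target.**  `NM.NonMinStepPlusStatement` under the extra hypotheses `CurveCase`
and `_ht` (the type is the type of the minimal problem). -/
def NonMinStepPlusHStatement : Prop :=
  ∀ (p : ℕ) [Fact p.Prime]
    (𝒪 : Type) [CommRing 𝒪] [IsDomain 𝒪] [IsDiscreteValuationRing 𝒪]
    [IsAdicComplete (maximalIdeal 𝒪) 𝒪] [Finite (ResidueField 𝒪)] [CharZero 𝒪]
    (ρbar : ResidualGaloisRep (ResidueField 𝒪)) (Smin : Finset ℕ)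
    (_h : ResidualHyp p 𝒪 ρbar Smin)
    (_hc : CurveCase p ρbar) (t : PType)
    (_ht : (t = .flat ∧ (GaloisRepAdic.ofResidualGaloisRep ρbar).IsFlatAt p) ∨
      (t = .sord ∧ (GaloisRepAdic.ofResidualGaloisRep ρbar).IsStrictOrdinaryAt p ∧
        ¬ (GaloisRepAdic.ofResidualGaloisRep ρbar).IsFlatAt p))
    (_hN : NeZero (wilesLevel p t Smin Smin))
    (χ : CuspForm.heckeAlgebra (wilesLevel p t Smin Smin) 2 (↑Smin : Set ℕ) →+* 𝒪)
    (_hχ : G4.ResFrobCond ρbar ((residue 𝒪).comp χ))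
    (Sig : Finset ℕ) (_hSig : Smin ⊆ Sig) (_hSigP : ∀ q ∈ Sig, q.Prime)
    (q : ℕ) (_hq : q.Prime) (_hqS : q ∉ Sig),
    RTIsoPlus p 𝒪 ρbar t Smin Sig (eig χ) → RTIsoPlus p 𝒪 ρbar t Smin (insert q Sig) (eig χ)

/-- **Cell NMP, target.**  `NM.NonMinPPlusStatement` under the extra hypotheses `CurveCase` and
`ρ̄` flat at `p`. -/
def NonMinPPlusHStatement : Prop :=
  ∀ (p : ℕ) [Fact p.Prime]
    (𝒪 : Type) [CommRing 𝒪] [IsDomain 𝒪] [IsDiscreteValuationRing 𝒪]
    [IsAdicComplete (maximalIdeal 𝒪) 𝒪] [Finite (ResidueField 𝒪)] [CharZero 𝒪]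
    (ρbar : ResidualGaloisRep (ResidueField 𝒪)) (Smin : Finset ℕ)
    (_h : ResidualHyp p 𝒪 ρbar Smin)
    (_hc : CurveCase p ρbar)
    (_hN : NeZero (wilesLevel p .flat Smin Smin))
    (χ : CuspForm.heckeAlgebra (wilesLevel p .flat Smin Smin) 2 (↑Smin : Set ℕ) →+* 𝒪)
    (_hχ : G4.ResFrobCond ρbar ((residue 𝒪).comp χ))
    (Sig : Finset ℕ) (_hSig : Smin ⊆ Sig) (_hSigP : ∀ q ∈ Sig, q.Prime)
    (_hflat : (GaloisRepAdic.ofResidualGaloisRep ρbar).IsFlatAt p)
    (_hord : (GaloisRepAdic.ofResidualGaloisRep ρbar).IsOrdinaryAt p),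
    RTIsoPlus p 𝒪 ρbar .flat Smin Sig (eig χ) → RTIso p 𝒪 ρbar .ord Smin Sig

/-- The frozen statement of `NM/Spec.lean` implies the target of cell TW. -/
theorem minRTPlusH_of (h : MinRTPlusStatement) : MinRTPlusHStatement :=
  fun p _ 𝒪 _ _ _ _ _ _ ρbar Smin hR _ t ht hN χ hχ => h p 𝒪 ρbar Smin hR t ht hN χ hχ

/-- The frozen statement of `NM/Spec.lean` implies the target of cell NM. -/
theorem nonMinStepPlusH_of (h : NonMinStepPlusStatement) : NonMinStepPlusHStatement := by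
  intro p _ 𝒪 _ _ _ _ _ _ ρbar Smin hR _ t ht hN χ hχ Sig hSig hSigP q hq hqS hplus
  refine h p 𝒪 ρbar Smin hR t ?_ hN χ hχ Sig hSig hSigP q hq hqS hplus
  rcases ht with ⟨rfl, -⟩ | ⟨rfl, -⟩ <;> simp

/-- The frozen statement of `NM/Spec.lean` implies the target of cell NMP. -/
theorem nonMinPPlusH_of (h : NonMinPPlusStatement) : NonMinPPlusHStatement :=
  fun p _ 𝒪 _ _ _ _ _ _ ρbar Smin hR _ hN χ hχ Sig hSig hSigP _ hord hplus =>
    h p 𝒪 ρbar Smin hR hN χ hχ Sig hSig hSigP hord hplus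

end Fermat.Agent.S59.Arch
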