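import Fermat.Agent.S59.Arch.Glue5
import Fermat.Agent.S59.Arch.Glue2
import Fermat.Agent.S59.Arch.AsmNM
import Fermat.Agent.S59.NMP.Top
import Fermat.Agent.S59.H585.EtaFinal
import Fermat.Agent.S59.H563.Old
import Fermat.Agent.S59.H156.CoeffFrob
import Fermat.Agent.S59.H7.E1Glue
import Fermat.Agent.S59.H127.FlatAsm
import Fermat.Agent.S59.H686.ResidualDict
import Fermat.Agent.S59.H686.ResFrobDatum
import Fermat.Agent.S59.H405.Hyp
import Fermat.Agent.S59.H601.ResidualBC
import Fermat.Agent.S59.H659.SigmaCond
import Fermat.Agent.S59.G4.H547.Red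
import Fermat.Agent.S59.NMP.H437.RedT
import Fermat.Agent.S59.TW.H788.ResGal
import Fermat.Agent.S59.H126.SelAdapter
import Fermat.Agent.S53
import Fermat.Agent.S54

/-!
# Row S59 — FINAL WIRING with all closed cells plugged in (architect helper239, board v5.1)

What is OPEN in row S59 is exactly the list of hypotheses of `s59_of_open`:

* `H239.S58Statement`              (row S58 = S35 (on main) + S36);
* `LevelOptStatement`              (cell LO: `H934.levelOpt_of` ⇐ LO-SQ, S38, S39, ResFlat; FlatPeu and
                                    ResUnram are on main);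
* `DictStatement`                  (cell DICT);
* `MinRTPlusHStatement`            (cell TW);
* `TW.PkgStatement`                (cell NM: PKG; `TW.H659.pkg_of` reduces it to the frozen S33);
* `NMP.OrdDatumStatement`          (cell NMP: DATUM; `NMP.H935.ordDatum_of` reduces it to the frozen S33);
* `NMP.SelStatement`, `NMP.BoundStepPStatement`, `NMP.LgcStatement`   (cell NMP: SEL-p, STEP-P, LGC).

Everything else (CR, COND, BC, RED, ID, GTW, RFD, RESG, RED-T, SEL, NM-ETA (IHARA2, OLD, ETAB, HK2, ADJ2,
BASE, PERF, STEP), NMP-BB, S53, S54, Coeff, Frobenius, eigenforms of characters) is on main and is plugged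
in here.  Glue of the cell NMP: helper583's `NMP.nonMinPPlusH_of_leaves`.
-/

set_option autoImplicit false

namespace Fermat.Agent.S59.Arch

open Fermat.Agent.S59

/-- The frozen S53 (on main) as `S53Statement`. -/
theorem s53Statement : S53Statement :=
  fun 𝒪 _ _ _ _ _ ρbar 𝒟 habs h𝒟 hbar hfin => Fermat.Agent.S53.result 𝒪 ρbar 𝒟 habs h𝒟 hbar hfin

/-- The frozen S54 (on main) as `S54Statement`. -/
theorem s54Statement : S54Statement :=
  fun D _ _ _ _ _ _ _ _ _ _ _ _ _ H hS h𝒟 hres => Fermat.Agent.S54.result D H hS h𝒟 hres

/-- **NM-ETA** (closed on main: helper585's assembly, helper563's OLD). -/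
theorem etaAbsStatement : NM.EtaAbsStatement :=
  H585.etaAbs_of_old H563.old563

/-- **Cell NM from its only open leaf** PKG. -/
theorem nonMinStepPlusH_of_open (hPKG : TW.PkgStatement) : NonMinStepPlusHStatement :=
  nonMinStepPlusH_of_leaves s53Statement s54Statement H659.sigmaCondStatement NMP.H437.redT
    G4.H547.red H686.resFrobOfDatum hPKG TW.H788.resGal H126.sel etaAbsStatement

/-- **Cell NMP from its open leaves** DATUM, SEL-p, STEP-P, LGC. -/
theorem nonMinPPlusH_of_open (hDAT : NMP.OrdDatumStatement) (hSEL : NMP.SelStatement)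
    (hSTEP : NMP.BoundStepPStatement) (hLGC : NMP.LgcStatement) : NonMinPPlusHStatement :=
  NMP.nonMinPPlusH_of_leaves s53Statement s54Statement H659.sigmaCondStatement hDAT hSEL
    NM.H709.etaOfBound (H585.bettiTarget_of_old H563.old563) hSTEP hLGC

/-- **The modularity lifting theorem (point form) from the open cells.** -/
theorem mlt2_of_open (hLO : LevelOptStatement) (hDICT : DictStatement)
    (hMin : MinRTPlusHStatement) (hNM : NonMinStepPlusHStatement)
    (hNMP : NonMinPPlusHStatement) : SemistableMLT2Statement :=
  mlt2_of_plus H156.coeffStatement H127.curveRepStatement s53Statement s54Statement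
    H686.residualOfAdic H686.residualId hLO hDICT H405.curveResidualHyp H601.residualBC
    H659.sigmaCondStatement hMin hNM hNMP

/-- **ROW S59 from its open cells.** -/
theorem s59_of_open (h58 : H239.S58Statement) (hLO : LevelOptStatement) (hDICT : DictStatement)
    (hMin : MinRTPlusHStatement) (hPKG : TW.PkgStatement)
    (hDAT : NMP.OrdDatumStatement) (hSELp : NMP.SelStatement)
    (hSTEPp : NMP.BoundStepPStatement) (hLGC : NMP.LgcStatement) :
    H239.S59Statement :=
  H239.s59_of h58
    (H239.ml_of
      (rt_of_mlt2 H156.frobExistsStatement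
        (mlt2_of_open hLO hDICT hMin (nonMinStepPlusH_of_open hPKG)
          (nonMinPPlusH_of_open hDAT hSELp hSTEPp hLGC)))
      H7.eigenformOfChar)

end Fermat.Agent.S59.Arch
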