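import Fermat.Agent.S59.H934.LevelOpt

/-!
# Row S59 — cell LO in W-FORM at `p ∈ {3, 5}`: frozen targets and glue (architect helper239)

`H934.levelOpt_of` consumes the frozen statements S38 and S39 for EVERY odd `p`.  Row S59 only
needs them at `p ∈ {3, 5}`, for semistable `W`, at squarefree levels.  This file freezes the
four targets of the cell LO in exactly that generality and proves the glue

    levelOpt_of_w35 : LoSqStatement → MazurW35Statement → PivotW35Statement →
      S39W35Statement → FlatPeuStatement → ResUnramStatement → ResFlatStatement →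
      Arch.LevelOptStatement

* `S39W35Statement`  : frozen S39 at `p ∈ {3, 5}`, `W` semistable (removal of `p`);
* `MazurW35Statement`: removal of a prime `q ≠ p` (ANY prime, `q = 2` included, `p ∣ M` allowed)
  at which `E[p]` is unramified and which is NOT a pivot (`q ≢ 1 mod p`, or some Frobenius at
  `q` is not a scalar on `E[p]`);
* `PivotW35Statement`: at a level `L` which is MINIMAL among the modular levels and all of whose
  unramified primes are pivots, there is no unramified prime (Ihara avoidance, W-form);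
* `H934.LoSqStatement`: removal of squares.

Route of the glue: squarefree level (LO-SQ) → a modular divisor `L` which is minimal for `≤` →
every unramified prime of `L` is a pivot (Mazur + minimality) → no unramified prime (PIVOT) →
remove `p` in the flat case (S39) → the level is `wilesLevel p t Smin Smin`.
-/

set_option autoImplicit false

open scoped WeierstrassCurve.Affine

namespace Fermat.Agent.S59.Arch.LOW

open Fermat.Agent.S59.Arch Fermat.Agent.S59.H934

/-- Every Frobenius at `q` acts on `ρ̄` by a scalar. -/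
def FrobScalarAt {k : Type} [Field k] (ρbar : ResidualGaloisRep k) (q : ℕ) : Prop :=
  ∀ P : ValuationSubring (AlgebraicClosure ℚ), P.LiesOverPrime q →
    ∀ φ : AlgebraicClosure ℚ ≃ₐ[ℚ] AlgebraicClosure ℚ, P.IsFrobeniusAt φ q →
      ∃ c : k, ρbar.ρ φ = c • (1 : Module.End k ρbar.V)

/-- `q` is a pivot for `ρ̄`: `q ≡ 1 mod p` and every Frobenius at `q` is a scalar. -/
def IsPivotAt {k : Type} [Field k] (p : ℕ) (ρbar : ResidualGaloisRep k) (q : ℕ) : Prop :=
  p ∣ q - 1 ∧ FrobScalarAt ρbar q

/-- **S39 in W-form at `p ∈ {3, 5}`** (frozen S39 restricted to `p ∈ {3, 5}`, `W` semistable). -/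
def S39W35Statement : Prop :=
  ∀ (p : ℕ) [Fact p.Prime] (_hp : p = 3 ∨ p = 5)
    (W : WeierstrassCurve ℤ) (_hΔ : W.Δ ≠ 0) (_hW : W.IsSemistableModel)
    (_hirr : W.ModRepIsIrreducible p)
    (_hfin : (W.map (Int.castRingHom ℚ)).IsPeuRamifieeAt p p)
    (M : ℕ) (_hM : Squarefree M) (_hpM : p ∣ M)
    (_hmod : W.IsResiduallyModularOfLevel p M),
    W.IsResiduallyModularOfLevel p (M / p)

/-- **Mazur's principle in W-form at `p ∈ {3, 5}`**: removal of a prime `q ≠ p` of a squarefree
level at which `E[p]` is unramified and which is not a pivot.  `q = 2` is included and `p ∣ M`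
is allowed. -/
def MazurW35Statement : Prop :=
  ∀ (p : ℕ) [Fact p.Prime] (_hp : p = 3 ∨ p = 5)
    (W : WeierstrassCurve ℤ) (_hΔ : W.Δ ≠ 0) (_hW : W.IsSemistableModel)
    (_hirr : W.ModRepIsIrreducible p)
    (hcard : Nat.card (Submodule.torsionBy ℤ
      ((W.map (Int.castRingHom ℚ))⁄(AlgebraicClosure ℚ)).Point p) = p ^ 2)
    (hker : GaloisFactorsThroughFiniteLevel
      (WeierstrassCurve.Affine.Point.galoisRepModuleEnd (K := AlgebraicClosure ℚ) ℚ
        (W.map (Int.castRingHom ℚ)) p))
    (M q : ℕ) (_hM : Squarefree M) (_hq : q.Prime) (_hqp : q ≠ p) (_hqM : q ∣ M)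
    (_hunr : ((W.map (Int.castRingHom ℚ)).residualGaloisRepOf p hcard hker).IsUnramifiedAt q)
    (_hnp : ¬ IsPivotAt p ((W.map (Int.castRingHom ℚ)).residualGaloisRepOf p hcard hker) q)
    (_hres : W.IsResiduallyModularOfLevel p M),
    W.IsResiduallyModularOfLevel p (M / q)

/-- **The pivots in W-form at `p ∈ {3, 5}`** (Ihara avoidance): a squarefree modular level `L`
which is minimal (no `L / r`, `r ∣ L` prime, is modular) and all of whose unramified primes
`r ≠ p` are pivots has no unramified prime `r ≠ p`. -/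
def PivotW35Statement : Prop :=
  ∀ (p : ℕ) [Fact p.Prime] (_hp : p = 3 ∨ p = 5)
    (W : WeierstrassCurve ℤ) (_hΔ : W.Δ ≠ 0) (_hW : W.IsSemistableModel)
    (_hirr : W.ModRepIsIrreducible p)
    (hcard : Nat.card (Submodule.torsionBy ℤ
      ((W.map (Int.castRingHom ℚ))⁄(AlgebraicClosure ℚ)).Point p) = p ^ 2)
    (hker : GaloisFactorsThroughFiniteLevel
      (WeierstrassCurve.Affine.Point.galoisRepModuleEnd (K := AlgebraicClosure ℚ) ℚ
        (W.map (Int.castRingHom ℚ)) p))
    (L : ℕ) (_hL : Squarefree L) (_hres : W.IsResiduallyModularOfLevel p L)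
    (_hmin : ∀ r : ℕ, r.Prime → r ∣ L → ¬ W.IsResiduallyModularOfLevel p (L / r))
    (_hpiv : ∀ r : ℕ, r.Prime → r ∣ L → r ≠ p →
      ((W.map (Int.castRingHom ℚ)).residualGaloisRepOf p hcard hker).IsUnramifiedAt r →
      IsPivotAt p ((W.map (Int.castRingHom ℚ)).residualGaloisRepOf p hcard hker) r),
    ∀ r : ℕ, r.Prime → r ∣ L → r ≠ p →
      ¬ ((W.map (Int.castRingHom ℚ)).residualGaloisRepOf p hcard hker).IsUnramifiedAt r

/-! ## The glue -/

section Glue

variable (p : ℕ) [Fact p.Prime] (W : WeierstrassCurve ℤ)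

omit [Fact p.Prime] in
/-- A modular divisor of a modular level which is minimal for `≤`. -/
theorem exists_minimal_modular_dvd {M : ℕ} (hres : W.IsResiduallyModularOfLevel p M) :
    ∃ L : ℕ, L ∣ M ∧ W.IsResiduallyModularOfLevel p L ∧
      ∀ L' : ℕ, L' ∣ M → W.IsResiduallyModularOfLevel p L' → L ≤ L' := by
  classical
  have hex : ∃ L : ℕ, L ∣ M ∧ W.IsResiduallyModularOfLevel p L := ⟨M, dvd_rfl, hres⟩
  exact ⟨Nat.find hex, (Nat.find_spec hex).1, (Nat.find_spec hex).2,
    fun L' hL' hmod' => Nat.find_min' hex ⟨hL', hmod'⟩⟩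

variable
    (hcard : Nat.card (Submodule.torsionBy ℤ
      ((W.map (Int.castRingHom ℚ))⁄(AlgebraicClosure ℚ)).Point p) = p ^ 2)
    (hker : GaloisFactorsThroughFiniteLevel
      (WeierstrassCurve.Affine.Point.galoisRepModuleEnd (K := AlgebraicClosure ℚ) ℚ
        (W.map (Int.castRingHom ℚ)) p))

/-- Step B in W-form: a squarefree modular level all of whose primes `≠ p` are ramified, from
Mazur's principle and the pivots. -/
theorem exists_ramified_level_w35 (hMz : MazurW35Statement) (hPv : PivotW35Statement)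
    (hp : p = 3 ∨ p = 5) (hΔ : W.Δ ≠ 0) (hW : W.IsSemistableModel)
    (hirr : W.ModRepIsIrreducible p) (M : ℕ) (hsq : Squarefree M)
    (hres : W.IsResiduallyModularOfLevel p M) :
    ∃ M₂ : ℕ, Squarefree M₂ ∧ W.IsResiduallyModularOfLevel p M₂ ∧
      ∀ q : ℕ, q.Prime → q ∣ M₂ → q ≠ p →
        ¬ ((W.map (Int.castRingHom ℚ)).residualGaloisRepOf p hcard hker).IsUnramifiedAt q := by
  obtain ⟨L, hLM, hresL, hminL⟩ := exists_minimal_modular_dvd p W hres
  have hsqL : Squarefree L := hsq.squarefree_of_dvd hLM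
  have hL0 : L ≠ 0 := hsqL.ne_zero
  have hmin : ∀ r : ℕ, r.Prime → r ∣ L → ¬ W.IsResiduallyModularOfLevel p (L / r) := by
    intro r hr hrL hmodr
    have hdvd : L / r ∣ M := (Nat.div_dvd_of_dvd hrL).trans hLM
    have hle : L ≤ L / r := hminL (L / r) hdvd hmodr
    have hlt : L / r < L := div_lt_of_prime_dvd hL0 hr
    omega
  have hpiv : ∀ r : ℕ, r.Prime → r ∣ L → r ≠ p →
      ((W.map (Int.castRingHom ℚ)).residualGaloisRepOf p hcard hker).IsUnramifiedAt r →
      IsPivotAt p ((W.map (Int.castRingHom ℚ)).residualGaloisRepOf p hcard hker) r := by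
    intro r hr hrL hrp hunr
    by_contra hnp
    exact hmin r hr hrL (hMz p hp W hΔ hW hirr hcard hker L r hsqL hr hrp hrL hunr hnp hresL)
  exact ⟨L, hsqL, hresL, hPv p hp W hΔ hW hirr hcard hker L hsqL hresL hmin hpiv⟩

end Glue

/-- **LO-GLUE in W-form at `p ∈ {3, 5}`.** -/
theorem levelOpt_of_w35 (hSQ : LoSqStatement) (hMz : MazurW35Statement)
    (hPv : PivotW35Statement) (h39 : S39W35Statement)
    (hFP : FlatPeuStatement) (hU : ResUnramStatement) (hF : ResFlatStatement) :
    LevelOptStatement := by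
  intro p _ hp W hΔ hW hirr M₀ _ hres₀ hM₀ hM₀3 hcard hker Smin hSmin t ht
  have hpp : p.Prime := Fact.out
  obtain ⟨hpS, hSprime, hSram⟩ := hSmin
  -- Step A
  obtain ⟨M₁, hsq₁, hres₁⟩ := exists_squarefree_level p W hSQ hp hΔ hW hirr M₀
    (NeZero.ne M₀) hM₀ hM₀3 hres₀
  -- Step B
  obtain ⟨M₂, hsq₂, hres₂, hram₂⟩ := exists_ramified_level_w35 p W hcard hker hMz hPv hp hΔ hW
    hirr M₁ hsq₁ hres₁
  rcases ht with ⟨rfl, hflat⟩ | ⟨rfl, hnflat⟩
  · -- flat: remove `p` if necessary
    have key : ∃ M₃ : ℕ, Squarefree M₃ ∧ W.IsResiduallyModularOfLevel p M₃ ∧ ¬ p ∣ M₃ ∧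
        ∀ q : ℕ, q.Prime → q ∣ M₃ → q ≠ p →
          ¬ ((W.map (Int.castRingHom ℚ)).residualGaloisRepOf p hcard hker).IsUnramifiedAt q := by
      by_cases hpM : p ∣ M₂
      · have hres₃ := h39 p hp W hΔ hW hirr
          (hFP p hp W hΔ hW hirr hcard hker hflat) M₂ hsq₂ hpM hres₂
        have hdiv : M₂ / p ∣ M₂ := Nat.div_dvd_of_dvd hpM
        exact ⟨M₂ / p, hsq₂.squarefree_of_dvd hdiv, hres₃,
          not_dvd_div_of_squarefree hsq₂ hpp hpM,
          fun q hq hqM hqp => hram₂ q hq (hqM.trans hdiv) hqp⟩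
      · exact ⟨M₂, hsq₂, hres₂, hpM, hram₂⟩
    obtain ⟨M₃, hsq₃, hres₃, hpM₃, hram₃⟩ := key
    have hM₃ : M₃ = ∏ q ∈ Smin.erase p, q := by
      apply eq_prod_of_primeDivisors hsq₃
      intro q
      rw [Finset.mem_erase]
      constructor
      · rintro ⟨hqp, hqS⟩
        have hq : q.Prime := hSprime q hqS
        refine ⟨hq, ?_⟩
        by_contra hqM
        exact (hSram q hq hqp).1 hqS (hU p hp W hΔ hW hirr hcard hker M₃ hsq₃ hres₃ q hq hqp hqM)
      · rintro ⟨hq, hqM⟩
        have hqp : q ≠ p := by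
          rintro rfl
          exact hpM₃ hqM
        exact ⟨hqp, (hSram q hq hqp).2 (hram₃ q hq hqM hqp)⟩
    rw [wilesLevel_flat, ← hM₃]
    exact hres₃
  · -- strictly ordinary, not flat: `p` divides the level
    have hpM : p ∣ M₂ := by
      by_contra hpM
      exact hnflat (hF p hp W hΔ hW hirr hcard hker M₂ hsq₂ hres₂ hpM)
    have hM₂ : M₂ = ∏ q ∈ Smin, q := by
      apply eq_prod_of_primeDivisors hsq₂
      intro q
      constructor
      · intro hqS
        have hq : q.Prime := hSprime q hqS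
        refine ⟨hq, ?_⟩
        by_cases hqp : q = p
        · rw [hqp]
          exact hpM
        · by_contra hqM
          exact (hSram q hq hqp).1 hqS
            (hU p hp W hΔ hW hirr hcard hker M₂ hsq₂ hres₂ q hq hqp hqM)
      · rintro ⟨hq, hqM⟩
        by_cases hqp : q = p
        · rw [hqp]
          exact hpS
        · exact (hSram q hq hqp).2 (hram₂ q hq hqM hqp)
    have hprod : (∏ q ∈ Smin.erase p, q) * p = ∏ q ∈ Smin, q :=
      Finset.prod_erase_mul Smin (fun q => q) hpS
    rw [wilesLevel_sord, hprod, ← hM₂]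
    exact hres₂

/-! ## The frozen statements imply the W-forms (for orientation) -/

/-- Frozen S39 implies its restriction. -/
theorem s39W35_of_s39 (h : S39Statement) : S39W35Statement := by
  intro p _ hp W hΔ hW hirr hfin M hM hpM hmod
  have hpp : p.Prime := Fact.out
  have hp2 : p ≠ 2 := by rcases hp with h | h <;> omega
  have hp2M : ¬ p ^ 2 ∣ M := by
    intro h2
    rw [pow_two] at h2
    exact hpp.not_isUnit (hM p h2)
  exact h W hΔ hpp hp2 (hW p hpp) hirr hfin (Nat.pos_of_ne_zero hM.ne_zero) hpM hp2M hmod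

/-- Frozen S38 implies Mazur's principle in W-form (the non-pivot hypothesis is not used). -/
theorem mazurW35_of_s38 (h : S38Statement) : MazurW35Statement := by
  intro p _ hp W hΔ hW hirr hcard hker M q hM hq hqp hqM hunr _ hres
  have hp2 : p ≠ 2 := by rcases hp with h | h <;> omega
  have hq2 : ¬ q ^ 2 ∣ M := by
    intro h2
    rw [pow_two] at h2
    exact hq.not_isUnit (hM q h2)
  exact h p hp2 W hΔ hW hcard hker hirr M q hq hqp hqM hq2 hM hunr hres

/-- Frozen S38 implies the pivot statement. -/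
theorem pivotW35_of_s38 (h : S38Statement) : PivotW35Statement := by
  intro p _ hp W hΔ hW hirr hcard hker L hL hres hmin _ r hr hrL hrp hunr
  have hp2 : p ≠ 2 := by rcases hp with h | h <;> omega
  have hr2 : ¬ r ^ 2 ∣ L := by
    intro h2
    rw [pow_two] at h2
    exact hr.not_isUnit (hL r h2)
  exact hmin r hr hrL (h p hp2 W hΔ hW hcard hker hirr L r hr hrp hrL hr2 hL hunr hres)

end Fermat.Agent.S59.Arch.LOW
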