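import Fermat.Agent.S59.Arch.SpecRT
import Fermat.Agent.S41.Spec.PD

/-!
# Row S59 — the `R = T` layer, MODULE FORM of the induction invariant (architect helper239, v3)

Board: `coord/S59.md` (v4).  This file SUPERSEDES the three statements `MinRTStatement`,
`NonMinStepStatement`, `NonMinPStatement` of `SpecRT.lean` as TARGETS of the cells TW, NM, NMP
(they stay true, but `NonMinStepStatement` cannot be proved from its hypothesis alone: the
induction `Σ → Σ ∪ {q}` needs the module invariant of Diamond's "Criterion II", i.e. that the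
cohomology `M_Σ` is free of rank `2` over `T_Σ`).  `RTIso`, `ResidualHyp`, `sigmaCond`,
`wilesLevel` are unchanged.

## The invariant, in elementary (Betti) terms

Betti model of rows S41/S29 (on main): `X_N(A) = Hom(Γ₀(N), A)` (`Additive (Gamma0 N) →+ A`),
`IsCuspidal`, `T_l = heckeTransfer` (`l ∤ N`), degeneracy maps `r₁, r₂ : X_N → X_{Nq}`, transfers
`t₁, t₂ : X_{Nq} → X_N`, `maninPairing` (Poincaré duality; perfect over `ℤ` by
`Fermat.Agent.S59.H585.gamma0Pairing_bijective`).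

For `q ∣ N` the two operators `t₁ r₂` and `t₂ r₁` on `X_N` are `U_q` and its adjoint.

* `IsEigenclass N Σ Smin a dual x` : `x` cuspidal with values in `𝒪`, `T_l x = a_l x` for all
  primes `l ∉ Σ`, and `U_q x = 0` (`dual = false`) resp. `U_q^† x = 0` (`dual = true`) for the
  primes `q ∈ Σ ∖ Smin` (where the level is `q²`).  These classes form the lattices
  `L = M_Σ[𝔭]`, `L^† = M_Σ^†[𝔭]`, both of rank `2`.
* `PairInv N Σ Smin a 𝔡` : all `2 × 2` Gram determinants `⟨x₁,y₁⟩⟨x₂,y₂⟩ - ⟨x₁,y₂⟩⟨x₂,y₁⟩`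
  (`x_i ∈ L`, `y_j ∈ L^†`) lie in the ideal `𝔡`;  i.e. `(disc of L × L^†) ⊆ 𝔡`, i.e.
  `#(𝒪/𝔡) ≤ #Ω_Σ`, `Ω_Σ = M/(M[𝔭] ⊕ M[I])` the congruence module.
* `RTIsoM` : `RTIso` together with `PairInv … (η_T)²` at the same point `π`, i.e.
  `#Ω_Σ ≥ #(𝒪/η_T)² = (#Φ_R)²`; since `#Ω ≤ #(𝒪/η_T)²` always, this says `#Ω_Σ = (#Φ_R)²`,
  equivalently `M_Σ` is free of rank `2` over `T_Σ` (`Fermat.Agent.S59.H427.criterionII`,
  `card_omegaMod_of_free`).
-/

set_option autoImplicit false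

open Polynomial IsLocalRing CongruenceSubgroup
open scoped WeierstrassCurve.Affine MatrixGroups

namespace Fermat.Agent.S59.Arch

open Fermat.Agent.S41.Spec Fermat.Agent.S29.H642

section Betti

/-- `U_q`-type operator `t₁ r₂` on `X_N` (`U_q` or its adjoint when `q ∣ N`; `T_q` when
`q ∤ N`). -/
noncomputable def bettiU (N q : ℕ) {A : Type} [AddCommGroup A]
    (x : Additive (Gamma0 N) →+ A) : Additive (Gamma0 N) →+ A :=
  t₁ N q (r₂ N q x)

/-- The adjoint operator `t₂ r₁` on `X_N`. -/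
noncomputable def bettiUdual (N q : ℕ) {A : Type} [AddCommGroup A]
    (x : Additive (Gamma0 N) →+ A) : Additive (Gamma0 N) →+ A :=
  t₂ N q (r₁ N q x)

/-- **Eigenclasses of type `Σ`** for the system of eigenvalues `a`. -/
def IsEigenclass (N : ℕ) (Sig Smin : Finset ℕ) {𝒪 : Type} [CommRing 𝒪] (a : ℕ → 𝒪)
    (dual : Bool) (x : Additive (Gamma0 N) →+ 𝒪) : Prop :=
  IsCuspidal x ∧
    (∀ (l : ℕ) [Fact l.Prime] (hl : ¬ l ∣ N), l ∉ Sig → heckeTransfer hl x = a l • x) ∧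
    ∀ q ∈ Sig \ Smin, (if dual then bettiUdual N q x else bettiU N q x) = 0

/-- **The pairing invariant**: the Gram determinants of `L × L^†` lie in `𝔡`. -/
def PairInv (N : ℕ) (Sig Smin : Finset ℕ) {𝒪 : Type} [CommRing 𝒪] (a : ℕ → 𝒪)
    (𝔡 : Ideal 𝒪) : Prop :=
  ∀ x₁ x₂ y₁ y₂ : Additive (Gamma0 N) →+ 𝒪,
    IsEigenclass N Sig Smin a false x₁ → IsEigenclass N Sig Smin a false x₂ →
    IsEigenclass N Sig Smin a true y₁ → IsEigenclass N Sig Smin a true y₂ →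
    maninPairing (Gamma0 N) x₁ y₁ * maninPairing (Gamma0 N) x₂ y₂ -
      maninPairing (Gamma0 N) x₁ y₂ * maninPairing (Gamma0 N) x₂ y₁ ∈ 𝔡

theorem PairInv.mono {N : ℕ} {Sig Smin : Finset ℕ} {𝒪 : Type} [CommRing 𝒪] {a : ℕ → 𝒪}
    {𝔡 𝔡' : Ideal 𝒪} (h : PairInv N Sig Smin a 𝔡) (hle : 𝔡 ≤ 𝔡') : PairInv N Sig Smin a 𝔡' :=
  fun x₁ x₂ y₁ y₂ h1 h2 h3 h4 => hle (h x₁ x₂ y₁ y₂ h1 h2 h3 h4)

variable (N : ℕ) [NeZero N] (S : Set ℕ)
  (𝒪 : Type) [CommRing 𝒪] [IsDomain 𝒪] [IsDiscreteValuationRing 𝒪]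
  [IsAdicComplete (maximalIdeal 𝒪) 𝒪]
  (θ : CuspForm.heckeAlgebra N 2 S →+* ResidueField 𝒪)

/-- The eigenvalues `a_l = π (T_l)` of an `𝒪`-point `π` of the local Hecke algebra
(`0` at the primes `l ∈ S` or `l ∣ N`). -/
noncomputable def eigOf (π : CuspForm.heckeLocal N S 𝒪 θ →ₐ[𝒪] 𝒪) (l : ℕ) : 𝒪 :=
  open Classical in
  if h : l.Prime ∧ ¬ l ∣ N ∧ l ∉ S then
    π (CuspForm.heckeLocal.π N S 𝒪 θ (CuspForm.heckeAlgebra.T h.1 h.2.1 h.2.2))
  else 0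

theorem eigOf_eq (π : CuspForm.heckeLocal N S 𝒪 θ →ₐ[𝒪] 𝒪) {l : ℕ} (hl : l.Prime)
    (hlN : ¬ l ∣ N) (hlS : l ∉ S) :
    eigOf N S 𝒪 θ π l =
      π (CuspForm.heckeLocal.π N S 𝒪 θ (CuspForm.heckeAlgebra.T hl hlN hlS)) := by
  unfold eigOf
  rw [dif_pos ⟨hl, hlN, hlS⟩]

end Betti

section RT

variable (p : ℕ) [Fact p.Prime]
  (𝒪 : Type) [CommRing 𝒪] [IsDomain 𝒪] [IsDiscreteValuationRing 𝒪]
  [IsAdicComplete (maximalIdeal 𝒪) 𝒪]
  (ρbar : ResidualGaloisRep (ResidueField 𝒪))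

/-- **`R_Σ ≅ T_Σ` with the module invariant** (`M_Σ` free of rank `2` over `T_Σ`, in the form
`disc (L × L^†) ⊆ η_T²`).  Same as `RTIso`, with one more conjunct at the point `π`. -/
def RTIsoM (t : PType) (Smin Sig : Finset ℕ) : Prop :=
  ∃ (_ : NeZero (wilesLevel p t Smin Sig))
    (_ : Fact (CuspForm.HasIntegralStructure (wilesLevel p t Smin Sig) 2))
    (θ : CuspForm.heckeAlgebra (wilesLevel p t Smin Sig) 2 (↑Sig : Set ℕ) →+* ResidueField 𝒪)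
    (_ : IsLocalRing (CuspForm.heckeLocal (wilesLevel p t Smin Sig) (↑Sig : Set ℕ) 𝒪 θ))
    (_ : IsNoetherianRing (CuspForm.heckeLocal (wilesLevel p t Smin Sig) (↑Sig : Set ℕ) 𝒪 θ))
    (_ : IsAdicComplete
      (maximalIdeal (CuspForm.heckeLocal (wilesLevel p t Smin Sig) (↑Sig : Set ℕ) 𝒪 θ))
      (CuspForm.heckeLocal (wilesLevel p t Smin Sig) (↑Sig : Set ℕ) 𝒪 θ))
    (_ : IsLocalHom
      (algebraMap 𝒪 (CuspForm.heckeLocal (wilesLevel p t Smin Sig) (↑Sig : Set ℕ) 𝒪 θ)))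
    (_ : Module.Finite 𝒪 (CuspForm.heckeLocal (wilesLevel p t Smin Sig) (↑Sig : Set ℕ) 𝒪 θ))
    (_ : Module.Free 𝒪 (CuspForm.heckeLocal (wilesLevel p t Smin Sig) (↑Sig : Set ℕ) 𝒪 θ))
    (H : CuspForm.HeckeGaloisRepDatum (wilesLevel p t Smin Sig) (↑Sig : Set ℕ) 𝒪 θ
      (CuspForm.heckeLocal (wilesLevel p t Smin Sig) (↑Sig : Set ℕ) 𝒪 θ)),
    H.π = CuspForm.heckeLocal.π (wilesLevel p t Smin Sig) (↑Sig : Set ℕ) 𝒪 θ ∧
    H.ρ.residual.IsEquiv (ρbar.baseChangeAlong (ResidueField.map (algebraMap 𝒪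
      (CuspForm.heckeLocal (wilesLevel p t Smin Sig) (↑Sig : Set ℕ) 𝒪 θ)))) ∧
    sigmaCond 𝒪 p t Smin Sig H.ρ ∧
    ∀ (D : GaloisRep.DeformationRingData 𝒪 ρbar (sigmaCond 𝒪 p t Smin Sig))
      (φ : D.R →ₐ[𝒪] CuspForm.heckeLocal (wilesLevel p t Smin Sig) (↑Sig : Set ℕ) 𝒪 θ),
      (∃ hφ : IsLocalHom
          (φ : D.R →+* CuspForm.heckeLocal (wilesLevel p t Smin Sig) (↑Sig : Set ℕ) 𝒪 θ),
        (D.ρ.baseChangeAlong
          (φ : D.R →+* CuspForm.heckeLocal (wilesLevel p t Smin Sig) (↑Sig : Set ℕ) 𝒪 θ)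
          hφ).IsEquiv H.ρ) →
      Function.Bijective φ ∧
        ∃ π : CuspForm.heckeLocal (wilesLevel p t Smin Sig) (↑Sig : Set ℕ) 𝒪 θ →ₐ[𝒪] 𝒪,
          Finite (NC.Cot (π.comp φ)) ∧
          Nat.card (NC.Cot (π.comp φ)) = Nat.card (𝒪 ⧸ NC.congIdeal π) ∧
          PairInv (wilesLevel p t Smin Sig) Sig Smin
            (eigOf (wilesLevel p t Smin Sig) (↑Sig : Set ℕ) 𝒪 θ π) (NC.congIdeal π ^ 2)

variable {p 𝒪 ρbar}

/-- Forgetting the module invariant. -/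
theorem RTIsoM.rtIso {t : PType} {Smin Sig : Finset ℕ} (h : RTIsoM p 𝒪 ρbar t Smin Sig) :
    RTIso p 𝒪 ρbar t Smin Sig := by
  obtain ⟨hN, hint, θ, i1, i2, i3, i4, i5, i6, H, h1, h2, h3, h4⟩ := h
  refine ⟨hN, hint, θ, i1, i2, i3, i4, i5, i6, H, h1, h2, h3, fun D φ hφ => ?_⟩
  obtain ⟨hb, π, hf, hc, -⟩ := h4 D φ hφ
  exact ⟨hb, π, hf, hc⟩

end RT

/-- **The case needed by S59**: `p ∈ {3, 5}` and `ρ̄ = E[p] ⊗ k` for a semistable curve `W` with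
`E[p]` irreducible.  An EXTRA hypothesis of the three `R = T` cells (the glue has it for free):
the owners of the leaves may use it (e.g. Ihara's lemma `Fermat.Agent.S41.iharaEigen_main` is on
main for the eigensystems of curves) or ignore it. -/
def CurveCase (p : ℕ) [Fact p.Prime] {k : Type} [Field k] (ρbar : ResidualGaloisRep k) : Prop :=
  (p = 3 ∨ p = 5) ∧
  ∃ (W : WeierstrassCurve ℤ) (_ : W.Δ ≠ 0) (_ : W.IsSemistableModel)
    (_ : W.ModRepIsIrreducible p)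
    (hcard : Nat.card (Submodule.torsionBy ℤ
      ((W.map (Int.castRingHom ℚ))⁄(AlgebraicClosure ℚ)).Point p) = p ^ 2)
    (hker : GaloisFactorsThroughFiniteLevel
      (WeierstrassCurve.Affine.Point.galoisRepModuleEnd (K := AlgebraicClosure ℚ) ℚ
        (W.map (Int.castRingHom ℚ)) p))
    (ι : ZMod p →+* k), ρbar = curveResidual p W hcard hker ι

/-- **Cell TW (target): the minimal case in module form.**  As `MinRTStatement`, with the
conclusion `RTIsoM`: the Taylor–Wiles patching (S57) gives `M_min` free over `R_min`, hence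
`R_min ≅ T_min`, a complete intersection (so `#Φ_R = #(𝒪/η_T)`, Tate), and `M_min` free over
`T_min` (so `disc (L × L) = η_T²`, Poincaré duality). -/
def MinRTMStatement : Prop :=
  ∀ (p : ℕ) [Fact p.Prime]
    (𝒪 : Type) [CommRing 𝒪] [IsDomain 𝒪] [IsDiscreteValuationRing 𝒪]
    [IsAdicComplete (maximalIdeal 𝒪) 𝒪] [Finite (ResidueField 𝒪)] [CharZero 𝒪]
    (ρbar : ResidualGaloisRep (ResidueField 𝒪)) (Smin : Finset ℕ)
    (_h : ResidualHyp p 𝒪 ρbar Smin)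
    (_hc : CurveCase p ρbar) (t : PType)
    (_ht : (t = .flat ∧ (GaloisRepAdic.ofResidualGaloisRep ρbar).IsFlatAt p) ∨
      (t = .sord ∧ (GaloisRepAdic.ofResidualGaloisRep ρbar).IsStrictOrdinaryAt p ∧
        ¬ (GaloisRepAdic.ofResidualGaloisRep ρbar).IsFlatAt p))
    (_hN : NeZero (wilesLevel p t Smin Smin))
    (χ : CuspForm.heckeAlgebra (wilesLevel p t Smin Smin) 2 (↑Smin : Set ℕ) →+* 𝒪)
    (_hχ : G4.ResFrobCond ρbar ((residue 𝒪).comp χ)),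
    RTIsoM p 𝒪 ρbar t Smin Smin

/-- **Cell NM (target): the induction step** `Σ → Σ ∪ {q}` in module form, for the types of
the minimal problems: `.flat` (`ρ̄` flat at `p`) and `.sord` (`ρ̄` strictly ordinary, NOT flat at
`p`: then every eigenform of level `N_Σ` giving `ρ̄` is `p`-new). -/
def NonMinStepMStatement : Prop :=
  ∀ (p : ℕ) [Fact p.Prime]
    (𝒪 : Type) [CommRing 𝒪] [IsDomain 𝒪] [IsDiscreteValuationRing 𝒪]
    [IsAdicComplete (maximalIdeal 𝒪) 𝒪] [Finite (ResidueField 𝒪)] [CharZero 𝒪]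
    (ρbar : ResidualGaloisRep (ResidueField 𝒪)) (Smin : Finset ℕ)
    (_h : ResidualHyp p 𝒪 ρbar Smin)
    (_hc : CurveCase p ρbar) (t : PType)
    (_ht : (t = .flat ∧ (GaloisRepAdic.ofResidualGaloisRep ρbar).IsFlatAt p) ∨
      (t = .sord ∧ (GaloisRepAdic.ofResidualGaloisRep ρbar).IsStrictOrdinaryAt p ∧
        ¬ (GaloisRepAdic.ofResidualGaloisRep ρbar).IsFlatAt p))
    (Sig : Finset ℕ)
    (_hSig : Smin ⊆ Sig) (_hSigP : ∀ q ∈ Sig, q.Prime)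
    (q : ℕ) (_hq : q.Prime) (_hqS : q ∉ Sig),
    RTIsoM p 𝒪 ρbar t Smin Sig → RTIsoM p 𝒪 ρbar t Smin (insert q Sig)

/-- **Cell NMP (target): the step at `p`**, from flat (module form) to ordinary. -/
def NonMinPMStatement : Prop :=
  ∀ (p : ℕ) [Fact p.Prime]
    (𝒪 : Type) [CommRing 𝒪] [IsDomain 𝒪] [IsDiscreteValuationRing 𝒪]
    [IsAdicComplete (maximalIdeal 𝒪) 𝒪] [Finite (ResidueField 𝒪)] [CharZero 𝒪]
    (ρbar : ResidualGaloisRep (ResidueField 𝒪)) (Smin : Finset ℕ)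
    (_h : ResidualHyp p 𝒪 ρbar Smin)
    (_hc : CurveCase p ρbar) (Sig : Finset ℕ)
    (_hSig : Smin ⊆ Sig) (_hSigP : ∀ q ∈ Sig, q.Prime)
    (_hflat : (GaloisRepAdic.ofResidualGaloisRep ρbar).IsFlatAt p)
    (_hord : (GaloisRepAdic.ofResidualGaloisRep ρbar).IsOrdinaryAt p),
    RTIsoM p 𝒪 ρbar .flat Smin Sig → RTIso p 𝒪 ρbar .ord Smin Sig

/-- **All the `R_Σ ≅ T_Σ` needed by the glue**, for the minimal type `t₀` and the final type. -/
def RTAllStatement : Prop :=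
  ∀ (p : ℕ) [Fact p.Prime]
    (𝒪 : Type) [CommRing 𝒪] [IsDomain 𝒪] [IsDiscreteValuationRing 𝒪]
    [IsAdicComplete (maximalIdeal 𝒪) 𝒪] [Finite (ResidueField 𝒪)] [CharZero 𝒪]
    (ρbar : ResidualGaloisRep (ResidueField 𝒪)) (Smin : Finset ℕ)
    (_h : ResidualHyp p 𝒪 ρbar Smin)
    (_hc : CurveCase p ρbar) (t : PType)
    (_ht : (t = .flat ∧ (GaloisRepAdic.ofResidualGaloisRep ρbar).IsFlatAt p) ∨
      (t = .sord ∧ (GaloisRepAdic.ofResidualGaloisRep ρbar).IsStrictOrdinaryAt p ∧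
        ¬ (GaloisRepAdic.ofResidualGaloisRep ρbar).IsFlatAt p))
    (_hN : NeZero (wilesLevel p t Smin Smin))
    (χ : CuspForm.heckeAlgebra (wilesLevel p t Smin Smin) 2 (↑Smin : Set ℕ) →+* 𝒪)
    (_hχ : G4.ResFrobCond ρbar ((residue 𝒪).comp χ))
    (E : Finset ℕ) (_hE : ∀ q ∈ E, q.Prime),
    RTIso p 𝒪 ρbar t Smin (Smin ∪ E) ∧
      (t = .flat → (GaloisRepAdic.ofResidualGaloisRep ρbar).IsOrdinaryAt p →
        RTIso p 𝒪 ρbar .ord Smin (Smin ∪ E))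

end Fermat.Agent.S59.Arch
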