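import Fermat.Agent.S59.Arch.Final
import Fermat.Agent.S59.Arch.LOW
import Fermat.Agent.S58.H94.FromModel3
import Fermat.Agent.S36.Mod3.H928.OfCusp
import Fermat.Agent.S36.Mod3.H96.CuspCong
import Fermat.Agent.S59.H401.DictFinal
import Fermat.Agent.S59.H461.FlatPeu
import Fermat.Agent.S59.H294.ResUnram
import Fermat.Agent.S59.H294.ResFlatFinal
import Fermat.Agent.S59.TW.H959.WireTop
import Fermat.Agent.S59.TW.H659.PkgMain
import Fermat.Agent.S59.TW.H659.OrdDatumMain
import Fermat.Agent.S59.TW.H314.CmpWire2
import Fermat.Agent.S59.TW.Aut.H673.DictR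
import Fermat.Agent.S59.NMP.H254.SelTop
import Fermat.Agent.S59.NMP.H341.StepPFinal
import Fermat.Agent.S59.NMP.H135.LgcFinal

/-!
# Row S59 — FINAL WIRING, round 2: S59 from the cell LO alone (architect helper239)

Every cell of row S59 except the level optimisation is closed on main and is plugged in here
from the PLAIN tops of the rows (no statement module `Fermat/Agent/SNN.lean` of a giant row is
imported by this file itself):

* S58  : `S58.H94.s58_of_model3_h94` on the MOD3 term of `S36.lean`;
* DICT : `H401.dict`;
* TW   : `TW.H959.minRTPlusH_of_cmp` with PKG `TW.H659.pkg` and CMP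
         `TW.H314.cmp_of_dictR TW.Aut.H673.dictR` (S30 `TW.H659.s30Statement659`,
         S35 `S58.H94.s35Statement_h94`, S36 from the engine);
* NM   : PKG;   NMP : DATUM `TW.H659.ordDatum659`, SEL `NMP.H254.selP`,
         STEP-P `NMP.H341.boundStepP`, LGC `NMP.H135.lgc` (the realizer-free copy, co-importable);
* LO   : `LOW.levelOpt_of_w35` with FlatPeu `H461.flatPeu`, ResUnram `H294.resUnram`,
         ResFlat `H294.resFlat`.

    s59_of_lo : H934.LoSqStatement → LOW.MazurW35Statement → LOW.PivotW35Statement →
                LOW.S39W35Statement → H239.S59Statement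

`H239.S59Statement` is the frozen S59 (`Arch.Final`).  So ROW S59 = the four Props of the cell LO
in W-form at `p ∈ {3, 5}` (`Arch/LOW.lean`, board `coord/S59-LO.md`).
-/

set_option autoImplicit false

namespace Fermat.Agent.S59.Arch

open Fermat.Agent.S59

/-- The MOD3 term of `S36.lean` / `S58.lean`. -/
theorem model3Statement : Fermat.Agent.S36.Eng.Model3Statement :=
  Fermat.Agent.S36.Mod3.H928.model3_of_cuspCong Fermat.Agent.S36.Mod3.H96.leafCuspCong96

/-- Frozen S36 in the gate shape of `S58/Spec.lean`, from the plain chain. -/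
theorem s36Statement : Fermat.Agent.S58.S36Statement :=
  Fermat.Agent.S58.H94.s36Statement_of_newPart_h94
    (Fermat.Agent.S36.Eng.newPartInertia_of_alg3_model3 Fermat.Agent.S36.Alg3.alg3
      model3Statement)

/-- Frozen S58, from the plain chain. -/
theorem s58Statement : H239.S58Statement :=
  fun W hss N p _ hp2 hirr hp2N hN hbad hN3 =>
    Fermat.Agent.S58.H94.s58_of_model3_h94 model3Statement W hss N p hp2 hirr hp2N hN hbad hN3

/-- **Leaf CMP of the cell TW**, closed. -/
theorem cmpStatement : TW.Aut.CmpStatement :=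
  TW.H314.cmp_of_dictR TW.Aut.H673.dictR TW.H659.s30Statement659
    Fermat.Agent.S58.H94.s35Statement_h94 s36Statement

/-- **Cell TW**, closed. -/
theorem minRTPlusHStatement : MinRTPlusHStatement :=
  TW.H959.minRTPlusH_of_cmp TW.H659.pkg cmpStatement

/-- **ROW S59 from the level optimisation.** -/
theorem s59_of_levelOpt (hLO : LevelOptStatement) : H239.S59Statement :=
  s59_of_open s58Statement hLO H401.dict minRTPlusHStatement TW.H659.pkg TW.H659.ordDatum659
    NMP.H254.selP NMP.H341.boundStepP NMP.H135.lgc

/-- **ROW S59 from the four Props of the cell LO in W-form at `p ∈ {3, 5}`.** -/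
theorem s59_of_lo (hSQ : H934.LoSqStatement) (hMz : LOW.MazurW35Statement)
    (hPv : LOW.PivotW35Statement) (h39 : LOW.S39W35Statement) : H239.S59Statement :=
  s59_of_levelOpt
    (LOW.levelOpt_of_w35 hSQ hMz hPv h39 H461.flatPeu H294.resUnram H294.resFlat)

end Fermat.Agent.S59.Arch
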