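import Fermat.Agent.S59.Arch.Final2
import Fermat.Agent.S59.H826.SqFree35

/-!
# Row S59 — FINAL WIRING, round 3: S59 from the four cell deliverables (architect helper239)

The cell LO in W-form at `p ∈ {3, 5}` is split into four cells; each cell architect delivers ONE
closed theorem, of the following types VERBATIM:

* (C)  `H826.SqFree35Statement`                       (end-to-end form of LO-SQ, helper826);
* (B1) `LOW.MazurW35Statement`                        (Mazur's principle, wall at `q`);
* (A)  `LOW.MazurW35Statement → LOW.S39W35Statement`  (wall at `p`; Mazur is used at `(3, 2)`);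
* (B2) `LOW.S39W35Statement → LOW.PivotW35Statement`  (pivots, `IA`).

    s59_of_cells : (C) → (B1) → (A) → (B2) → H239.S59Statement

`H239.S59Statement` is the frozen S59 (`Arch.Final`).
-/

set_option autoImplicit false

namespace Fermat.Agent.S59.Arch

open Fermat.Agent.S59

/-- **ROW S59 from the level optimisation in the end-to-end form of (C).** -/
theorem s59_of_sqFree35 (hC : H826.SqFree35Statement) (hMz : LOW.MazurW35Statement)
    (hPv : LOW.PivotW35Statement) (h39 : LOW.S39W35Statement) : H239.S59Statement :=
  s59_of_levelOpt
    (H826.levelOpt_of_sqFree35 hC hMz hPv h39 H461.flatPeu H294.resUnram H294.resFlat)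

/-- **ROW S59 from the four cell deliverables.** -/
theorem s59_of_cells (hC : H826.SqFree35Statement) (hB1 : LOW.MazurW35Statement)
    (hA : LOW.MazurW35Statement → LOW.S39W35Statement)
    (hB2 : LOW.S39W35Statement → LOW.PivotW35Statement) : H239.S59Statement :=
  s59_of_sqFree35 hC hB1 (hB2 (hA hB1)) (hA hB1)

end Fermat.Agent.S59.Arch
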