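import Fermat.Agent.S59.Arch.SpecRT
import Fermat.Agent.S53.GlueInj

/-!
# Row S59 — glue PT: from `R_Σ ≅ T_Σ` to the point of the Hecke–Galois datum (helper239)

`point_of_rtIso`: if `RTIso` holds for the type `Σ`, a universal deformation ring of type `Σ`
exists (S53) and S54 holds, then every representation `ρ` over `𝒪` of type `Σ` lifting `ρ̄` is a
point of a Hecke–Galois datum of level `N_Σ`.
-/

set_option autoImplicit false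

open Polynomial IsLocalRing

namespace Fermat.Agent.S59.Arch

/-- The frozen statement S54 (`R ↠ T`), as a hypothesis. -/
def S54Statement : Prop :=
  ∀ {𝒪 : Type} [CommRing 𝒪] [IsDomain 𝒪] [IsDiscreteValuationRing 𝒪]
    [IsAdicComplete (IsLocalRing.maximalIdeal 𝒪) 𝒪]
    {ρbar : ResidualGaloisRep (IsLocalRing.ResidueField 𝒪)}
    {𝒟 : ∀ ⦃A : Type⦄ [CommRing A] [IsLocalRing A] [Algebra 𝒪 A], GaloisRepAdic A → Prop}
    (D : GaloisRep.DeformationRingData 𝒪 ρbar 𝒟) {N : ℕ} [NeZero N] {S : Set ℕ}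
    {θ : CuspForm.heckeAlgebra N 2 S →+* IsLocalRing.ResidueField 𝒪}
    {T : Type} [CommRing T] [IsLocalRing T] [IsNoetherianRing T]
    [IsAdicComplete (IsLocalRing.maximalIdeal T) T] [Algebra 𝒪 T]
    [IsLocalHom (algebraMap 𝒪 T)] [Module.Finite 𝒪 T] [Module.Free 𝒪 T]
    (H : CuspForm.HeckeGaloisRepDatum N S 𝒪 θ T)
    (_hS : ∀ q : ℕ, q.Prime → q ∣ N → q ∈ S) (_h𝒟 : 𝒟 H.ρ)
    (_hres : H.ρ.residual.IsEquiv
      (ρbar.baseChangeAlong (IsLocalRing.ResidueField.map (algebraMap 𝒪 T)))),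
    ∃ φ : D.R →ₐ[𝒪] T, Function.Surjective φ ∧
      ∃ hφ : IsLocalHom (φ : D.R →+* T), (D.ρ.baseChangeAlong (φ : D.R →+* T) hφ).IsEquiv H.ρ

/-- The frozen statement S53 (existence of universal deformation rings), as a hypothesis. -/
def S53Statement : Prop :=
  ∀ (𝒪 : Type) [CommRing 𝒪] [IsDomain 𝒪] [IsDiscreteValuationRing 𝒪]
    [IsAdicComplete (IsLocalRing.maximalIdeal 𝒪) 𝒪] [Finite (IsLocalRing.ResidueField 𝒪)]
    (ρbar : ResidualGaloisRep (IsLocalRing.ResidueField 𝒪))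
    (𝒟 : ∀ ⦃A : Type⦄ [CommRing A] [IsLocalRing A] [Algebra 𝒪 A], GaloisRepAdic A → Prop)
    (_habs : ρbar.IsAbsolutelyIrreducible)
    (_h𝒟 : GaloisRep.IsDeformationCondition 𝒪 𝒟)
    (_hbar : 𝒟 (GaloisRepAdic.ofResidualGaloisRep ρbar))
    (_hfin : GaloisRep.TangentFinite 𝒪 ρbar 𝒟),
    Nonempty (GaloisRep.DeformationRingData 𝒪 ρbar 𝒟)

section PT

variable (p : ℕ) [Fact p.Prime]
  (𝒪 : Type) [CommRing 𝒪] [IsDomain 𝒪] [IsDiscreteValuationRing 𝒪]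
  [IsAdicComplete (maximalIdeal 𝒪) 𝒪]
  (ρbar : ResidualGaloisRep (ResidueField 𝒪))

/-- **PT.**  From `R_Σ ≅ T_Σ` to the point. -/
theorem point_of_rtIso (h54 : S54Statement) (t : PType) (Smin Sig : Finset ℕ)
    (hNS : ∀ q : ℕ, q.Prime → q ∣ wilesLevel p t Smin Sig → q ∈ Sig)
    (hD : Nonempty (GaloisRep.DeformationRingData 𝒪 ρbar (sigmaCond 𝒪 p t Smin Sig)))
    (hRT : RTIso p 𝒪 ρbar t Smin Sig)
    (ρ : GaloisRepAdic 𝒪) (hρ : sigmaCond 𝒪 p t Smin Sig ρ)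
    (hres : ρ.residual.IsEquiv
      (ρbar.baseChangeAlong (ResidueField.map (algebraMap 𝒪 𝒪)))) :
    ∃ (_ : NeZero (wilesLevel p t Smin Sig))
      (θ : CuspForm.heckeAlgebra (wilesLevel p t Smin Sig) 2 (↑Sig : Set ℕ) →+* ResidueField 𝒪)
      (T : Type) (_ : CommRing T) (_ : IsLocalRing T) (_ : IsNoetherianRing T)
      (_ : IsAdicComplete (maximalIdeal T) T) (_ : Algebra 𝒪 T)
      (_ : IsLocalHom (algebraMap 𝒪 T)) (_ : Module.Finite 𝒪 T) (_ : Module.Free 𝒪 T)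
      (H : CuspForm.HeckeGaloisRepDatum (wilesLevel p t Smin Sig) (↑Sig : Set ℕ) 𝒪 θ T),
      PointOfDatum H ρ := by
  obtain ⟨D⟩ := hD
  obtain ⟨hN, hint, θ, i1, i2, i3, i4, i5, i6, H, -, hresH, hcondH, hiso⟩ := hRT
  refine ⟨hN, θ, _, inferInstance, i1, i2, i3, inferInstance, i4, i5, i6, H, ?_⟩
  obtain ⟨φ, hφs, hφ, hφe⟩ := h54 D H (fun q hq hqN => by exact_mod_cast hNS q hq hqN) hcondH hresH
  obtain ⟨hbij, -⟩ := hiso D φ ⟨hφ, hφe⟩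
  -- the point of `R` given by `ρ`
  obtain ⟨φW, ⟨hφW, hφWe⟩, -⟩ := D.universal 𝒪
    (fun x => by
      obtain ⟨y, rfl⟩ := IsLocalRing.residue_surjective x
      exact ⟨y, rfl⟩) ρ hρ hres
  let e : D.R ≃ₐ[𝒪] CuspForm.heckeLocal (wilesLevel p t Smin Sig) (↑Sig : Set ℕ) 𝒪 θ := AlgEquiv.ofBijective φ hbij
  let ψ : CuspForm.heckeLocal (wilesLevel p t Smin Sig) (↑Sig : Set ℕ) 𝒪 θ →ₐ[𝒪] 𝒪 :=
    φW.comp (e.symm : CuspForm.heckeLocal (wilesLevel p t Smin Sig) (↑Sig : Set ℕ) 𝒪 θ →ₐ[𝒪] D.R)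
  have hcomp : (ψ : CuspForm.heckeLocal (wilesLevel p t Smin Sig) (↑Sig : Set ℕ) 𝒪 θ →+* 𝒪).comp (φ : D.R →+* CuspForm.heckeLocal (wilesLevel p t Smin Sig) (↑Sig : Set ℕ) 𝒪 θ) = (φW : D.R →+* 𝒪) := by
    ext x
    show φW (e.symm (φ x)) = φW x
    congr 1
    exact e.symm_apply_apply x
  have hψ : IsLocalHom (ψ : CuspForm.heckeLocal (wilesLevel p t Smin Sig) (↑Sig : Set ℕ) 𝒪 θ →+* 𝒪) := by
    constructor
    intro a ha
    obtain ⟨r, rfl⟩ := hφs a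
    have h1 : IsUnit (φW r) := by
      have : (ψ : CuspForm.heckeLocal (wilesLevel p t Smin Sig) (↑Sig : Set ℕ) 𝒪 θ →+* 𝒪) ((φ : D.R →+* CuspForm.heckeLocal (wilesLevel p t Smin Sig) (↑Sig : Set ℕ) 𝒪 θ) r) = (φW : D.R →+* 𝒪) r := by
        rw [← RingHom.comp_apply, hcomp]
      exact this ▸ ha
    have h2 : IsUnit r := hφW.map_nonunit r h1
    exact h2.map φ.toRingHom
  refine ⟨ψ, hψ, ?_⟩
  -- `H.ρ ⊗_ψ 𝒪 ≅ (D.ρ ⊗_φ T) ⊗_ψ 𝒪 ≅ D.ρ ⊗_{φW} 𝒪 ≅ ρ`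
  have h1 := Fermat.Agent.S53.H113.isEquiv_baseChangeAlong (ψ : CuspForm.heckeLocal (wilesLevel p t Smin Sig) (↑Sig : Set ℕ) 𝒪 θ →+* 𝒪) hψ
    (Fermat.Agent.S53.H113.isEquiv_symm hφe)
  have h2 := Fermat.Agent.S53.H113.baseChangeAlong_comp_isEquiv' (φ : D.R →+* CuspForm.heckeLocal (wilesLevel p t Smin Sig) (↑Sig : Set ℕ) 𝒪 θ) hφ (ψ : CuspForm.heckeLocal (wilesLevel p t Smin Sig) (↑Sig : Set ℕ) 𝒪 θ →+* 𝒪) hψ
    (φW : D.R →+* 𝒪) hφW hcomp D.ρ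
  exact Fermat.Agent.S53.H113.isEquiv_trans (Fermat.Agent.S53.H113.isEquiv_trans h1 h2) hφWe

end PT

end Fermat.Agent.S59.Arch
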