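import Fermat.Agent.S59.Arch.Glue3
import Fermat.Agent.S59.Arch.SpecRT2

/-!
# Row S59 — main glue, v3: module form of the induction (helper239)

* `rtIsoM_union`  : the induction over the non-minimal primes, in module form.
* `rtAll_of_M`    : `MinRTMStatement → NonMinStepMStatement → NonMinPMStatement → RTAllStatement`.
* `rtAll_of`      : the same from the ring-form statements of `SpecRT.lean`.
* `mlt2_of_rtAll` : `SemistableMLT2Statement` from the cells of `coord/S59.md` and `RTAllStatement`.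
* `mlt2_of_M`     : the composite (THE glue of the `R = T` layer).
-/

set_option autoImplicit false

open Polynomial IsLocalRing
open scoped WeierstrassCurve.Affine

namespace Fermat.Agent.S59.Arch

section Induction

variable (p : ℕ) [Fact p.Prime]
  (𝒪 : Type) [CommRing 𝒪] [IsDomain 𝒪] [IsDiscreteValuationRing 𝒪]
  [IsAdicComplete (maximalIdeal 𝒪) 𝒪] [Finite (ResidueField 𝒪)] [CharZero 𝒪]
  (ρbar : ResidualGaloisRep (ResidueField 𝒪))

/-- The induction over the non-minimal primes, module form. -/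
theorem rtIsoM_union (hNM : NonMinStepMStatement) (Smin : Finset ℕ)
    (h : ResidualHyp p 𝒪 ρbar Smin) (hc : CurveCase p ρbar) (t : PType)
    (ht : (t = .flat ∧ (GaloisRepAdic.ofResidualGaloisRep ρbar).IsFlatAt p) ∨
      (t = .sord ∧ (GaloisRepAdic.ofResidualGaloisRep ρbar).IsStrictOrdinaryAt p ∧
        ¬ (GaloisRepAdic.ofResidualGaloisRep ρbar).IsFlatAt p))
    (hmin : RTIsoM p 𝒪 ρbar t Smin Smin)
    (E : Finset ℕ) (hE : ∀ q ∈ E, q.Prime) :
    RTIsoM p 𝒪 ρbar t Smin (Smin ∪ E) := by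
  classical
  induction E using Finset.induction_on with
  | empty => simpa using hmin
  | insert q E hqE ih =>
    have hE' : ∀ q ∈ E, q.Prime := fun r hr => hE r (Finset.mem_insert_of_mem hr)
    have ih' := ih hE'
    by_cases hq : q ∈ Smin ∪ E
    · have : Smin ∪ insert q E = Smin ∪ E := by
        ext r
        simp only [Finset.mem_union, Finset.mem_insert]
        constructor
        · rintro (h1 | rfl | h1)
          · exact Or.inl h1
          · exact Finset.mem_union.mp hq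
          · exact Or.inr h1
        · rintro (h1 | h1)
          · exact Or.inl h1
          · exact Or.inr (Or.inr h1)
      rw [this]
      exact ih'
    · have : Smin ∪ insert q E = insert q (Smin ∪ E) := by
        ext r
        simp only [Finset.mem_union, Finset.mem_insert]
        tauto
      rw [this]
      refine hNM p 𝒪 ρbar Smin h hc t ht (Smin ∪ E) Finset.subset_union_left ?_ q
        (hE q (Finset.mem_insert_self q E)) hq ih'
      intro r hr
      rcases Finset.mem_union.mp hr with h1 | h1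
      · exact h.hSmin r h1
      · exact hE' r h1

end Induction

/-- The three cells TW, NM, NMP in module form give all the `R_Σ ≅ T_Σ`. -/
theorem rtAll_of_M (hMin : MinRTMStatement) (hNM : NonMinStepMStatement)
    (hNMP : NonMinPMStatement) : RTAllStatement := by
  intro p _ 𝒪 _ _ _ _ _ _ ρbar Smin h hc t ht hN χ hχ E hE
  have hmin := hMin p 𝒪 ρbar Smin h hc t ht hN χ hχ
  have hU := rtIsoM_union p 𝒪 ρbar hNM Smin h hc t ht hmin E hE
  refine ⟨hU.rtIso, ?_⟩
  rintro rfl hord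
  have hflat : (GaloisRepAdic.ofResidualGaloisRep ρbar).IsFlatAt p := by
    rcases ht with ⟨-, hf⟩ | ⟨h1, -⟩
    · exact hf
    · exact absurd h1 (by simp)
  refine hNMP p 𝒪 ρbar Smin h hc (Smin ∪ E) Finset.subset_union_left ?_ hflat hord hU
  intro r hr
  rcases Finset.mem_union.mp hr with h1 | h1
  · exact h.hSmin r h1
  · exact hE r h1

/-- The same from the ring-form statements. -/
theorem rtAll_of (hMin : MinRTStatement) (hNM : NonMinStepStatement)
    (hNMP : NonMinPStatement) : RTAllStatement := by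
  intro p _ 𝒪 _ _ _ _ _ _ ρbar Smin h _ t ht hN χ hχ E hE
  have hmin := hMin p 𝒪 ρbar Smin h t ht hN χ hχ
  have hU := rtIso_union p 𝒪 ρbar hNM Smin h t hmin E hE
  refine ⟨hU, ?_⟩
  rintro rfl hord
  refine hNMP p 𝒪 ρbar Smin h (Smin ∪ E) Finset.subset_union_left ?_ hord hU
  intro r hr
  rcases Finset.mem_union.mp hr with h1 | h1
  · exact h.hSmin r h1
  · exact hE r h1

/-- **GLUE, v3.**  The modularity lifting theorem in point form from the cells of the board,
with the three `R = T` cells bundled as `RTAllStatement`. -/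
theorem mlt2_of_rtAll (hC : CoeffStatement) (hCR : CurveRepStatement)
    (h53 : S53Statement) (h54 : S54Statement)
    (hRED : ResidualOfAdicStatement) (hID : ResidualIdStatement)
    (hLO : LevelOptStatement) (hDICT : DictStatement) (hGTW : CurveResidualHypStatement)
    (hBC : ResidualBCStatement) (hCOND : SigmaCondStatement)
    (hAll : RTAllStatement) :
    SemistableMLT2Statement := by
  classical
  intro p _ hp W hΔ hW hirr M₀ _ hres₀ hM₀ hM₀3
  have hpp : p.Prime := Fact.out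
  have hp2 : p ≠ 2 := by rcases hp with rfl | rfl <;> decide
  -- `hcard`, `hker` from a `CurveRep` over `ℤ_p`
  obtain ⟨𝒪₀, i1, i2, i3, i4, i5, i6, hp𝒪₀⟩ := hC p hpp
  obtain ⟨ρ₀⟩ := hCR p hp2 W hΔ hW hirr 𝒪₀ hp𝒪₀
  have hcard := ρ₀.hcard
  have hker := ρ₀.hker
  set ρFp : ResidualGaloisRep (ZMod p) :=
    (W.map (Int.castRingHom ℚ)).residualGaloisRepOf p hcard hker with hρFp
  -- unramified at the good primes
  have hunrFp : ∀ q : ℕ, q.Prime → q ≠ p → ¬ (q : ℤ) ∣ W.Δ → ρFp.IsUnramifiedAt q := by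
    intro q hq hqp hgood
    have h1 := residual_isUnramifiedAt (ρ₀.unram q hq hgood hqp)
    have h2 := isUnramifiedAt_of_residual_isEquiv ρ₀.residual h1
    exact ((hBC p ρFp (ResidueField 𝒪₀) ρ₀.ι).1 q hq).mp h2
  -- the minimal set
  set bad : Finset ℕ := W.Δ.natAbs.primeFactors with hbad
  have hbadmem : ∀ q : ℕ, q.Prime → ((q : ℤ) ∣ W.Δ ↔ q ∈ bad) := by
    intro q hq
    rw [hbad, Nat.mem_primeFactors, Int.natCast_dvd]
    constructor
    · intro h
      exact ⟨hq, h, Int.natAbs_ne_zero.mpr hΔ⟩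
    · intro h
      exact h.2.1
  set Smin : Finset ℕ := insert p (bad.filter (fun q => ¬ ρFp.IsUnramifiedAt q)) with hSmindef
  have hpS : p ∈ Smin := Finset.mem_insert_self _ _
  have hSminP : ∀ q ∈ Smin, q.Prime := by
    intro q hq
    rcases Finset.mem_insert.mp hq with rfl | h
    · exact hpp
    · exact Nat.prime_of_mem_primeFactors (Finset.mem_filter.mp h).1
  have hSminBad : ∀ q ∈ Smin, q ≠ p → (q : ℤ) ∣ W.Δ := by
    intro q hq hqp
    rcases Finset.mem_insert.mp hq with rfl | h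
    · exact absurd rfl hqp
    · exact (hbadmem q (Nat.prime_of_mem_primeFactors (Finset.mem_filter.mp h).1)).mpr
        (Finset.mem_filter.mp h).1
  have hminFp : IsMinSet p ρFp Smin := by
    refine ⟨hpS, hSminP, fun q hq hqp => ⟨fun h => ?_, fun h => ?_⟩⟩
    · rcases Finset.mem_insert.mp h with rfl | h
      · exact absurd rfl hqp
      · exact (Finset.mem_filter.mp h).2
    · refine Finset.mem_insert_of_mem (Finset.mem_filter.mpr ⟨?_, h⟩)
      by_contra hnot
      exact h (hunrFp q hq hqp fun hd => hnot ((hbadmem q hq).mp hd))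
  -- the type at `p` of the minimal problem
  obtain ⟨t₀, ht₀⟩ : ∃ t₀ : PType,
      (t₀ = .flat ∧ (GaloisRepAdic.ofResidualGaloisRep ρFp).IsFlatAt p) ∨
      (t₀ = .sord ∧ ¬ (GaloisRepAdic.ofResidualGaloisRep ρFp).IsFlatAt p) := by
    by_cases hflat : (GaloisRepAdic.ofResidualGaloisRep ρFp).IsFlatAt p
    · exact ⟨.flat, Or.inl ⟨rfl, hflat⟩⟩
    · exact ⟨.sord, Or.inr ⟨rfl, hflat⟩⟩
  -- level optimisation and coefficients
  have hmodmin := hLO p hp W hΔ hW hirr M₀ hres₀ hM₀ hM₀3 hcard hker Smin hminFp t₀ ht₀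
  haveI hNmin : NeZero (wilesLevel p t₀ Smin Smin) := ⟨wilesLevel_ne_zero hpp hSminP hSminP⟩
  obtain ⟨𝒪, j1, j2, j3, j4, j5, j6, ι, χ, hp𝒪, hquad, hχ⟩ :=
    hDICT p hp2 W hΔ hW hirr hcard hker (wilesLevel p t₀ Smin Smin) Smin hpS hSminP
      (fun q hq hqN => mem_of_prime_dvd_wilesLevel hpp hSminP hSminP hpS (Finset.Subset.refl _)
        q hq hqN) hmodmin
  obtain ⟨ρW⟩ := hCR p hp2 W hΔ hW hirr 𝒪 hp𝒪
  set ρbar : ResidualGaloisRep (ResidueField 𝒪) := curveResidual p W hcard hker ι with hρbar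
  have hresW : ρW.ρ.residual.IsEquiv ρbar := by
    have h := ρW.residual
    have hι : ρW.ι = ι := Subsingleton.elim _ _
    rw [hι] at h
    exact h
  have hmin : IsMinSet p ρbar Smin := by
    refine ⟨hpS, hSminP, fun q hq hqp => ?_⟩
    rw [hminFp.2.2 q hq hqp]
    exact not_congr ((hBC p ρFp (ResidueField 𝒪) ι).1 q hq).symm
  have hRH : ResidualHyp p 𝒪 ρbar Smin :=
    hGTW p hp W hΔ hW hirr hcard hker 𝒪 hp𝒪 ι hquad Smin hmin
  have hCC : CurveCase p ρbar := ⟨hp, W, hΔ, hW, hirr, hcard, hker, ι, rfl⟩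
  -- the set `Σ_W` and the conditions satisfied by `ρ_W`
  set SigW : Finset ℕ := Smin ∪ bad with hSigW
  have hSigP : ∀ q ∈ SigW, q.Prime := by
    intro q hq
    rcases Finset.mem_union.mp hq with h | h
    · exact hSminP q h
    · exact Nat.prime_of_mem_primeFactors h
  have hsub : Smin ⊆ SigW := Finset.subset_union_left
  have hunrW : ∀ q : ℕ, q.Prime → q ∉ SigW → ρW.ρ.IsUnramifiedAt q := by
    intro q hq hqS
    have hqp : q ≠ p := by
      rintro rfl
      exact hqS (hsub hpS)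
    refine ρW.unram q hq (fun hd => hqS ?_) hqp
    exact Finset.mem_union_right _ ((hbadmem q hq).mp hd)
  have hunipW : ∀ q ∈ Smin, q.Prime → q ≠ p → ρW.ρ.IsUnipotentOnInertiaAt q := by
    intro q hqS hq hqp
    exact ρW.unip q hq (fun hgood => hgood (hSminBad q hqS hqp)) hqp
  -- reduction of a condition of type `Σ_W`
  have hred : ∀ t : PType, sigmaCond 𝒪 p t Smin SigW ρW.ρ →
      sigmaCond 𝒪 p t Smin SigW (GaloisRepAdic.ofResidualGaloisRep ρbar) := fun t h =>
    hRED 𝒪 (sigmaCond 𝒪 p t Smin SigW) (hCOND p hp2 𝒪 hp𝒪 t Smin SigW).1 ρW.ρ ρbar hresW h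
  have hflatBC := (hBC p ρFp (ResidueField 𝒪) ι).2
  -- the final type and `R = T`
  obtain ⟨t, htp, hcondW, hRT⟩ : ∃ t : PType, ((p : ℤ) ∣ W.Δ → t ≠ .flat) ∧
      sigmaCond 𝒪 p t Smin SigW ρW.ρ ∧ RTIso p 𝒪 ρbar t Smin SigW := by
    have hbadP : ∀ q ∈ bad, q.Prime := fun q hq => Nat.prime_of_mem_primeFactors hq
    by_cases hgood : (p : ℤ) ∣ W.Δ
    · -- multiplicative reduction at `p`
      have hso : ρW.ρ.IsStrictOrdinaryAt p := ρW.ord (fun h => h hgood)
      have hcs : sigmaCond 𝒪 p .sord Smin SigW ρW.ρ := ⟨⟨ρW.det, hso, hunrW⟩, hunipW⟩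
      have hco : sigmaCond 𝒪 p .ord Smin SigW ρW.ρ :=
        ⟨⟨ρW.det, hso.isOrdinaryAt, hunrW⟩, hunipW⟩
      rcases ht₀ with ⟨rfl, hflat⟩ | ⟨rfl, hnflat⟩
      · -- `E[p]` flat: minimal problem flat, then the step at `p`
        have h1 := hAll p 𝒪 ρbar Smin hRH hCC .flat (Or.inl ⟨rfl, hflatBC.mpr hflat⟩) hNmin χ hχ
          bad hbadP
        have hord : (GaloisRepAdic.ofResidualGaloisRep ρbar).IsOrdinaryAt p :=
          (hred .ord hco).1.2.1
        exact ⟨.ord, fun _ => by simp, hco, h1.2 rfl hord⟩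
      · -- `E[p]` not flat: strictly ordinary minimal problem
        have hsobar : (GaloisRepAdic.ofResidualGaloisRep ρbar).IsStrictOrdinaryAt p :=
          (hred .sord hcs).1.2.1
        have h1 := hAll p 𝒪 ρbar Smin hRH hCC .sord
          (Or.inr ⟨rfl, hsobar, fun h => hnflat (hflatBC.mp h)⟩) hNmin χ hχ bad hbadP
        exact ⟨.sord, fun _ => by simp, hcs, h1.1⟩
    · -- good reduction at `p`
      have hfl : ρW.ρ.IsFlatAt p := ρW.flat hgood
      have hcf : sigmaCond 𝒪 p .flat Smin SigW ρW.ρ := ⟨⟨ρW.det, hfl, hunrW⟩, hunipW⟩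
      have hflbar : (GaloisRepAdic.ofResidualGaloisRep ρbar).IsFlatAt p := (hred .flat hcf).1.2.1
      rcases ht₀ with ⟨rfl, -⟩ | ⟨rfl, hnflat⟩
      · have h1 := hAll p 𝒪 ρbar Smin hRH hCC .flat (Or.inl ⟨rfl, hflbar⟩) hNmin χ hχ bad hbadP
        exact ⟨.flat, fun h => absurd h hgood, hcf, h1.1⟩
      · exact absurd (hflatBC.mp hflbar) hnflat
  -- the point
  have hD : Nonempty (GaloisRep.DeformationRingData 𝒪 ρbar (sigmaCond 𝒪 p t Smin SigW)) :=
    h53 𝒪 ρbar _ hRH.habs (hCOND p hp2 𝒪 hp𝒪 t Smin SigW).1 (hred t hcondW)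
      ((hCOND p hp2 𝒪 hp𝒪 t Smin SigW).2 ρbar)
  have hres' : ρW.ρ.residual.IsEquiv
      (ρbar.baseChangeAlong (ResidueField.map (algebraMap 𝒪 𝒪))) := by
    obtain ⟨e1⟩ := hresW
    obtain ⟨e2⟩ := hID 𝒪 ρbar
    exact ⟨e1.trans e2⟩
  have hNS : ∀ q : ℕ, q.Prime → q ∣ wilesLevel p t Smin SigW → q ∈ SigW := fun q hq h =>
    mem_of_prime_dvd_wilesLevel hpp hSminP hSigP hpS hsub q hq h
  obtain ⟨hN, θ, T, k1, k2, k3, k4, k5, k6, k7, k8, H, hpt⟩ :=
    point_of_rtIso p 𝒪 ρbar h54 t Smin SigW hNS hD hRT ρW.ρ hcondW hres'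
  refine ⟨𝒪, j1, j2, j3, j4, j5, j6, ρW, wilesLevel p t Smin SigW, hN, SigW,
    not_sq_dvd_wilesLevel hpp hSminP hSigP hpS,
    not_cube_dvd_wilesLevel hpp hSminP hSigP hpS, ?_, hSigP, ?_, hsub hpS, hNS,
    θ, T, k1, k2, k3, k4, k5, k6, k7, k8, H, hpt⟩
  · intro ℓ hℓ hd
    by_cases hℓp : ℓ = p
    · subst hℓp
      exact dvd_wilesLevel_of_ne_flat hpp (htp hd)
    · exact dvd_wilesLevel_of_mem hpp hSminP hSigP ℓ
        (Finset.mem_union_right _ ((hbadmem ℓ hℓ).mp hd)) hℓp
  · intro ℓ hℓ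
    by_cases hℓp : ℓ = p
    · exact Or.inl hℓp
    · exact Or.inr (dvd_wilesLevel_of_mem hpp hSminP hSigP ℓ hℓ hℓp)


/-- **THE GLUE of the `R = T` layer** (module form). -/
theorem mlt2_of_M (hC : CoeffStatement) (hCR : CurveRepStatement)
    (h53 : S53Statement) (h54 : S54Statement)
    (hRED : ResidualOfAdicStatement) (hID : ResidualIdStatement)
    (hLO : LevelOptStatement) (hDICT : DictStatement) (hGTW : CurveResidualHypStatement)
    (hBC : ResidualBCStatement) (hCOND : SigmaCondStatement)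
    (hMin : MinRTMStatement) (hNM : NonMinStepMStatement) (hNMP : NonMinPMStatement) :
    SemistableMLT2Statement :=
  mlt2_of_rtAll hC hCR h53 h54 hRED hID hLO hDICT hGTW hBC hCOND (rtAll_of_M hMin hNM hNMP)

end Fermat.Agent.S59.Arch
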