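import Fermat.Agent.S59.Arch.Glue4
import Fermat.Agent.S59.Arch.SpecPlus

/-!
# Row S59 — main glue, v5: the `Plus` invariant (architect helper239)

Targets of the cells: `Arch/SpecPlus.lean`.  All PROVED here:
* `rtIsoPlus_union` : the induction over the non-minimal primes;
* `rtAll_of_plus`   : `MinRTPlusH → NonMinStepPlusH → NonMinPPlusH → RTAllStatement`;
* `mlt2_of_plus`    : THE glue of the `R = T` layer (with `Glue4.mlt2_of_rtAll`).
-/

set_option autoImplicit false

open Polynomial IsLocalRing
open scoped WeierstrassCurve.Affine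

namespace Fermat.Agent.S59.Arch

open Fermat.Agent.S59.NM

section Induction

variable (p : ℕ) [Fact p.Prime]
  (𝒪 : Type) [CommRing 𝒪] [IsDomain 𝒪] [IsDiscreteValuationRing 𝒪]
  [IsAdicComplete (maximalIdeal 𝒪) 𝒪] [Finite (ResidueField 𝒪)] [CharZero 𝒪]
  (ρbar : ResidualGaloisRep (ResidueField 𝒪))

/-- The induction over the non-minimal primes, `Plus` form. -/
theorem rtIsoPlus_union (hNM : NonMinStepPlusHStatement) (Smin : Finset ℕ)
    (h : ResidualHyp p 𝒪 ρbar Smin) (hc : CurveCase p ρbar) (t : PType)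
    (ht : (t = .flat ∧ (GaloisRepAdic.ofResidualGaloisRep ρbar).IsFlatAt p) ∨
      (t = .sord ∧ (GaloisRepAdic.ofResidualGaloisRep ρbar).IsStrictOrdinaryAt p ∧
        ¬ (GaloisRepAdic.ofResidualGaloisRep ρbar).IsFlatAt p))
    (hN : NeZero (wilesLevel p t Smin Smin))
    (χ : CuspForm.heckeAlgebra (wilesLevel p t Smin Smin) 2 (↑Smin : Set ℕ) →+* 𝒪)
    (hχ : G4.ResFrobCond ρbar ((residue 𝒪).comp χ))
    (hmin : RTIsoPlus p 𝒪 ρbar t Smin Smin (eig χ))
    (E : Finset ℕ) (hE : ∀ q ∈ E, q.Prime) :
    RTIsoPlus p 𝒪 ρbar t Smin (Smin ∪ E) (eig χ) := by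
  classical
  induction E using Finset.induction_on with
  | empty => simpa using hmin
  | insert q E hqE ih =>
    have hE' : ∀ q ∈ E, q.Prime := fun r hr => hE r (Finset.mem_insert_of_mem hr)
    have ih' := ih hE'
    by_cases hq : q ∈ Smin ∪ E
    · have : Smin ∪ insert q E = Smin ∪ E := by
        ext r
        simp only [Finset.mem_union, Finset.mem_insert]
        constructor
        · rintro (h1 | rfl | h1)
          · exact Or.inl h1
          · exact Finset.mem_union.mp hq
          · exact Or.inr h1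
        · rintro (h1 | h1)
          · exact Or.inl h1
          · exact Or.inr (Or.inr h1)
      rw [this]
      exact ih'
    · have : Smin ∪ insert q E = insert q (Smin ∪ E) := by
        ext r
        simp only [Finset.mem_union, Finset.mem_insert]
        tauto
      rw [this]
      refine hNM p 𝒪 ρbar Smin h hc t ht hN χ hχ (Smin ∪ E) Finset.subset_union_left ?_ q
        (hE q (Finset.mem_insert_self q E)) hq ih'
      intro r hr
      rcases Finset.mem_union.mp hr with h1 | h1
      · exact h.hSmin r h1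
      · exact hE' r h1

end Induction

/-- The three cells TW, NM, NMP in `Plus` form give all the `R_Σ ≅ T_Σ`. -/
theorem rtAll_of_plus (hMin : MinRTPlusHStatement) (hNM : NonMinStepPlusHStatement)
    (hNMP : NonMinPPlusHStatement) : RTAllStatement := by
  intro p _ 𝒪 _ _ _ _ _ _ ρbar Smin h hc t ht hN χ hχ E hE
  have hmin := hMin p 𝒪 ρbar Smin h hc t ht hN χ hχ
  have hU := rtIsoPlus_union p 𝒪 ρbar hNM Smin h hc t ht hN χ hχ hmin E hE
  refine ⟨hU.rtIso, ?_⟩
  intro htf hord
  subst htf
  have hflat : (GaloisRepAdic.ofResidualGaloisRep ρbar).IsFlatAt p := by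
    rcases ht with ⟨-, hf⟩ | ⟨h1, -⟩
    · exact hf
    · exact absurd h1 (by simp)
  refine hNMP p 𝒪 ρbar Smin h hc hN χ hχ (Smin ∪ E) Finset.subset_union_left ?_ hflat hord hU
  intro r hr
  rcases Finset.mem_union.mp hr with h1 | h1
  · exact h.hSmin r h1
  · exact hE r h1

/-- **THE GLUE of the `R = T` layer** (`Plus` form, board v5). -/
theorem mlt2_of_plus (hC : CoeffStatement) (hCR : CurveRepStatement)
    (h53 : S53Statement) (h54 : S54Statement)
    (hRED : ResidualOfAdicStatement) (hID : ResidualIdStatement)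
    (hLO : LevelOptStatement) (hDICT : DictStatement) (hGTW : CurveResidualHypStatement)
    (hBC : ResidualBCStatement) (hCOND : SigmaCondStatement)
    (hMin : MinRTPlusHStatement) (hNM : NonMinStepPlusHStatement)
    (hNMP : NonMinPPlusHStatement) :
    SemistableMLT2Statement :=
  mlt2_of_rtAll hC hCR h53 h54 hRED hID hLO hDICT hGTW hBC hCOND (rtAll_of_plus hMin hNM hNMP)

end Fermat.Agent.S59.Arch
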