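import Fermat.Agent.S59.TW.Aut.H511.Idem
import Fermat.Agent.S59.H585.Perf
import Fermat.Agent.S59.H585.Adj2
import Fermat.Agent.S59.TW.H653.CuspKer

/-!
# Row S59, cell TW, layer 3 (AUT) — leaf PERF-MIN (architect helper239, board v5.1)

`perf_of_isLocPart` : for the localisation `V ⊆ X_{Γ₀(N)}(𝒪)` of the Betti module at an anemic
maximal ideal of the Hecke algebra (`Aut.IsLocPart … Tset ∅ V`), if `V` is cuspidal then the
restriction of the Manin pairing to `V` is PERFECT: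

    ∀ f : V →ₗ[𝒪] 𝒪, ∃ m : V, ∀ m' : V, maninPairing m' m = f m'.

Proof.
* `exists_rep`: the Manin pairing on the cuspidal classes with coefficients in a domain of
  characteristic `0` is perfect in the functional form (from `H585.intPairing_flip_bijective`
  over `ℤ` and `H585.exists_lincomb`).
* `V = e'·X` for an idempotent `e'` of the `𝒪`-algebra `B` generated by the `T_ℓ`, `ℓ ∤ N`
  (`Aut.H511.core`; uniqueness of the localisation: `eq_bot_of_nilp_of_full`, applied to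
  `(1 - e') V` and to `(1 - e) e' X`).
* every element of `B` preserves the cuspidal classes and is self-adjoint for the Manin pairing
  (`H585.adj2`); hence `e'` is, and `⟨m', e' y⟩ = ⟨e' m', y⟩ = ⟨m', y⟩` for `m' ∈ V`.
-/

set_option autoImplicit false
set_option linter.style.haveILetI false
set_option linter.unusedSectionVars false
set_option synthInstance.maxHeartbeats 400000
set_option maxHeartbeats 1000000

open IsLocalRing CongruenceSubgroup
open scoped MatrixGroups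

namespace Fermat.Agent.S59.Arch.PerfMin

open Fermat.Agent.S41.Spec Fermat.Agent.S59.H585

section Absorb

variable {𝒪 : Type} [CommRing 𝒪] [IsLocalRing 𝒪]
  {B : Type} [CommRing B] [Algebra 𝒪 B] [IsNoetherianRing B]
  {X : Type} [AddCommGroup X] [Module 𝒪 X]

omit [IsLocalRing 𝒪] in
/-- An endomorphism stabilising `W` stabilises `I • W`. -/
theorem apply_mem_smul (I : Ideal 𝒪) (f : Module.End 𝒪 X) (W : Submodule 𝒪 X)
    (hf : ∀ w ∈ W, f w ∈ W) {z : X} (hz : z ∈ I • W) : f z ∈ I • W := by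
  refine Submodule.smul_induction_on hz ?_ ?_
  · intro c hc w hw
    rw [map_smul]
    exact Submodule.smul_mem_smul hc (hf w hw)
  · intro w w' hw hw'
    rw [map_add]
    exact Submodule.add_mem _ hw hw'

/-- **Absorption.**  A finitely generated, saturated submodule `W`, stable under a Noetherian
commutative algebra `B` of operators, on which the elements of `gens` are nilpotent modulo `𝔪`
and which contains no common eigenvector of `gens` modulo `𝔪`, is zero. -/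
theorem eq_bot_of_nilp_of_full (ρ : B →ₐ[𝒪] Module.End 𝒪 X) (gens : Set B)
    (W : Submodule 𝒪 X) (hWfg : W.FG)
    (hstab : ∀ (b : B), ∀ w ∈ W, ρ b w ∈ W)
    (hsat : ∀ w ∈ W, w ∈ maximalIdeal 𝒪 • (⊤ : Submodule 𝒪 X) → w ∈ maximalIdeal 𝒪 • W)
    (hnil : ∀ g ∈ gens, ∃ m : ℕ, ∀ w ∈ W,
      (ρ g ^ m) w ∈ maximalIdeal 𝒪 • (⊤ : Submodule 𝒪 X))
    (hfull : ∀ w ∈ W, (∀ g ∈ gens, ρ g w ∈ maximalIdeal 𝒪 • (⊤ : Submodule 𝒪 X)) →
      w ∈ maximalIdeal 𝒪 • (⊤ : Submodule 𝒪 X)) :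
    W = ⊥ := by
  -- the ideal of the operators mapping `W` into `𝔪 W`
  let J : Ideal B :=
    { carrier := {b | ∀ w ∈ W, ρ b w ∈ maximalIdeal 𝒪 • W}
      zero_mem' := fun w _ => by
        rw [map_zero]
        exact Submodule.zero_mem _
      add_mem' := fun {a b} ha hb w hw => by
        rw [map_add]
        exact Submodule.add_mem _ (ha w hw) (hb w hw)
      smul_mem' := fun a b hb w hw => by
        rw [smul_eq_mul, map_mul]
        exact apply_mem_smul _ (ρ a) W (hstab a) (hb w hw) }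
  have hJ : ∀ b : B, b ∈ J ↔ ∀ w ∈ W, ρ b w ∈ maximalIdeal 𝒪 • W := fun _ => Iff.rfl
  have hrad : Ideal.span gens ≤ J.radical := by
    rw [Ideal.span_le]
    intro g hg
    obtain ⟨m, hm⟩ := hnil g hg
    refine ⟨m, (hJ _).mpr fun w hw => ?_⟩
    have h1 : ρ (g ^ m) w ∈ W := hstab _ w hw
    refine hsat _ h1 ?_
    rw [map_pow]
    exact hm w hw
  obtain ⟨k, hk⟩ := Ideal.exists_pow_le_of_le_radical_of_fg hrad
    (IsNoetherian.noetherian (Ideal.span gens))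
  -- descend
  have hdesc : ∀ k : ℕ, Ideal.span gens ^ k ≤ J → (1 : B) ∈ J := by
    intro k
    induction k with
    | zero =>
      intro h
      exact h (by rw [pow_zero, Ideal.one_eq_top]; trivial)
    | succ k ih =>
      intro h
      refine ih fun b hb => (hJ b).mpr fun w hw => ?_
      have hx : ρ b w ∈ W := hstab b w hw
      refine hsat _ hx (hfull _ hx fun g hg => ?_)
      have h1 : g * b ∈ Ideal.span gens ^ (k + 1) := by
        rw [pow_succ']
        exact Ideal.mul_mem_mul (Ideal.subset_span hg) hb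
      have h2 := (hJ _).mp (h h1) w hw
      rw [map_mul] at h2
      exact Submodule.smul_mono le_rfl le_top h2
  have h1 := (hJ 1).mp (hdesc k hk)
  refine Submodule.eq_bot_of_le_smul_of_le_jacobson_bot (maximalIdeal 𝒪) W hWfg ?_
    (IsLocalRing.maximalIdeal_le_jacobson ⊥)
  intro w hw
  have := h1 w hw
  rwa [map_one] at this

end Absorb

section Rep

variable {Γ : Subgroup SL(2, ℤ)} [Γ.FiniteIndex] {R : Type} [CommRing R]

/-- **The Manin pairing on the cuspidal classes** with coefficients in `R`, as a bilinear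
form. -/
noncomputable def pairR (hneg : (-1 : SL(2, ℤ)) ∈ Γ) :
    cuspSub R Γ R →ₗ[R] cuspSub R Γ R →ₗ[R] R :=
  LinearMap.mk₂ R (fun x y => maninPairing Γ (x : Additive Γ →+ R) (y : Additive Γ →+ R))
    (fun x x' y => maninPairing_add_left hneg x.2 x'.2 y.2)
    (fun c x y => maninPairing_smul_left hneg c x.2 y.2)
    (fun x y y' => maninPairing_add_right hneg x.2 y.2 y'.2)
    (fun c x y => maninPairing_smul_right hneg c x.2 y.2)

@[simp] theorem pairR_apply (hneg : (-1 : SL(2, ℤ)) ∈ Γ) (x y : cuspSub R Γ R) :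
    pairR hneg x y = maninPairing Γ (x : Additive Γ →+ R) (y : Additive Γ →+ R) := rfl

omit [Γ.FiniteIndex] in
/-- Base change of integral cuspidal classes. -/
noncomputable def castL (Γ : Subgroup SL(2, ℤ)) (R : Type) [CommRing R] :
    cuspSub ℤ Γ ℤ →ₗ[ℤ] cuspSub R Γ R where
  toFun c := ⟨(Int.castRingHom R).toAddMonoidHom.comp (c : Additive Γ →+ ℤ),
    isCuspidalOn_comp _ c.2⟩
  map_add' a b := by
    apply Subtype.ext
    ext g
    simp
  map_smul' n a := by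
    apply Subtype.ext
    ext g
    simp

omit [Γ.FiniteIndex] in
theorem castL_apply (c : cuspSub ℤ Γ ℤ) (g : Additive Γ) :
    ((castL Γ R c : cuspSub R Γ R) : Additive Γ →+ R) g =
      (((c : Additive Γ →+ ℤ) g : ℤ) : R) := rfl

theorem pairR_castL (hneg : (-1 : SL(2, ℤ)) ∈ Γ) (c w : cuspSub ℤ Γ ℤ) :
    pairR hneg (castL Γ R c) (castL Γ R w) = ((intPairing hneg c w : ℤ) : R) :=
  maninPairing_map hneg (Int.castRingHom R) c.2 w.2

/-- **Perfectness of the Manin pairing, functional form** (characteristic `0`): every linear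
functional on the cuspidal classes is the pairing with a cuspidal class. -/
theorem exists_rep [IsDomain R] [CharZero R] (hneg : (-1 : SL(2, ℤ)) ∈ Γ)
    (f : cuspSub R Γ R →ₗ[R] R) :
    ∃ m : cuspSub R Γ R, ∀ x : cuspSub R Γ R, pairR hneg x m = f x := by
  classical
  set β := Module.Free.chooseBasis ℤ (cuspSub ℤ Γ ℤ) with hβ
  haveI : Fintype (Module.Free.ChooseBasisIndex ℤ (cuspSub ℤ Γ ℤ)) :=
    Module.Free.ChooseBasisIndex.fintype ℤ _
  choose w hw using fun i => (intPairing_flip_bijective (Γ := Γ) hneg).2 (β.coord i)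
  have hw' : ∀ i (c : cuspSub ℤ Γ ℤ), intPairing hneg c (w i) = β.repr c i := by
    intro i c
    have := LinearMap.congr_fun (hw i) c
    exact this
  set m : cuspSub R Γ R := ∑ i, f (castL Γ R (β i)) • castL Γ R (w i) with hm
  refine ⟨m, ?_⟩
  -- on integral classes
  have hint : ∀ c : cuspSub ℤ Γ ℤ, pairR hneg (castL Γ R c) m = f (castL Γ R c) := by
    intro c
    rw [hm, map_sum]
    have h1 : f (castL Γ R c) = ∑ i, ((β.repr c i : ℤ) : R) * f (castL Γ R (β i)) := by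
      conv_lhs => rw [← β.sum_repr c]
      rw [map_sum, map_sum]
      refine Finset.sum_congr rfl fun i _ => ?_
      rw [map_smul, ← zsmul_eq_mul]
      exact map_zsmul f _ _
    rw [h1]
    refine Finset.sum_congr rfl fun i _ => ?_
    rw [map_smul, smul_eq_mul, pairR_castL, hw', mul_comm]
  intro x
  obtain ⟨ι, _, v, z, hz, hxz⟩ := exists_lincomb x.2
  have hx : x = ∑ k, v k • castL Γ R ⟨z k, hz k⟩ := by
    apply Subtype.ext
    refine AddMonoidHom.ext fun g => ?_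
    rw [hxz g]
    simp only [Submodule.coe_sum, Submodule.coe_smul, AddMonoidHom.finsetSum_apply]
    rfl
  clear_value m
  rw [hx, map_sum, LinearMap.sum_apply, map_sum]
  refine Finset.sum_congr rfl fun k _ => ?_
  rw [map_smul, LinearMap.smul_apply, hint, map_smul]

end Rep

section Uniq

open Fermat.Agent.S59.TW.Aut.H511
open scoped IsMulCommutative

variable {𝒪 : Type} [CommRing 𝒪] [IsLocalRing 𝒪] [IsNoetherianRing 𝒪]
  [IsAdicComplete (maximalIdeal 𝒪) 𝒪]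
  {X : Type} [AddCommGroup X] [Module 𝒪 X] [Module.Finite 𝒪 X] [Module.Free 𝒪 X]

omit [IsLocalRing 𝒪] [IsNoetherianRing 𝒪] [IsAdicComplete (maximalIdeal 𝒪) 𝒪]
  [Module.Finite 𝒪 X] [Module.Free 𝒪 X] in
/-- A projector maps `I • ⊤` into `I • (its range)`. -/
theorem proj_mem_smul_range (I : Ideal 𝒪)
    (π : Module.End 𝒪 X) {z : X} (hz : z ∈ I • (⊤ : Submodule 𝒪 X)) :
    π z ∈ I • LinearMap.range π := by
  refine Submodule.smul_induction_on hz ?_ ?_
  · intro c hc w _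
    rw [map_smul]
    exact Submodule.smul_mem_smul hc ⟨w, rfl⟩
  · intro w w' hw hw'
    rw [map_add]
    exact Submodule.add_mem _ hw hw'

/-- **Uniqueness of the localisation.**  Let `S` be a commuting family of operators on a finite
free module `X` over a complete Noetherian local ring, `gens` a subset of the algebra `B`
generated by `S`, and `e` a projector commuting with `S`, such that the elements of `gens` are
nilpotent on `e X` modulo `𝔪` and `ker e` contains no common eigenvector of `gens` modulo `𝔪`.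
Then `e X = E X` for an idempotent `E ∈ B`. -/
theorem exists_idem_eq (S : Set (Module.End 𝒪 X))
    (hcomm : ∀ a ∈ S, ∀ b ∈ S, a * b = b * a) (gens : Set (Module.End 𝒪 X))
    (hgens : gens ⊆ Algebra.adjoin 𝒪 S)
    (e : Module.End 𝒪 X) (he1 : ∀ x, e (e x) = e x)
    (he4 : ∀ s ∈ S, ∀ x, e (s x) = s (e x))
    (hnil : ∀ g ∈ gens, ∃ m : ℕ, ∀ x : X, e x = x →
      (g ^ m) x ∈ maximalIdeal 𝒪 • (⊤ : Submodule 𝒪 X))
    (hfull : ∀ x : X, e x = 0 →
      (∀ g ∈ gens, g x ∈ maximalIdeal 𝒪 • (⊤ : Submodule 𝒪 X)) →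
      x ∈ maximalIdeal 𝒪 • (⊤ : Submodule 𝒪 X)) :
    ∃ E : Module.End 𝒪 X, E ∈ Algebra.adjoin 𝒪 S ∧ (∀ x, E (E x) = E x) ∧
      (∀ x, e x = x → E x = x) ∧ ∀ x, e (E x) = E x := by
  classical
  have hmc : IsMulCommutative (Algebra.adjoin 𝒪 S) := Algebra.isMulCommutative_adjoin 𝒪 hcomm
  haveI hfinB : Module.Finite 𝒪 (Algebra.adjoin 𝒪 S) :=
    Module.Finite.of_injective (Algebra.adjoin 𝒪 S).val.toLinearMap Subtype.val_injective
  haveI : IsNoetherianRing (Algebra.adjoin 𝒪 S) :=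
    IsNoetherianRing.of_finite 𝒪 (Algebra.adjoin 𝒪 S)
  set ρ : Algebra.adjoin 𝒪 S →ₐ[𝒪] Module.End 𝒪 X := (Algebra.adjoin 𝒪 S).val with hρ
  set gensB : Set (Algebra.adjoin 𝒪 S) := {b | (b : Module.End 𝒪 X) ∈ gens} with hgensB
  obtain ⟨e', hee, hnil', hfull'⟩ := core (𝒪 := 𝒪) ρ gensB
  have hE1 : ∀ x, ρ e' (ρ e' x) = ρ e' x := fun x => by
    have := congrArg (fun b => ρ b x) hee
    simpa [map_mul] using this
  -- `e` commutes with `B`
  have hcomm' : ∀ (b : Module.End 𝒪 X), b ∈ Algebra.adjoin 𝒪 S → ∀ x, e (b x) = b (e x) := by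
    intro b hb
    induction hb using Algebra.adjoin_induction with
    | mem b hb => exact fun x => he4 b hb x
    | algebraMap r => exact fun x => map_smul e r x
    | add a b _ _ iha ihb =>
      intro x
      show e (a x + b x) = a (e x) + b (e x)
      rw [map_add, iha, ihb]
    | mul a b _ _ iha ihb =>
      intro x
      show e (a (b x)) = a (b (e x))
      rw [iha, ihb]
  have hcommB : ∀ (b : Algebra.adjoin 𝒪 S) x, e (ρ b x) = ρ b (e x) :=
    fun b x => hcomm' _ b.2 x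
  have hBB : ∀ (a b : Algebra.adjoin 𝒪 S) x, ρ a (ρ b x) = ρ b (ρ a x) := by
    intro a b x
    have := congrArg (fun c => ρ c x) (mul_comm a b)
    simpa [map_mul] using this
  -- first absorption: `(1 - e') e X = 0`
  have hA1 : ∀ x, e x = x → ρ e' x = x := by
    set π₁ : Module.End 𝒪 X := (LinearMap.id - ρ e').comp e with hπ₁
    have hπ₁a : ∀ x, π₁ x = e x - ρ e' (e x) := fun x => rfl
    have hπ₁V : ∀ x, e (π₁ x) = π₁ x := by
      intro x
      rw [hπ₁a, map_sub, he1, hcommB, he1]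
    have hπ₁e' : ∀ x, ρ e' (π₁ x) = 0 := by
      intro x
      rw [hπ₁a, map_sub, hE1, sub_self]
    have hπ₁idem : ∀ x, π₁ (π₁ x) = π₁ x := by
      intro x
      rw [hπ₁a (π₁ x), hπ₁V, hπ₁e', sub_zero]
    have hW : LinearMap.range π₁ = ⊥ := by
      refine eq_bot_of_nilp_of_full ρ gensB _ (Module.Finite.iff_fg.mp inferInstance)
        ?_ ?_ ?_ ?_
      · rintro b _ ⟨x, rfl⟩
        refine ⟨ρ b x, ?_⟩
        rw [hπ₁a, hπ₁a, hcommB, hBB e', map_sub]
      · rintro w ⟨x, rfl⟩ hw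
        have := proj_mem_smul_range (maximalIdeal 𝒪) π₁ hw
        rwa [hπ₁idem] at this
      · intro g hg
        obtain ⟨m, hm⟩ := hnil g hg
        refine ⟨m, ?_⟩
        rintro w ⟨x, rfl⟩
        exact hm _ (hπ₁V x)
      · rintro w ⟨x, rfl⟩ hw
        exact hfull' _ (hπ₁e' x) hw
    intro v hv
    have h1 : π₁ v ∈ LinearMap.range π₁ := ⟨v, rfl⟩
    rw [hW, Submodule.mem_bot, hπ₁a, hv, sub_eq_zero] at h1
    exact h1.symm
  -- second absorption: `(1 - e) e' X = 0`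
  have hA2 : ∀ x, e (ρ e' x) = ρ e' x := by
    set π₂ : Module.End 𝒪 X := (LinearMap.id - e).comp (ρ e') with hπ₂
    have hπ₂a : ∀ x, π₂ x = ρ e' x - e (ρ e' x) := fun x => rfl
    have hπ₂e : ∀ x, e (π₂ x) = 0 := by
      intro x
      rw [hπ₂a, map_sub, he1, sub_self]
    have hπ₂e' : ∀ x, ρ e' (π₂ x) = π₂ x := by
      intro x
      rw [hπ₂a, map_sub, hE1, ← hcommB, hE1]
    have hπ₂idem : ∀ x, π₂ (π₂ x) = π₂ x := by
      intro x
      rw [hπ₂a (π₂ x), hπ₂e', hπ₂e, sub_zero]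
    have hW : LinearMap.range π₂ = ⊥ := by
      refine eq_bot_of_nilp_of_full ρ gensB _ (Module.Finite.iff_fg.mp inferInstance)
        ?_ ?_ ?_ ?_
      · rintro b _ ⟨x, rfl⟩
        refine ⟨ρ b x, ?_⟩
        rw [hπ₂a, hπ₂a, hBB e', hcommB, map_sub]
      · rintro w ⟨x, rfl⟩ hw
        have := proj_mem_smul_range (maximalIdeal 𝒪) π₂ hw
        rwa [hπ₂idem] at this
      · intro g hg
        obtain ⟨m, hm⟩ := hnil' g hg
        refine ⟨m, ?_⟩
        rintro w ⟨x, rfl⟩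
        exact hm _ (hπ₂e' x)
      · rintro w ⟨x, rfl⟩ hw
        exact hfull _ (hπ₂e x) fun g hg => hw ⟨g, hgens hg⟩ hg
    intro x
    have h1 : π₂ x ∈ LinearMap.range π₂ := ⟨x, rfl⟩
    rw [hW, Submodule.mem_bot, hπ₂a, sub_eq_zero] at h1
    exact h1.symm
  exact ⟨ρ e', e'.2, hE1, hA1, hA2⟩

end Uniq

section Main

open Fermat.Agent.S59.TW.H653 Fermat.Agent.S59.TW.Aut Fermat.Agent.S59.TW.Aut.H511
open scoped IsMulCommutative

variable {N : ℕ} [NeZero N]
  {𝒪 : Type} [CommRing 𝒪] [IsDomain 𝒪] [IsDiscreteValuationRing 𝒪]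
  [IsAdicComplete (maximalIdeal 𝒪) 𝒪]

/-- The family of the operators `T_ℓ`, `ℓ ∤ N`, on `X_{Γ₀(N)}(𝒪)`. -/
def tSet (N : ℕ) (𝒪 : Type) [CommRing 𝒪] :
    Set (Module.End 𝒪 (Additive (Gamma0 N) →+ 𝒪)) :=
  {f | ∃ (ℓ : ℕ) (_ : Fact ℓ.Prime) (hℓ : ¬ ℓ ∣ N), f = TKl (isMid_Gamma0 N) 𝒪 ℓ hℓ}

omit [IsDomain 𝒪] [IsDiscreteValuationRing 𝒪] [IsAdicComplete (maximalIdeal 𝒪) 𝒪] in
theorem tSet_comm : ∀ a ∈ tSet N 𝒪, ∀ b ∈ tSet N 𝒪, a * b = b * a := by
  rintro a ⟨ℓ, _, hℓ, rfl⟩ b ⟨ℓ', _, hℓ', rfl⟩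
  refine LinearMap.ext fun φ => ?_
  exact TK_comm (isMid_Gamma0 N) hℓ' hℓ φ

omit [IsDiscreteValuationRing 𝒪] [IsAdicComplete (maximalIdeal 𝒪) 𝒪] in
/-- **The elements of the algebra generated by the `T_ℓ` preserve the cuspidal classes and are
self-adjoint for the Manin pairing.** -/
theorem adjoin_selfAdjoint {b : Module.End 𝒪 (Additive (Gamma0 N) →+ 𝒪)}
    (hb : b ∈ Algebra.adjoin 𝒪 (tSet N 𝒪)) :
    (∀ x, IsCuspidal x → IsCuspidal (b x)) ∧
      ∀ x y, IsCuspidal x → IsCuspidal y →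
        maninPairing (Gamma0 N) (b x) y = maninPairing (Gamma0 N) x (b y) := by
  have hN : N ≠ 0 := NeZero.ne N
  haveI := finiteIndex_Gamma0' hN
  have hneg := neg_one_mem_Gamma0' N
  have hmc : IsMulCommutative (Algebra.adjoin 𝒪 (tSet N 𝒪)) :=
    Algebra.isMulCommutative_adjoin 𝒪 tSet_comm
  induction hb using Algebra.adjoin_induction with
  | mem b hb =>
    obtain ⟨ℓ, _, hℓ, rfl⟩ := hb
    refine ⟨fun x hx => ?_, fun x y hx hy => ?_⟩
    · exact isCuspidalK_TK N (Gamma0 N) ℓ hx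
    · rw [TKl_apply, TKl_apply, TK_Gamma0 hℓ, TK_Gamma0 hℓ]
      exact (adj2 𝒪 N 2 hN Nat.prime_two).2 ℓ hℓ x y hx hy
  | algebraMap r =>
    refine ⟨fun x hx => ?_, fun x y hx hy => ?_⟩
    · exact (cuspSub 𝒪 (Gamma0 N) 𝒪).smul_mem r hx
    · show maninPairing (Gamma0 N) (r • x) y = maninPairing (Gamma0 N) x (r • y)
      rw [maninPairing_smul_left hneg r hx hy, maninPairing_smul_right hneg r hx hy]
  | add a b ha hb iha ihb =>
    refine ⟨fun x hx => ?_, fun x y hx hy => ?_⟩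
    · exact isCuspidalOn_add (iha.1 x hx) (ihb.1 x hx)
    · show maninPairing (Gamma0 N) (a x + b x) y = maninPairing (Gamma0 N) x (a y + b y)
      rw [maninPairing_add_left hneg (iha.1 x hx) (ihb.1 x hx) hy,
        maninPairing_add_right hneg hx (iha.1 y hy) (ihb.1 y hy), iha.2 x y hx hy,
        ihb.2 x y hx hy]
  | mul a b ha hb iha ihb =>
    refine ⟨fun x hx => ?_, fun x y hx hy => ?_⟩
    · exact iha.1 _ (ihb.1 x hx)
    · have hcomm : a * b = b * a := by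
        have := hmc.is_comm.comm (⟨a, ha⟩ : Algebra.adjoin 𝒪 (tSet N 𝒪)) ⟨b, hb⟩
        exact congrArg Subtype.val this
      show maninPairing (Gamma0 N) (a (b x)) y = maninPairing (Gamma0 N) x ((a * b) y)
      rw [hcomm, iha.2 _ y (ihb.1 x hx) hy, ihb.2 x _ hx (iha.1 y hy)]
      rfl


/-- **Uniqueness of the localisation**: `V` is the image of an idempotent `E` of the algebra
generated by the `T_ℓ`. -/
theorem exists_idem_of_isLocPart (Tset : Set (ℕ × 𝒪))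
    (hT : ∀ x ∈ Tset, x.1.Prime ∧ ¬ x.1 ∣ N)
    (V : Submodule 𝒪 (Additive (Gamma0 N) →+ 𝒪))
    (hV : IsLocPart (isMid_Gamma0 N) Tset ∅ V) :
    ∃ E : Module.End 𝒪 (Additive (Gamma0 N) →+ 𝒪), E ∈ Algebra.adjoin 𝒪 (tSet N 𝒪) ∧
      (∀ x, E (E x) = E x) ∧ (∀ v ∈ V, E v = v) ∧ ∀ x, E x ∈ V := by
  classical
  have hN : N ≠ 0 := NeZero.ne N
  haveI := finiteIndex_Gamma0' hN
  -- `X` is finite free
  obtain ⟨hfin, hfree⟩ :=
    Fermat.Agent.S59.MFree.H761.finite_free_submodule (O := 𝒪) (Gamma0 N) ⊤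
  haveI : Module.Finite 𝒪 (Additive (Gamma0 N) →+ 𝒪) :=
    Module.Finite.equiv (Submodule.topEquiv (R := 𝒪) (M := Additive (Gamma0 N) →+ 𝒪))
  haveI : Module.Free 𝒪 (Additive (Gamma0 N) →+ 𝒪) :=
    Module.Free.of_equiv (Submodule.topEquiv (R := 𝒪) (M := Additive (Gamma0 N) →+ 𝒪))
  set gens : Set (Module.End 𝒪 (Additive (Gamma0 N) →+ 𝒪)) :=
    {g | ∃ (ℓ : ℕ) (c : 𝒪) (_ : Fact ℓ.Prime) (hℓ : ¬ ℓ ∣ N), (ℓ, c) ∈ Tset ∧
      g = TKl (isMid_Gamma0 N) 𝒪 ℓ hℓ - c • 1} with hgens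
  have hsub : gens ⊆ Algebra.adjoin 𝒪 (tSet N 𝒪) := by
    rintro g ⟨ℓ, c, hF, hℓ, -, rfl⟩
    have h1 : TKl (isMid_Gamma0 N) 𝒪 ℓ hℓ ∈ Algebra.adjoin 𝒪 (tSet N 𝒪) :=
      Algebra.subset_adjoin ⟨ℓ, hF, hℓ, rfl⟩
    have h2 : (c • 1 : Module.End 𝒪 (Additive (Gamma0 N) →+ 𝒪)) ∈
        Algebra.adjoin 𝒪 (tSet N 𝒪) :=
      Subalgebra.smul_mem _ (one_mem _) c
    exact Subalgebra.sub_mem (Algebra.adjoin 𝒪 (tSet N 𝒪)) h1 h2
  obtain ⟨e, he1, he2, he3, he4, -, -, hfull⟩ := hV.exists_proj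
  have hrange : ∀ x, x ∈ V ↔ e x = x :=
    fun x => ⟨fun h => he3 x h, fun h => h ▸ he2 x⟩
  have h4 : ∀ s ∈ tSet N 𝒪, ∀ x, e (s x) = s (e x) := by
    rintro s ⟨ℓ, _, hℓ, rfl⟩ x
    exact he4 ℓ hℓ x
  have hnil : ∀ g ∈ gens, ∃ m : ℕ, ∀ x : Additive (Gamma0 N) →+ 𝒪, e x = x →
      (g ^ m) x ∈ maximalIdeal 𝒪 • (⊤ : Submodule 𝒪 (Additive (Gamma0 N) →+ 𝒪)) := by
    rintro g ⟨ℓ, c, hF, hℓ, hmem, rfl⟩
    obtain ⟨m, hm⟩ := hV.nilp_T ℓ c hmem
    refine ⟨m, fun x hx => ?_⟩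
    have h1 := hm x ((hrange x).mpr hx)
    rw [Module.End.pow_apply]
    exact h1
  have hfull' : ∀ x : Additive (Gamma0 N) →+ 𝒪, e x = 0 →
      (∀ g ∈ gens, g x ∈ maximalIdeal 𝒪 • (⊤ : Submodule 𝒪 (Additive (Gamma0 N) →+ 𝒪))) →
      x ∈ maximalIdeal 𝒪 • (⊤ : Submodule 𝒪 (Additive (Gamma0 N) →+ 𝒪)) := by
    intro x hx hg
    refine hfull x hx ?_ ?_
    · intro ℓ hF c hmem
      have hℓ : ¬ ℓ ∣ N := (hT _ hmem).2
      exact hg _ ⟨ℓ, c, hF, hℓ, hmem, rfl⟩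
    · intro q _ α hα
      exact absurd hα (Set.notMem_empty _)
  obtain ⟨E, hEB, hE1, hE2, hE3⟩ := exists_idem_eq (𝒪 := 𝒪) (tSet N 𝒪) tSet_comm gens hsub e
    he1 h4 hnil hfull'
  exact ⟨E, hEB, hE1, fun v hv => hE2 v ((hrange v).mp hv), fun x => (hrange _).mpr (hE3 x)⟩

/-- **PERF-MIN.**  The restriction of the Manin pairing to a cuspidal localisation `V` of
`X_{Γ₀(N)}(𝒪)` at an anemic maximal ideal is perfect. -/
theorem perf_of_isLocPart [CharZero 𝒪] (Tset : Set (ℕ × 𝒪))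
    (hT : ∀ x ∈ Tset, x.1.Prime ∧ ¬ x.1 ∣ N)
    (V : Submodule 𝒪 (Additive (Gamma0 N) →+ 𝒪))
    (hV : IsLocPart (isMid_Gamma0 N) Tset ∅ V) (hcusp : ∀ v ∈ V, IsCuspidal v)
    (f : V →ₗ[𝒪] 𝒪) :
    ∃ m : V, ∀ m' : V, maninPairing (Gamma0 N)
      (m' : Additive (Gamma0 N) →+ 𝒪) (m : Additive (Gamma0 N) →+ 𝒪) = f m' := by
  have hN : N ≠ 0 := NeZero.ne N
  haveI := finiteIndex_Gamma0' hN
  have hneg := neg_one_mem_Gamma0' N
  obtain ⟨E, hEB, hE1, hE2, hE3⟩ := exists_idem_of_isLocPart Tset hT V hV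
  obtain ⟨hEc, hEadj⟩ := adjoin_selfAdjoint hEB
  -- the functional `f ∘ E` on the cuspidal classes
  set F : cuspSub 𝒪 (Gamma0 N) 𝒪 →ₗ[𝒪] 𝒪 :=
    f.comp ((E.codRestrict V hE3).comp (cuspSub 𝒪 (Gamma0 N) 𝒪).subtype) with hF
  obtain ⟨m₀, hm₀⟩ := exists_rep hneg F
  refine ⟨⟨E m₀, hE3 _⟩, fun m' => ?_⟩
  have hm'c : IsCuspidal (m' : Additive (Gamma0 N) →+ 𝒪) := hcusp _ m'.2
  show maninPairing (Gamma0 N) (m' : Additive (Gamma0 N) →+ 𝒪) (E m₀) = f m'
  rw [← hEadj _ _ hm'c m₀.2, hE2 _ m'.2]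
  have h1 := hm₀ ⟨m', hm'c⟩
  rw [pairR_apply] at h1
  rw [h1, hF]
  show f (E.codRestrict V hE3 (m' : Additive (Gamma0 N) →+ 𝒪)) = f m'
  congr 1
  exact Subtype.ext (hE2 _ m'.2)

end Main

end Fermat.Agent.S59.Arch.PerfMin
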