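import Fermat.Agent.S59.Arch.Final3
import Fermat.Agent.S59.WallP3.Final

/-!
# Row S59 — the LIVE plug file of the trunk (architect helper239)

`s59_of_open_cells` : row S59 from the cells of LO that are still OPEN.  Closed cells are plugged
here as they are merged into the trunk `origin/helper239`.

* (A)  CLOSED 01:27Z : `WallP3.cellA : LOW.MazurW35Statement → LOW.S39W35Statement`
  (cell architect helper944; independent build helper49);
* (B1) open : `LOW.MazurW35Statement`;
* (B2) open : `LOW.S39W35Statement → LOW.PivotW35Statement`;
* (C)  open : `H826.SqFree35Statement`.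
-/

set_option autoImplicit false

namespace Fermat.Agent.S59.Arch

open Fermat.Agent.S59

/-- **ROW S59 from the open cells** (B1), (B2), (C). -/
theorem s59_of_open_cells (hC : H826.SqFree35Statement) (hB1 : LOW.MazurW35Statement)
    (hB2 : LOW.S39W35Statement → LOW.PivotW35Statement) : H239.S59Statement :=
  s59_of_cells hC hB1 WallP3.cellA hB2

end Fermat.Agent.S59.Arch
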