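import Fermat.Agent.S59.Arch.Plug
import Fermat.Agent.S59.LO.H405.PivotClosed

/-!
# Row S59 — LIVE plug file no. 2 of the trunk (architect helper239)

Cells (A) and (B2) plugged:

* (A)  `WallP3.cellA : LOW.MazurW35Statement → LOW.S39W35Statement` (helper944);
* (B2) `LO.H405.pivotW35_closed : LOW.S39W35Statement → LOW.PivotW35Statement`
  (helper405 on the cell HECKE-T of helper3).

    s59_of_b1_c : H826.SqFree35Statement → LOW.MazurW35Statement → H239.S59Statement

Open: (B1) `LOW.MazurW35Statement`, (C) `H826.SqFree35Statement`.
-/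

set_option autoImplicit false

namespace Fermat.Agent.S59.Arch

open Fermat.Agent.S59

/-- **ROW S59 from the cells (B1) and (C).** -/
theorem s59_of_b1_c (hC : H826.SqFree35Statement) (hB1 : LOW.MazurW35Statement) :
    H239.S59Statement :=
  s59_of_open_cells hC hB1 LO.H405.pivotW35_closed

end Fermat.Agent.S59.Arch
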