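import Fermat.Agent.S59.Arch.Plug2
import Fermat.Agent.S59.LOQ.H213.Closed3

/-!
# Row S59 — LIVE plug file no. 3 of the trunk (architect helper239)

Cells (A), (B1), (B2) plugged:

* (A)  `WallP3.cellA : LOW.MazurW35Statement → LOW.S39W35Statement` (helper944);
* (B1) `LOQ.H213.mazurW35 : LOW.MazurW35Statement` (helper213, helper158);
* (B2) `LO.H405.pivotW35_closed : LOW.S39W35Statement → LOW.PivotW35Statement`
  (helper405 on the cell HECKE-T of helper3).

    s59_of_c : H826.SqFree35Statement → H239.S59Statement

ROW S59 = ONE Prop: cell (C), `H826.SqFree35Statement` (helper885, helper826).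
-/

set_option autoImplicit false

namespace Fermat.Agent.S59.Arch

open Fermat.Agent.S59

/-- **ROW S59 from the cell (C).** -/
theorem s59_of_c (hC : H826.SqFree35Statement) : H239.S59Statement :=
  s59_of_b1_c hC LOQ.H213.mazurW35

end Fermat.Agent.S59.Arch
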