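import Mathlib
import Fermat.Prelude.Def_CuspForm_HeckeGaloisRepDatum
import Fermat.Prelude.Def_GaloisRep_DeformationRingData
import Fermat.Prelude.Def_GaloisRep_DeformationCondition
import Fermat.Prelude.Def_GaloisRep_LocalConditions
import Fermat.Prelude.Def_GaloisRep_StrictOrdinary
import Fermat.Prelude.Def_GaloisRep_Flat
import Fermat.Prelude.Def_Algebra_PatchingDatum
import Fermat.Prelude.Def_FLTPrelim_ModularRep
import Fermat.Agent.S59.H239.Top

/-!
# Row S59 — middle-layer interfaces (architecture draft, helper239)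

Plan: `coord/S59-arch-helper239.md` on origin/helper239.  Only sorry-free definitions here.
Every `...Statement : Prop` is a deliverable (prove `theorem foo : ...Statement`), every
structure is an interface between layers.

* `CurveRep p W 𝒪`        : the `p`-adic Tate module of `W` with all its local properties (layer E).
* `PointOfDatum H ρ`       : `ρ` is the specialisation of the Hecke–Galois datum `H` at an
                             `𝒪`-point of `T` ("`ρ` is modular of the level of `H`").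
* `FrobExistsStatement`    : Frobenius elements exist at every prime.
* `semistableCond`         : the deformation condition satisfied by `CurveRep`.
* `SemistableMLTStatement` : the modularity lifting theorem in "point" form.
-/

set_option autoImplicit false

namespace Fermat.Agent.S59.Arch

open Polynomial WeierstrassCurve WeierstrassCurve.Affine WeierstrassCurve.Affine.Point
open scoped WeierstrassCurve.Affine

/-- `ℚ̄` -/
abbrev Qb : Type := AlgebraicClosure ℚ

/-- `Gal(ℚ̄/ℚ)` -/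
abbrev GQ : Type := Qb ≃ₐ[ℚ] Qb

/-- Frobenius elements exist: over every prime `ℓ` there is a valuation subring of `ℚ̄` and an
(arithmetic) Frobenius element for it. -/
def FrobExistsStatement : Prop :=
  ∀ ℓ : ℕ, ℓ.Prime → ∃ (A : ValuationSubring Qb) (σ : GQ), A.LiesOverPrime ℓ ∧
    A.IsFrobeniusAt σ ℓ

section CurveRep

variable (p : ℕ) [Fact p.Prime] (W : WeierstrassCurve ℤ)
  (𝒪 : Type) [CommRing 𝒪] [IsLocalRing 𝒪]

/-- **Interface I0 (layer E).**  The `p`-adic Galois representation of the semistable curve `W`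
(its Tate module, base changed to `𝒪`), with the local properties needed to make it a deformation
of `E[p]` of "semistable type". -/
structure CurveRep : Type 1 where
  /-- the representation -/
  ρ : GaloisRepAdic 𝒪
  /-- `E[p]` has `p²` points -/
  hcard : Nat.card (Submodule.torsionBy ℤ
      ((W.map (Int.castRingHom ℚ))⁄(AlgebraicClosure ℚ)).Point p) = p ^ 2
  /-- the action on `E[p]` factors through a finite quotient -/
  hker : GaloisFactorsThroughFiniteLevel
      (WeierstrassCurve.Affine.Point.galoisRepModuleEnd (K := AlgebraicClosure ℚ) ℚ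
        (W.map (Int.castRingHom ℚ)) p)
  /-- the residue field of `𝒪` is an extension of `𝔽_p` -/
  ι : ZMod p →+* IsLocalRing.ResidueField 𝒪
  /-- the reduction of `ρ` is `E[p]` -/
  residual : ρ.residual.IsEquiv
    (((W.map (Int.castRingHom ℚ)).residualGaloisRepOf p hcard hker).baseChangeAlong ι)
  /-- Frobenius at the good primes `ℓ ≠ p` -/
  charpoly_frob : ∀ ℓ : ℕ, ℓ.Prime → W.IsGoodPrimeFor ℓ → ℓ ≠ p →
    ∀ A : ValuationSubring Qb, A.LiesOverPrime ℓ → ∀ σ : GQ, A.IsFrobeniusAt σ ℓ →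
      LinearMap.charpoly (ρ.ρ σ) = X ^ 2 - C ((W.apOfModel ℓ : ℤ) : 𝒪) * X + C ((ℓ : 𝒪))
  /-- the determinant is the cyclotomic character -/
  det : ρ.DetIsCyclotomic p
  /-- unramified at the good primes `ℓ ≠ p` -/
  unram : ∀ ℓ : ℕ, ℓ.Prime → W.IsGoodPrimeFor ℓ → ℓ ≠ p → ρ.IsUnramifiedAt ℓ
  /-- unipotent inertia at the bad primes `ℓ ≠ p` (semistability) -/
  unip : ∀ ℓ : ℕ, ℓ.Prime → ¬ W.IsGoodPrimeFor ℓ → ℓ ≠ p → ρ.IsUnipotentOnInertiaAt ℓ
  /-- flat at `p` if `W` has good reduction at `p` -/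
  flat : W.IsGoodPrimeFor p → ρ.IsFlatAt p
  /-- strictly ordinary at `p` if `W` has multiplicative reduction at `p` -/
  ord : ¬ W.IsGoodPrimeFor p → ρ.IsStrictOrdinaryAt p

end CurveRep

/-- **Layer E deliverable.**  Every semistable `W` with irreducible `E[p]` (`p` odd) has a
`CurveRep` over every complete DVR `𝒪` of characteristic zero and residue characteristic `p`
with finite residue field (in particular over `ℤ_p`). -/
def CurveRepStatement : Prop :=
  ∀ (p : ℕ) [Fact p.Prime] (_hp2 : p ≠ 2) (W : WeierstrassCurve ℤ) (_hΔ : W.Δ ≠ 0)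
    (_hW : W.IsSemistableModel) (_hirr : W.ModRepIsIrreducible p)
    (𝒪 : Type) [CommRing 𝒪] [IsDomain 𝒪] [IsDiscreteValuationRing 𝒪]
    [IsAdicComplete (IsLocalRing.maximalIdeal 𝒪) 𝒪] [Finite (IsLocalRing.ResidueField 𝒪)]
    [CharZero 𝒪] (_hp𝒪 : (p : 𝒪) ∈ IsLocalRing.maximalIdeal 𝒪),
    Nonempty (CurveRep p W 𝒪)

section Point

variable {N : ℕ} [NeZero N] {S : Set ℕ}
  {𝒪 : Type} [CommRing 𝒪] [IsDomain 𝒪] [IsDiscreteValuationRing 𝒪]
  [IsAdicComplete (IsLocalRing.maximalIdeal 𝒪) 𝒪]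
  {θ : CuspForm.heckeAlgebra N 2 S →+* IsLocalRing.ResidueField 𝒪}
  {T : Type} [CommRing T] [IsLocalRing T] [IsNoetherianRing T]
  [IsAdicComplete (IsLocalRing.maximalIdeal T) T] [Algebra 𝒪 T] [IsLocalHom (algebraMap 𝒪 T)]
  [Module.Finite 𝒪 T] [Module.Free 𝒪 T]

/-- `ρ` is the specialisation of the Hecke–Galois datum `H` at an `𝒪`-point of `T`. -/
def PointOfDatum (H : CuspForm.HeckeGaloisRepDatum N S 𝒪 θ T) (ρ : GaloisRepAdic 𝒪) : Prop :=
  ∃ (ψ : T →ₐ[𝒪] 𝒪) (hψ : IsLocalHom (ψ : T →+* 𝒪)),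
    (H.ρ.baseChangeAlong (ψ : T →+* 𝒪) hψ).IsEquiv ρ

end Point

/-- The deformation condition of "semistable type" relative to a finite set `Σ` of primes
(`p ∈ Σ`): determinant cyclotomic, unramified outside `Σ`, unipotent inertia at the primes of
`Σ` different from `p`, and at `p`: flat (`ord = false`) or strictly ordinary (`ord = true`).
For `Σ = Smin ∪ Q` with the unipotent condition only at `Smin` one gets the conditions of S56;
here the unipotent condition is imposed on ALL of `Σ` (this is the type of `CurveRep` with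
`Σ = {p} ∪ bad primes`). -/
def semistableCond (𝒪 : Type) [CommRing 𝒪] (p : ℕ) (Sig : Finset ℕ) (ord : Bool) :
    ∀ ⦃A : Type⦄ [CommRing A] [IsLocalRing A] [Algebra 𝒪 A], GaloisRepAdic A → Prop :=
  fun _A _ _ _ ρ =>
    (if ord then GaloisRep.minimalStrictOrdinaryCondition 𝒪 p Sig ρ
      else GaloisRep.minimalFlatCondition 𝒪 p Sig ρ)

/-- **The modularity lifting theorem in point form** (this is where `R = T` lives).
For `p ∈ {3, 5}` and `W` as in S59 there are a cube-free level `N` (prime to `p²`, divisible by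
the bad primes), a finite set `S` of primes (`= {p} ∪ primes of N`) and a Hecke–Galois datum `H`
of level `N` away from `S` over `𝒪 = ` any complete DVR as above, such that every `CurveRep` of
`W` over `𝒪` is a point of `H`. -/
def SemistableMLTStatement : Prop :=
  ∀ (p : ℕ) [Fact p.Prime] (_hp : p = 3 ∨ p = 5)
    (W : WeierstrassCurve ℤ) (_hΔ : W.Δ ≠ 0) (_hW : W.IsSemistableModel)
    (_hirr : W.ModRepIsIrreducible p)
    (M₀ : ℕ) [NeZero M₀] (_hres₀ : W.IsResiduallyModularOfLevel p M₀)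
    (_hM₀ : ¬ p ^ 2 ∣ M₀)
    (_hM₀3 : ∀ q : ℕ, q.Prime → q ≠ p → ¬ q ^ 3 ∣ M₀)
    (𝒪 : Type) [CommRing 𝒪] [IsDomain 𝒪] [IsDiscreteValuationRing 𝒪]
    [IsAdicComplete (IsLocalRing.maximalIdeal 𝒪) 𝒪] [Finite (IsLocalRing.ResidueField 𝒪)]
    [CharZero 𝒪] (_hp𝒪 : (p : 𝒪) ∈ IsLocalRing.maximalIdeal 𝒪)
    (ρW : CurveRep p W 𝒪),
    ∃ (N : ℕ) (_ : NeZero N) (S : Finset ℕ),
      ¬ p ^ 2 ∣ N ∧ (∀ q : ℕ, q.Prime → ¬ q ^ 3 ∣ N) ∧
      (∀ ℓ : ℕ, ℓ.Prime → (ℓ : ℤ) ∣ W.Δ → ℓ ∣ N) ∧
      (∀ ℓ ∈ S, ℓ.Prime) ∧ (∀ ℓ ∈ S, ℓ = p ∨ ℓ ∣ N) ∧ p ∈ S ∧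
      (∀ q : ℕ, q.Prime → q ∣ N → q ∈ S) ∧
      ∃ (θ : CuspForm.heckeAlgebra N 2 (↑S : Set ℕ) →+* IsLocalRing.ResidueField 𝒪)
        (T : Type) (_ : CommRing T) (_ : IsLocalRing T) (_ : IsNoetherianRing T)
        (_ : IsAdicComplete (IsLocalRing.maximalIdeal T) T) (_ : Algebra 𝒪 T)
        (_ : IsLocalHom (algebraMap 𝒪 T)) (_ : Module.Finite 𝒪 T) (_ : Module.Free 𝒪 T)
        (H : CuspForm.HeckeGaloisRepDatum N (↑S : Set ℕ) 𝒪 θ T),
        PointOfDatum H ρW.ρ

end Fermat.Agent.S59.Arch
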